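import Fermat.Agent.Root.LFunctionNode
import Fermat.Agent.Root.SummaryPotentialGoodReduction

/-!
# Frobenius on the torsion of nonsingular reduction at a node

At a multiplicative prime `q` the character of the points of nonsingular reduction at the node
commutes with the decomposition group up to the exchange of the branches. So an arithmetic
Frobenius multiplies the `p`-power torsion of nonsingular reduction, `p ≠ q`, by `q` in the split
and by `-q` in the non-split case. There is no condition on `p` or `q`.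
-/

set_option autoImplicit false
set_option linter.unusedSectionVars false
set_option linter.style.haveILetI false

noncomputable section

open Matrix WeierstrassCurve FA.Local FA.Frob FA.EC FA.LocalDef FA.RT FA.RT.Tate
open scoped Pointwise WeierstrassCurve.Affine

local notation "Qb" => AlgebraicClosure ℚ
local notation "GQ" => AlgebraicClosure ℚ ≃ₐ[ℚ] AlgebraicClosure ℚ

namespace FA.GoodReduction

/-- Congruent units have congruent quotients. -/
theorem map_div_sub_div_lt {L Γ : Type*} [Field L] [LinearOrderedCommGroupWithZero Γ]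
    {v : Valuation L Γ} {a b c d : L} (hb : v b = 1) (hc : v c = 1) (hd : v d = 1)
    (h₁ : v (a - c) < 1) (h₂ : v (b - d) < 1) : v (a / b - c / d) < 1 := by
  rw [div_sub_div _ _ (v.ne_zero_iff.mp (hb ▸ one_ne_zero)) (v.ne_zero_iff.mp (hd ▸ one_ne_zero)),
    map_div₀, map_mul, hb, hd, one_mul, div_one,
    show a * d - b * c = (a - c) * d - (b - d) * c by ring]
  exact v.map_sub_lt (map_mul_lt_one' h₁ hd.le) (map_mul_lt_one' h₂ hc.le)

variable {W : WeierstrassCurve ℤ} [(ratCurve W).IsElliptic] {q : ℕ} {A : ValuationSubring Qb}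
  {r : Qb}

local notation "EQ" => ((ratCurve W)⁄Qb)
local notation "E'" => (toOrigin ((ratCurve W)⁄Qb) r)

variable (N : NodeData W q A r)

include N

/-- The branch congruent to a given one gives a congruent character. -/
theorem nodeChar_congr_branch {P : (E').toAffine.Point} (hP : E0 A.valuation (E').toAffine P)
    {s t : Qb} (hs : A.valuation (qb (E').toAffine s) < 1)
    (ht : A.valuation (qb (E').toAffine t) < 1) (hst : A.valuation (t - s) < 1) :
    A.valuation (nodeChar A.valuation (E').toAffine t P -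
      nodeChar A.valuation (E').toAffine s P) < 1 := by
  rcases P with _ | ⟨x, y, h⟩
  · simp [nodeChar]
  rcases lt_or_eq_of_le (show 1 ≤ A.valuation x from hP) with hx | hx
  · rw [nodeChar_e1 (P := .some x y h) hx, nodeChar_e1 (P := .some x y h) hx, sub_self, map_zero]
    exact zero_lt_one
  rw [nodeChar_some h hx.symm, nodeChar_some h hx.symm]
  obtain ⟨-, b₁⟩ := branch_units N.node ht h.1 hx.symm
  obtain ⟨a₂, b₂⟩ := branch_units N.node hs h.1 hx.symm
  refine map_div_sub_div_lt b₁ a₂ b₂ ?_ ?_
  · rw [show y - t * x - (y - s * x) = -((t - s) * x) by ring, A.valuation.map_neg]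
    exact map_mul_lt_one' hst hx.ge
  · rw [show y - (-(E').toAffine.a₁ - t) * x - (y - (-(E').toAffine.a₁ - s) * x) =
      (t - s) * x by ring]
    exact map_mul_lt_one' hst hx.ge

/-- **The character commutes with the decomposition group.** -/
theorem nodeChar_smul {σ : GQ} (hσ : σ ∈ A.decompositionSubgroup ℚ) {s : Qb}
    (hs : A.valuation (qb (E').toAffine s) < 1) {P Q : (E').toAffine.Point}
    (hP : E0 A.valuation (E').toAffine P) (hPQ : σ • originEquiv EQ r P = originEquiv EQ r Q) :
    A.valuation (nodeChar A.valuation (E').toAffine (σ s) Q -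
      σ (nodeChar A.valuation (E').toAffine s P)) < 1 := by
  rcases P with _ | ⟨x, y, h⟩
  · have hQ : Q = 0 := (originEquiv EQ r).injective (by
      rw [← hPQ, map_zero, ← Affine.Point.zero_def, map_zero, gal_smul_zero])
    subst hQ
    rw [nodeChar_e1 e1_zero, nodeChar_e1 (P := Affine.Point.zero) (by trivial), map_one, sub_self,
      map_zero]
    exact zero_lt_one
  obtain ⟨y', h', e⟩ := N.smul_origin (σ := σ) h
  obtain rfl : Q = .some _ _ h' := (originEquiv EQ r).injective (hPQ.symm.trans e)
  set δ := σ r - r with hδ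
  have hδa : A.valuation δ ≤ A.valuation (E').a₄ := N.delta_le hσ
  have hx' : A.valuation (σ x + δ) = A.valuation x := by
    rw [A.valuation.map_add_eq_of_lt_left, decomp_map_eq hσ]
    rw [decomp_map_eq hσ]
    exact (hδa.trans_lt N.node.hb).trans_le hP
  rcases lt_or_eq_of_le (show 1 ≤ A.valuation x from hP) with hx | hx
  · rw [nodeChar_e1 (P := .some x y h) hx,
      nodeChar_e1 (P := .some _ _ h') (show 1 < A.valuation (σ x + δ) by rwa [hx']), map_one,
      sub_self, map_zero]
    exact zero_lt_one
  have hy : y' = σ y + (σ (halfY EQ r) - halfY EQ r) := by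
    obtain ⟨h₁, e₁⟩ := originEquiv_some h
    obtain ⟨h₂, e₂⟩ := smul_some (σ := σ) (ratCurve W) h₁
    obtain ⟨h₃, e₃⟩ := originEquiv_some h'
    have h1 := e
    rw [e₁, e₂, e₃, Affine.Point.some.injEq] at h1
    linear_combination -h1.2 + map_add σ y (halfY EQ r)
  have hδ1 : A.valuation δ < 1 := hδa.trans_lt N.node.hb
  have hε : A.valuation (σ (halfY EQ r) - halfY EQ r) < 1 := by
    have e2 : σ (halfY EQ r) - halfY EQ r = -((EQ).a₁ * (δ / 2)) := by
      simp only [halfY, map_div₀, map_neg, map_add, map_mul, map_ofNat, δ,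
        WeierstrassCurve.baseChange, WeierstrassCurve.map_a₁, WeierstrassCurve.map_a₃,
        AlgEquiv.commutes]
      field_simp
      ring
    have hδ4 : A.valuation δ ≤ A.valuation (4 : Qb) * A.valuation (E').a₄ := by
      have hroot : δ * (4 * δ ^ 2 + discB EQ r * δ + 4 * (E').a₄) = 0 := by
        have h := psi2_add (two_ne_zero : (2 : Qb) ≠ 0) EQ r δ
        rwa [hδ, add_sub_cancel, ← psi2_map, N.root, map_zero, zero_add, eq_comm] at h
      exact small_root_le (ratCurve W) N.node hroot hδ1
    have h22 : δ / 2 = δ / 4 * 2 := by ring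
    rw [e2, A.valuation.map_neg, map_mul, h22, map_mul, map_div₀]
    refine lt_of_le_of_lt (mul_le_of_le_one_left' ?_) ?_
    · rw [← toOrigin_a₁ (r := r)]; exact N.node.hI.h₁
    · refine lt_of_le_of_lt (mul_le_of_le_one_right' le_two) (lt_of_le_of_lt ?_ N.node.hb)
      rw [div_le_iff₀ (A.valuation.pos_iff.mpr (by norm_num : (4 : Qb) ≠ 0)), mul_comm]
      exact hδ4
  have ha1 : σ (E').toAffine.a₁ = (E').toAffine.a₁ := by
    show σ (E').a₁ = (E').a₁
    rw [toOrigin_a₁]
    simp [WeierstrassCurve.baseChange]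
  have hv : ∀ z, A.valuation z = 1 → A.valuation (σ z) = 1 := fun z hz => by
    rw [decomp_map_eq hσ, hz]
  rw [nodeChar_some h hx.symm, nodeChar_some h' (hx'.trans hx.symm), map_div₀]
  obtain ⟨a₁', b₁'⟩ := branch_units N.node (FA.Root.smul_branch N hσ hs) h'.1 (hx'.trans hx.symm)
  obtain ⟨a₁, b₁⟩ := branch_units N.node hs h.1 hx.symm
  have hs1 : A.valuation (σ s) ≤ 1 := FA.Root.branch_le N (FA.Root.smul_branch N hσ hs)
  refine map_div_sub_div_lt b₁' (hv _ a₁) (hv _ b₁) ?_ ?_
  · rw [hy, show σ y + (σ (halfY EQ r) - halfY EQ r) - σ s * (σ x + δ) - σ (y - s * x) =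
      σ (halfY EQ r) - halfY EQ r - σ s * δ by rw [map_sub, map_mul]; ring]
    exact A.valuation.map_sub_lt hε (map_mul_lt_one hs1 hδ1)
  · rw [hy, show σ y + (σ (halfY EQ r) - halfY EQ r) - (-(E').toAffine.a₁ - σ s) * (σ x + δ) -
        σ (y - (-(E').toAffine.a₁ - s) * x) =
      σ (halfY EQ r) - halfY EQ r + ((E').toAffine.a₁ + σ s) * δ by
      rw [map_sub, map_mul, map_sub, map_neg, ha1]; ring]
    exact A.valuation.map_add_lt hε
      (map_mul_lt_one (A.valuation.map_add_le N.node.hI.h₁ hs1) hδ1)

/-- A point of nonsingular reduction whose character is congruent to one and which is killed by a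
power of `p ≠ q` is zero. -/
theorem eq_zero_of_nodeChar {p : ℕ} [hp : Fact p.Prime] (hqp : q ≠ p) {s : Qb}
    (hs : A.valuation (qb (E').toAffine s) < 1) {D : (E').toAffine.Point}
    (hD : E0 A.valuation (E').toAffine D) {n : ℕ} (hn : p ^ n • D = 0)
    (h : A.valuation (nodeChar A.valuation (E').toAffine s D - 1) < 1) : D = 0 := by
  haveI : (EQ).IsElliptic := inferInstanceAs ((ratCurve W).map (algebraMap ℚ Qb)).IsElliptic
  have h1 := (e1_origin N.int D).mpr (e1_of_nodeChar N.node hs hD h)
  have hpv : A.valuation (p : Qb) = 1 := by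
    have := valuation_intCast_of_liesOverPrime N.mult.prime N.mult.lies (n := (p : ℤ)) fun hd =>
      hqp ((Nat.prime_dvd_prime_iff_eq N.mult.prime hp.out).mp (Int.natCast_dvd_natCast.mp hd))
    rwa [Int.cast_natCast] at this
  exact (originEquiv EQ r).injective (by
    rw [map_zero]
    exact FA.PotentialGood.eq_zero_of_e1_prime_pow (intCoeff_ratCurve W A) hp.out hpv h1 (n := n)
      (by rw [← map_nsmul, hn, map_zero]))

/-- **Frobenius on the torsion of nonsingular reduction** is multiplication by `q` times the sign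
of the node. -/
theorem smul_eq_splitSign_mul {p : ℕ} [hp : Fact p.Prime] (hqp : q ≠ p) {σ : GQ}
    (hσ : A.IsFrobeniusAt σ q) {P : Pts W} (hP : P ∈ N.e0Sub) {n : ℕ} (hn : p ^ n • P = 0) :
    σ • P = (FA.Root.splitSign W q * q) • P := by
  classical
  have hd := hσ.mem_decompositionSubgroup
  obtain ⟨P, rfl⟩ := (originEquiv EQ r).surjective P
  obtain ⟨Q, hQ⟩ := (originEquiv EQ r).surjective (σ • originEquiv EQ r P)
  have hQ0 : E0 A.valuation (E').toAffine Q := by
    rw [← N.mem_e0Sub, hQ]; exact N.smul_mem_e0Sub hd hP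
  have hP0 : E0 A.valuation (E').toAffine P := N.mem_e0Sub.mp hP
  have hPn : p ^ n • P = 0 := (originEquiv EQ r).injective (by rw [map_nsmul, hn, map_zero])
  have hQn : p ^ n • Q = 0 := (originEquiv EQ r).injective (by
    rw [map_nsmul, hQ, map_zero]
    exact ((map_nsmul (DistribSMul.toAddMonoidHom (Pts W) σ) (p ^ n) _).symm.trans
      (congrArg (σ • ·) hn)).trans (gal_smul_zero _ σ))
  obtain ⟨s, hs⟩ := N.exists_branch
  set V := A.valuation
  set c := nodeChar V (E').toAffine s P with hc
  have hc1 : V c = 1 := nodeChar_unit N.node hs hP0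
  have hfrob : V (σ c - c ^ q) < 1 := by
    have hσc : V (σ c) ≤ 1 := decomp_map_le hd hc1.le
    have hcq : V (c ^ q) ≤ 1 := map_pow_le_one hc1.le q
    have hle : V (σ c - c ^ q) ≤ 1 := V.map_sub_le hσc hcq
    rw [← res_eq_zero_iff hle]
    have h := res_add (A := A) hle hcq
    rw [sub_add_cancel, res_smul hd hc1.le, hσ.smul_residue_eq, res_pow hc1.le, right_eq_add] at h
    exact h
  have hconj := V.map_add_lt (nodeChar_smul N hd hs hP0 hQ.symm) hfrob
  rw [sub_add_sub_cancel] at hconj
  have hqP := nodeChar_nsmul N.node hs hP0 q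
  have hqP0 := N.node.e0_nsmul hP0 q
  by_cases hfix : V (σ s - s) < 1
  · rw [FA.Root.splitSign, if_pos ((FA.Root.splitModel_iff_fixed N hσ hs).mpr hfix), one_mul,
      natCast_zsmul, ← hQ, ← map_nsmul]
    congr 1
    rw [← sub_eq_zero]
    have hD0 := N.node.e0_sub hQ0 hqP0
    refine eq_zero_of_nodeChar N hqp hs hD0 (n := n)
      (by rw [nsmul_sub, hQn, ← mul_nsmul', mul_comm, mul_nsmul', hPn, nsmul_zero, sub_zero]) ?_
    have hadd := nodeChar_add N.node hs hD0 hqP0
    rw [sub_add_cancel] at hadd
    have hQc := nodeChar_congr_branch N hQ0 hs (FA.Root.smul_branch N hd hs) hfix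
    have hu := nodeChar_unit N.node hs hqP0
    have hkey : V ((nodeChar V (E').toAffine s (Q - q • P) - 1) *
        nodeChar V (E').toAffine s (q • P)) < 1 := by
      have := V.map_sub_lt (V.map_sub_lt (V.map_sub_lt hconj hQc) hqP) hadd
      refine lt_of_eq_of_lt (congrArg V ?_) this
      ring
    rwa [map_mul, hu, mul_one] at hkey
  · rw [FA.Root.splitSign, if_neg fun h => hfix ((FA.Root.splitModel_iff_fixed N hσ hs).mp h),
      neg_one_mul, neg_zsmul, natCast_zsmul, ← hQ, ← map_nsmul, ← map_neg]
    congr 1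
    rw [← add_eq_zero_iff_eq_neg]
    have hD0 := N.node.e0_add hQ0 hqP0
    refine eq_zero_of_nodeChar N hqp hs hD0 (n := n)
      (by rw [nsmul_add, hQn, ← mul_nsmul', mul_comm, mul_nsmul', hPn, nsmul_zero, add_zero]) ?_
    have hadd := nodeChar_add N.node hs hQ0 hqP0
    have hswap := (Node.root_cases hs (FA.Root.smul_branch N hd hs)).resolve_left hfix
    have hQc := nodeChar_congr_branch N hQ0 (s := -(E').toAffine.a₁ - s)
      (by rw [Node.qb_other]; exact hs) (FA.Root.smul_branch N hd hs) hswap
    have hinv : nodeChar V (E').toAffine (-(E').toAffine.a₁ - s) Q =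
        (nodeChar V (E').toAffine s Q)⁻¹ := by
      rcases Q with _ | ⟨x, y, h⟩
      · simp [nodeChar]
      rcases lt_or_eq_of_le (show 1 ≤ V x from hQ0) with hx | hx
      · rw [nodeChar_e1 (P := .some x y h) hx, nodeChar_e1 (P := .some x y h) hx, inv_one]
      · rw [nodeChar_some h hx.symm, nodeChar_some h hx.symm, inv_div]
        congr 2
        ring
    rw [hinv] at hQc
    set z := nodeChar V (E').toAffine s Q with hz
    have hzu : V z = 1 := nodeChar_unit N.node hs hQ0
    have hz0 : z ≠ 0 := V.ne_zero_iff.mp (hzu ▸ one_ne_zero)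
    have h1 : V (c ^ q * z - 1) < 1 := by
      have h2 := map_mul_lt_one' (V.map_sub_lt hQc hconj) hzu.le
      refine lt_of_eq_of_lt (congrArg V ?_) h2
      field_simp
      ring
    have h3 := V.map_add_lt (V.map_add_lt hadd h1) (map_mul_lt_one hzu.le hqP)
    refine lt_of_eq_of_lt (congrArg V ?_) h3
    ring

end FA.GoodReduction

end
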