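import Fermat.Agent.Root.LFunctionBad
import Fermat.Agent.Root.GlobalModel
import Mathlib.NumberTheory.Padics.HeightOneSpectrum

/-!
# The Euler factor at an additive prime

At a prime `q` at which a curve over `ℚ` has neither good nor multiplicative reduction in the sense
of `ℤ_q` the minimal equation over the completion has neither, so the Euler factor is `1` and the
coefficients of the L-function at the powers of `q` vanish.
-/

set_option autoImplicit false

noncomputable section

open WeierstrassCurve IsDedekindDomain NumberField IsDiscreteValuationRing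
open Rat.HeightOneSpectrum (primesEquiv)

namespace FA.GoodReduction

/-- **The coefficients at an additive prime vanish.** -/
theorem LFunction_prime_pow_eq_zero (E : WeierstrassCurve ℚ) {q : ℕ} [hq : Fact q.Prime]
    (h : ¬ FA.Root.IsSemistableAt E q) {k : ℕ} (hk : 0 < k) : E.LFunction (q ^ k) = 0 := by
  obtain ⟨v, rfl⟩ : ∃ v : HeightOneSpectrum (𝓞 ℚ), (primesEquiv v : ℕ) = q :=
    ⟨primesEquiv.symm (⟨q, hq.out⟩ : Nat.Primes),
      congrArg Subtype.val (primesEquiv.apply_symm_apply (⟨q, hq.out⟩ : Nat.Primes))⟩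
  set R := v.adicCompletionIntegers ℚ
  set EK := E.baseChange (v.adicCompletion ℚ) with hEK
  set M := EK.minimal R with hM
  set J := integralModel R M with hJ
  have hJK : J.map (algebraMap R (v.adicCompletion ℚ)) = M := baseChange_integralModel_eq R _
  let ψ : R →+* ℤ_[(primesEquiv v : ℕ)] :=
    ((Rat.HeightOneSpectrum.adicCompletionIntegers.padicIntEquiv v).toRingEquiv : R →+* _)
  let φ : v.adicCompletion ℚ →+* ℚ_[(primesEquiv v : ℕ)] :=
    ((Rat.HeightOneSpectrum.adicCompletion.padicEquiv v).toRingEquiv : v.adicCompletion ℚ →+* _)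
  set C := (EK.exists_isMinimal R).choose
  have hCM : C.map φ • E.map (algebraMap ℚ ℚ_[(primesEquiv v : ℕ)]) =
      (J.map ψ).map PadicInt.Coe.ringHom := by
    have e1 : E.map (algebraMap ℚ ℚ_[(primesEquiv v : ℕ)]) = EK.map φ := by
      rw [hEK]
      show _ = (E.map _).map φ
      rw [WeierstrassCurve.map_map]
      congr 1
      exact Subsingleton.elim _ _
    rw [e1, map_variableChange, show C • EK = M from rfl, ← hJK, WeierstrassCurve.map_map,
      WeierstrassCurve.map_map]
    congr 1
  have hnd : ¬ ((((primesEquiv v : ℕ)) : ℤ_[(primesEquiv v : ℕ)]) ∣ (J.map ψ).Δ ∧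
      (((primesEquiv v : ℕ)) : ℤ_[(primesEquiv v : ℕ)]) ∣ (J.map ψ).c₄) → False := fun hnd =>
    h ⟨C.map φ, J.map ψ, hCM, hnd⟩
  obtain ⟨hd, hd4⟩ : (((primesEquiv v : ℕ)) : ℤ_[(primesEquiv v : ℕ)]) ∣ (J.map ψ).Δ ∧
      (((primesEquiv v : ℕ)) : ℤ_[(primesEquiv v : ℕ)]) ∣ (J.map ψ).c₄ := not_not.mp hnd
  have hunit : ∀ r : R, (((primesEquiv v : ℕ)) : ℤ_[(primesEquiv v : ℕ)]) ∣ ψ r →
      IsDedekindDomain.HeightOneSpectrum.valuation (v.adicCompletion ℚ) (maximalIdeal R)
        (algebraMap R (v.adicCompletion ℚ) r) ≠ 1 := fun r hr h1 => by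
    rw [FA.Root.valuation_eq_one_iff_residue, IsLocalRing.residue_ne_zero_iff_isUnit] at h1
    exact PadicInt.irreducible_p.not_isUnit (isUnit_of_dvd_unit hr (h1.map ψ))
  rw [map_Δ] at hd
  rw [map_c₄] at hd4
  have hloc : EK.localPolynomial R = 1 := by
    rw [localPolynomial,
      if_neg fun hg : M.HasGoodReduction R => hunit _ hd (by
        rw [← map_Δ, hJK]; exact hg.goodReduction),
      if_neg fun hm : M.HasSplitMultiplicativeReduction R => hunit _ hd4 (by
        rw [← map_c₄, hJK]; exact hm.toHasMultiplicativeReduction.multiplicativeReduction),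
      if_neg fun hm : M.HasMultiplicativeReduction R => hunit _ hd4 (by
        rw [← map_c₄, hJK]; exact hm.multiplicativeReduction)]
  rw [FA.Root.LFunction_apply_prime_pow, WeierstrassCurve.localPowerSeries, hloc,
    show (1 : Polynomial ℤ) = 1 - Polynomial.C 0 * Polynomial.X by simp,
    FA.Root.coeff_invOfUnit_linear, zero_pow hk.ne']

end FA.GoodReduction

end
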