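import Fermat.Agent.GoodReduction.InertiaTrace
import Fermat.Agent.GoodReduction.NodeFrobenius
import Fermat.Agent.Root.SummaryRaynaudCriterion

/-!
# Frobenius on the coinvariants of inertia

`V = ℚ_p²` with the representation of a Tate basis, and `V_I` its quotient by the image of all
`ρ σ - 1` for `σ` in inertia at `q ≠ p`. An arithmetic Frobenius has on `V_I` the reversed
characteristic polynomial `1 - a X + q X ^ 2` at a good, `1 - ε X` at a multiplicative prime, `ε`
the sign of the node, and `V_I = 0` at an additive prime. A change of the integral equation does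
not change it.
-/

set_option autoImplicit false
set_option linter.style.haveILetI false
set_option linter.unusedSectionVars false

noncomputable section

open WeierstrassCurve WeierstrassCurve.Affine Matrix FA.Frob FA.RT FA.RT.Tate FA.Local
open scoped WeierstrassCurve.Affine

local notation "Qb" => AlgebraicClosure ℚ
local notation "GQ" => AlgebraicClosure ℚ ≃ₐ[ℚ] AlgebraicClosure ℚ

namespace FA.GoodReduction

/-- A series with the recurrence of a quadratic Euler factor inverts it. -/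
theorem mk_mul_quadratic {R : Type*} [CommRing R] (a : ℕ → R) (c d : R) (h0 : a 0 = 1)
    (h1 : a 1 = c) (h : ∀ r, a (r + 2) = c * a (r + 1) - d * a r) :
    PowerSeries.mk a * ((1 - Polynomial.C c * Polynomial.X + Polynomial.C d * Polynomial.X ^ 2 :
      Polynomial R) : PowerSeries R) = 1 := by
  simp only [Polynomial.coe_add, Polynomial.coe_sub, Polynomial.coe_mul, Polynomial.coe_one,
    Polynomial.coe_C, Polynomial.coe_X, Polynomial.coe_pow]
  rw [show PowerSeries.mk a * (1 - PowerSeries.C c * PowerSeries.X +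
      PowerSeries.C d * PowerSeries.X ^ 2) = PowerSeries.mk a -
        PowerSeries.C c * (PowerSeries.X * PowerSeries.mk a) +
        PowerSeries.C d * (PowerSeries.X * (PowerSeries.X * PowerSeries.mk a)) by ring]
  ext n
  match n with
  | 0 => simp [h0]
  | 1 => simp [h0, h1, PowerSeries.coeff_one, PowerSeries.coeff_C_mul,
      PowerSeries.coeff_succ_X_mul]
  | n + 2 => simp [h, PowerSeries.coeff_one, PowerSeries.coeff_C_mul,
      PowerSeries.coeff_succ_X_mul]

/-- The reversed characteristic polynomial of a `2 × 2` matrix. -/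
theorem reverse_charpoly_two {R : Type*} [CommRing R] (M : Matrix (Fin 2) (Fin 2) R) :
    M.charpoly.reverse =
      1 - Polynomial.C M.trace * Polynomial.X + Polynomial.C M.det * Polynomial.X ^ 2 := by
  rw [reverse_charpoly, charpolyRev, det_fin_two, trace_fin_two, det_fin_two M]
  simp [map_add, map_sub, map_mul]
  ring

variable {p : ℕ} [hp : Fact p.Prime] {W W' : WeierstrassCurve ℤ} [(ratCurve W).IsElliptic]
  [(ratCurve W').IsElliptic] {q : ℕ} {A : ValuationSubring Qb}

/-- The representation with coefficients in `ℚ_p`. -/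
def ratRep (B : TateBasis p W) : GQ →* Matrix (Fin 2) (Fin 2) ℚ_[p] :=
  ((algebraMap ℤ_[p] ℚ_[p]).mapMatrix : Matrix (Fin 2) (Fin 2) ℤ_[p] →+* _).toMonoidHom.comp B.rep

theorem ratRep_apply (B : TateBasis p W) (σ : GQ) :
    ratRep B σ = (algebraMap ℤ_[p] ℚ_[p]).mapMatrix (B.rep σ) := rfl

/-- The span of the images of `ρ σ - 1`, `σ` in inertia. -/
def inertiaSpan (B : TateBasis p W) (A : ValuationSubring Qb) :
    Submodule ℚ_[p] (Fin 2 → ℚ_[p]) :=
  ⨆ σ ∈ A.inertiaSubgroupIn ℚ, LinearMap.range (Matrix.toLin' (ratRep B σ - 1))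

theorem mem_inertiaSpan (B : TateBasis p W) {σ : GQ} (hσ : σ ∈ A.inertiaSubgroupIn ℚ)
    (v : Fin 2 → ℚ_[p]) : (ratRep B σ - 1) *ᵥ v ∈ inertiaSpan B A :=
  Submodule.mem_iSup_of_mem σ (Submodule.mem_iSup_of_mem hσ ⟨v, Matrix.toLin'_apply _ _⟩)

theorem inertiaSpan_le {B : TateBasis p W} {U : Submodule ℚ_[p] (Fin 2 → ℚ_[p])}
    (h : ∀ σ ∈ A.inertiaSubgroupIn ℚ, ∀ v, (ratRep B σ - 1) *ᵥ v ∈ U) : inertiaSpan B A ≤ U :=
  iSup₂_le fun σ hσ => by
    rintro _ ⟨v, rfl⟩
    rw [Matrix.toLin'_apply]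
    exact h σ hσ v

theorem inertiaSpan_le_comap (B : TateBasis p W) {F : GQ}
    (hF : F ∈ A.decompositionSubgroup ℚ) :
    inertiaSpan B A ≤ (inertiaSpan B A).comap (Matrix.toLin' (ratRep B F)) :=
  inertiaSpan_le fun σ hσ v => by
    rw [Submodule.mem_comap, Matrix.toLin'_apply, mulVec_mulVec, mul_sub, mul_one, ← map_mul,
      show F * σ = F * σ * F⁻¹ * F by group, map_mul, ← sub_one_mul, ← mulVec_mulVec]
    exact mem_inertiaSpan B (FA.TW.conj_mem_inertia_of_mem hF hσ) _

/-- An element of the decomposition group on the coinvariants of inertia. -/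
def coinvMap (B : TateBasis p W) {F : GQ} (hF : F ∈ A.decompositionSubgroup ℚ) :
    Module.End ℚ_[p] ((Fin 2 → ℚ_[p]) ⧸ inertiaSpan B A) :=
  (inertiaSpan B A).mapQ _ (Matrix.toLin' (ratRep B F)) (inertiaSpan_le_comap B hF)

/-- A homomorphism of the torsion is given by a matrix. -/
theorem exists_hom_matrix (B : TateBasis p W) (B' : TateBasis p W') (f : Pts W →+ Pts W') :
    ∃ P : Matrix (Fin 2) (Fin 2) ℤ_[p], ∀ n v, B'.φ n (P *ᵥ v) = f (B.φ n v) := by
  choose c hc using fun j : Fin 2 => B'.exists_vec (x := fun n => f (B.φ n (Pi.single j 1)))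
    (fun n => by rw [← map_nsmul, B.nsmul_phi, map_zero])
    (fun n => by rw [← map_nsmul, B.compat])
  refine ⟨Matrix.of fun i j => c j i, fun n v => ?_⟩
  have : NeZero (p ^ n) := ⟨pow_ne_zero _ hp.out.ne_zero⟩
  let k : Fin 2 → ℕ := fun i => (PadicInt.toZModPow n (v i)).val
  let v' : Fin 2 → ℤ_[p] := fun i => (k i : ℤ_[p])
  have h : ∀ i, PadicInt.toZModPow n (v i) = PadicInt.toZModPow n (v' i) := fun i => by
    show _ = PadicInt.toZModPow n (k i : ℤ_[p])
    rw [map_natCast, ZMod.natCast_zmod_val]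
  have hv' : v' = k 0 • Pi.single 0 1 + k 1 • Pi.single 1 1 := by
    funext i
    fin_cases i <;> simp [v', nsmul_eq_mul]
  rw [B'.phi_mulVec_congr _ (B'.phi_eq_iff.mpr h), B.phi_eq_iff.mpr h, hv', mulVec_add,
    mulVec_smul, mulVec_smul, mulVec_single_one, mulVec_single_one]
  simp only [map_add, map_nsmul]
  exact congrArg₂ (· + ·) (congrArg _ (hc 0 n)) (congrArg _ (hc 1 n))

/-- A change of the equation does not change Frobenius on the coinvariants. -/
theorem exists_coinv_conj (B : TateBasis p W) (B' : TateBasis p W') (e : Pts W ≃+ Pts W')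
    (he : ∀ (σ : GQ) (x : Pts W), e (σ • x) = σ • e x) (A : ValuationSubring Qb) :
    ∃ T : ((Fin 2 → ℚ_[p]) ⧸ inertiaSpan B A) ≃ₗ[ℚ_[p]] ((Fin 2 → ℚ_[p]) ⧸ inertiaSpan B' A),
      ∀ (F : GQ) (hF : F ∈ A.decompositionSubgroup ℚ),
        T.conj (coinvMap B hF) = coinvMap B' hF := by
  obtain ⟨P, hP⟩ := exists_hom_matrix B B' e.toAddMonoidHom
  obtain ⟨Q, hQ⟩ := exists_hom_matrix B' B e.symm.toAddMonoidHom
  have hP' : ∀ n v, B'.φ n (P *ᵥ v) = e (B.φ n v) := hP
  have hQ' : ∀ n v, B.φ n (Q *ᵥ v) = e.symm (B'.φ n v) := hQ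
  have hQP : Q * P = 1 := B.ext_phi fun n v => by
    rw [← mulVec_mulVec, hQ', hP', e.symm_apply_apply, one_mulVec]
  have hPQ : P * Q = 1 := B'.ext_phi fun n v => by
    rw [← mulVec_mulVec, hP', hQ', e.apply_symm_apply, one_mulVec]
  have hc : ∀ σ, B'.rep σ * P = P * B.rep σ := fun σ => B'.ext_phi fun n v => by
    rw [← mulVec_mulVec, ← B'.rep_spec, hP', ← mulVec_mulVec, hP', ← B.rep_spec, he]
  have hc' : ∀ σ, B.rep σ * Q = Q * B'.rep σ := fun σ => by
    calc B.rep σ * Q = Q * P * B.rep σ * Q := by rw [hQP, one_mul]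
      _ = Q * (B'.rep σ * P) * Q := by rw [hc, ← mul_assoc]
      _ = Q * B'.rep σ := by rw [mul_assoc, mul_assoc, hPQ, mul_one]
  let mm := (algebraMap ℤ_[p] ℚ_[p]).mapMatrix (m := Fin 2)
  let T₀ : (Fin 2 → ℚ_[p]) ≃ₗ[ℚ_[p]] (Fin 2 → ℚ_[p]) :=
    LinearEquiv.ofLinearMap (Matrix.toLin' (mm P)) (Matrix.toLin' (mm Q))
      (by rw [← Matrix.toLin'_mul, ← map_mul, hPQ, map_one, Matrix.toLin'_one])
      (by rw [← Matrix.toLin'_mul, ← map_mul, hQP, map_one, Matrix.toLin'_one])
  have hcm : ∀ σ, ratRep B' σ * mm P = mm P * ratRep B σ := fun σ => by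
    rw [ratRep_apply, ratRep_apply, ← map_mul, hc, map_mul]
  have hcm' : ∀ σ, ratRep B σ * mm Q = mm Q * ratRep B' σ := fun σ => by
    rw [ratRep_apply, ratRep_apply, ← map_mul, hc', map_mul]
  have hmap : (inertiaSpan B A).map (T₀ : (Fin 2 → ℚ_[p]) →ₗ[ℚ_[p]] (Fin 2 → ℚ_[p])) =
      inertiaSpan B' A := by
    refine le_antisymm ?_ ?_
    · rw [Submodule.map_le_iff_le_comap]
      refine inertiaSpan_le fun σ hσ v => ?_
      rw [Submodule.mem_comap]
      show Matrix.toLin' (mm P) _ ∈ inertiaSpan B' A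
      rw [Matrix.toLin'_apply, mulVec_mulVec, mul_sub, mul_one, ← hcm, ← sub_one_mul,
        ← mulVec_mulVec]
      exact mem_inertiaSpan B' hσ _
    · refine inertiaSpan_le fun σ hσ v => ?_
      rw [Submodule.map_equiv_eq_comap_symm, Submodule.mem_comap]
      show Matrix.toLin' (mm Q) _ ∈ inertiaSpan B A
      rw [Matrix.toLin'_apply, mulVec_mulVec, mul_sub, mul_one, ← hcm', ← sub_one_mul,
        ← mulVec_mulVec]
      exact mem_inertiaSpan B hσ _
  refine ⟨Submodule.Quotient.equiv _ _ T₀ hmap, fun F hF => LinearMap.ext fun x => ?_⟩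
  obtain ⟨y, rfl⟩ := (Submodule.Quotient.equiv _ _ T₀ hmap).surjective x
  rw [LinearEquiv.conj_apply_apply, LinearEquiv.symm_apply_apply]
  obtain ⟨z, rfl⟩ := Submodule.Quotient.mk_surjective _ y
  show Submodule.Quotient.mk (Matrix.toLin' (mm P) (Matrix.toLin' (ratRep B F) z)) =
    Submodule.Quotient.mk (Matrix.toLin' (ratRep B' F) (Matrix.toLin' (mm P) z))
  rw [Matrix.toLin'_apply, Matrix.toLin'_apply, Matrix.toLin'_apply, Matrix.toLin'_apply,
    mulVec_mulVec, mulVec_mulVec, hcm]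

/-- The determinant of a Frobenius. -/
theorem det_rep_frobenius (B : TateBasis p W) (hq : q.Prime) (hA : A.LiesOverPrime q)
    (hqp : q ≠ p) {F : GQ} (hF : A.IsFrobeniusAt F q) : (B.rep F).det = (q : ℤ_[p]) := by
  rw [B.det_rep, FA.JTorsion.cycP_frobenius p hq hqp hA hF]

/-- **At a good prime** the coinvariants are everything. -/
theorem coinv_good (B : TateBasis p W) (hq : q.Prime) (hA : A.LiesOverPrime q) (hqp : q ≠ p)
    (hgood : W.IsGoodPrimeFor q) :
    Module.finrank ℚ_[p] ((Fin 2 → ℚ_[p]) ⧸ inertiaSpan B A) = 2 ∧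
      ∀ {F : GQ} (hF : A.IsFrobeniusAt F q),
        (coinvMap B hF.mem_decompositionSubgroup).charpoly.reverse =
          1 - Polynomial.C (W.apOfModel q : ℚ_[p]) * Polynomial.X +
            Polynomial.C (q : ℚ_[p]) * Polynomial.X ^ 2 := by
  have hU : inertiaSpan B A = ⊥ := eq_bot_iff.mpr (inertiaSpan_le fun σ hσ v => by
    rw [ratRep_apply, B.rep_inertia_good hq hA hqp hgood hσ, map_one, sub_self, zero_mulVec]
    exact zero_mem _)
  refine ⟨by rw [LinearEquiv.finrank_eq (Submodule.quotEquivOfEqBot _ hU), Module.finrank_fin_fun],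
    fun {F} hF => ?_⟩
  have hconj : (Submodule.quotEquivOfEqBot _ hU).conj (coinvMap B hF.mem_decompositionSubgroup) =
      Matrix.toLin' (ratRep B F) := by
    refine LinearMap.ext fun x => ?_
    rw [LinearEquiv.conj_apply_apply, Submodule.quotEquivOfEqBot_symm_apply]
    rfl
  obtain ⟨ht, hd⟩ := B.rep_frobenius hq hA hqp hgood hF
  rw [← (Submodule.quotEquivOfEqBot _ hU).charpoly_conj, hconj, Matrix.charpoly_toLin',
    reverse_charpoly_two, ratRep_apply, ← RingHom.map_det, hd, RingHom.mapMatrix_apply,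
    ← AddMonoidHom.map_trace, ht, map_intCast, map_natCast]

/-- **At a multiplicative prime** the coinvariants are a line, Frobenius the sign of the node. -/
theorem coinv_mult (B : TateBasis p W) (hm : MultAt W q A) (hqp : q ≠ p) :
    Module.finrank ℚ_[p] ((Fin 2 → ℚ_[p]) ⧸ inertiaSpan B A) = 1 ∧
      ∀ {F : GQ} (hF : A.IsFrobeniusAt F q),
        (coinvMap B hF.mem_decompositionSubgroup).charpoly.reverse =
          1 - Polynomial.C (FA.Root.splitSign W q : ℚ_[p]) * Polynomial.X := by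
  obtain ⟨r, N⟩ := exists_nodeData hm
  obtain ⟨σ₀, hσ₀, hne⟩ := FA.OpenImage.exists_inertia_rep_ne_one B hm
  obtain ⟨j, hj⟩ : ∃ j, (B.rep σ₀ - 1) *ᵥ Pi.single j 1 ≠ 0 := by
    by_contra h
    push Not at h
    refine sub_ne_zero.mpr hne (Matrix.ext fun i j => ?_)
    have h' := congrFun (h j) i
    rw [mulVec_single_one, Matrix.col_apply] at h'
    rw [h', Matrix.zero_apply, Pi.zero_apply]
  set u := (B.rep σ₀ - 1) *ᵥ Pi.single j 1 with hu
  set u' : Fin 2 → ℚ_[p] := fun i => algebraMap ℤ_[p] ℚ_[p] (u i) with hu'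
  have hu'0 : u' ≠ 0 := fun h => hj (funext fun i => by
    have h' : algebraMap ℤ_[p] ℚ_[p] (u i) = 0 := congrFun h i
    exact (map_eq_zero_iff _ (FaithfulSMul.algebraMap_injective ℤ_[p] ℚ_[p])).mp h')
  have hmemU : u' ∈ inertiaSpan B A := by
    have h := mem_inertiaSpan B hσ₀
      (fun i => algebraMap ℤ_[p] ℚ_[p] ((Pi.single j 1 : Fin 2 → ℤ_[p]) i))
    convert h using 1
    funext i
    rw [hu', ratRep_apply, ← map_one ((algebraMap ℤ_[p] ℚ_[p]).mapMatrix (m := Fin 2)), ← map_sub]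
    exact RingHom.map_mulVec _ _ _ i
  have hle : inertiaSpan B A ≤ LinearMap.ker (Matrix.toLin' (ratRep B σ₀ - 1)) :=
    inertiaSpan_le fun σ hσ v => by
      rw [LinearMap.mem_ker, Matrix.toLin'_apply, mulVec_mulVec,
        ← map_one ((algebraMap ℤ_[p] ℚ_[p]).mapMatrix (m := Fin 2)), ratRep_apply, ratRep_apply,
        ← map_sub, ← map_sub, ← map_mul, FA.Two.rep_inertia_mult B hm hqp hσ hσ₀, map_zero,
        zero_mulVec]
  have hne' : ratRep B σ₀ - 1 ≠ 0 := fun h => hne <| sub_eq_zero.mp <| by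
    ext a b
    have h' := congrFun (congrFun h a) b
    rw [ratRep_apply, ← map_one ((algebraMap ℤ_[p] ℚ_[p]).mapMatrix (m := Fin 2)), ← map_sub,
      RingHom.mapMatrix_apply, Matrix.map_apply, Matrix.zero_apply,
      map_eq_zero_iff _ (FaithfulSMul.algebraMap_injective ℤ_[p] ℚ_[p])] at h'
    exact h'
  have hker : Module.finrank ℚ_[p] (LinearMap.ker (Matrix.toLin' (ratRep B σ₀ - 1))) < 2 := by
    have h := Submodule.finrank_lt (s := LinearMap.ker (Matrix.toLin' (ratRep B σ₀ - 1)))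
      fun htop => hne' (Matrix.toLin'.injective (by
        rw [map_zero, LinearMap.ker_eq_top.mp htop]))
    rwa [Module.finrank_fin_fun] at h
  have hspan : Submodule.span ℚ_[p] {u'} ≤ inertiaSpan B A :=
    (Submodule.span_singleton_le_iff_mem _ _).mpr hmemU
  have h1 : Module.finrank ℚ_[p] (Submodule.span ℚ_[p] {u'}) = 1 := finrank_span_singleton hu'0
  have hUeq : Submodule.span ℚ_[p] {u'} = inertiaSpan B A :=
    Submodule.eq_of_le_of_finrank_le hspan (by
      have := Submodule.finrank_mono hle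
      omega)
  have hfU : Module.finrank ℚ_[p] (inertiaSpan B A) = 1 := by rw [← hUeq, h1]
  have hfQ : Module.finrank ℚ_[p] ((Fin 2 → ℚ_[p]) ⧸ inertiaSpan B A) = 1 := by
    have := Submodule.finrank_quotient_add_finrank (inertiaSpan B A)
    rw [Module.finrank_fin_fun] at this
    omega
  refine ⟨hfQ, fun {F} hF => ?_⟩
  set ε := FA.Root.splitSign W q with hε
  -- Frobenius on the line
  have hFu : B.rep F *ᵥ u = ((ε * q : ℤ) : ℤ_[p]) • u := by
    refine funext fun i => PadicInt.ext_of_toZModPow.mp fun n => ?_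
    refine B.phi_eq_iff.mp ?_ i
    have hmem : B.φ n u ∈ N.e0Sub := by
      rw [hu, sub_mulVec, one_mulVec, map_sub, ← B.rep_spec]
      exact N.smul_sub_mem_e0Sub hσ₀ _
    rw [← B.rep_spec, Int.cast_smul_eq_zsmul, map_zsmul]
    exact smul_eq_splitSign_mul N hqp hF hmem (B.nsmul_phi n u)
  set M := Matrix.toLin' (ratRep B F) with hM
  have hres : M.restrict (p := inertiaSpan B A) (q := inertiaSpan B A)
      (inertiaSpan_le_comap B hF.mem_decompositionSubgroup) =
      ((ε * q : ℤ) : ℚ_[p]) • LinearMap.id := by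
    refine LinearMap.ext fun x => Subtype.ext ?_
    obtain ⟨c, hc⟩ := Submodule.mem_span_singleton.mp (hUeq.ge x.2)
    show M x.1 = ((ε * q : ℤ) : ℚ_[p]) • x.1
    rw [← hc, map_smul, smul_comm]
    congr 1
    funext i
    rw [hM, Matrix.toLin'_apply, hu', ratRep_apply]
    refine (RingHom.map_mulVec (algebraMap ℤ_[p] ℚ_[p]) (B.rep F) u i).symm.trans ?_
    rw [hFu, Pi.smul_apply, Pi.smul_apply, smul_eq_mul, smul_eq_mul, map_mul, map_intCast]
  have hq : q.Prime := hm.prime
  have hdet := LinearMap.det_eq_det_mul_det (inertiaSpan B A) M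
    (inertiaSpan_le_comap B hF.mem_decompositionSubgroup)
  have hdM : LinearMap.det M = (q : ℚ_[p]) := by
    rw [hM, LinearMap.det_toLin', ratRep_apply, ← RingHom.map_det,
      det_rep_frobenius B hq hm.lies hqp hF, map_natCast]
  rw [hres, LinearMap.det_smul, hfU, pow_one, LinearMap.det_id, mul_one, hdM] at hdet
  set f := coinvMap B hF.mem_decompositionSubgroup with hf
  have hε2 : (ε : ℚ_[p]) * ε = 1 := by
    rw [hε, FA.Root.splitSign]
    split_ifs <;> simp
  have hfdet : LinearMap.det f = (ε : ℚ_[p]) := by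
    have hq0 : ((q : ℕ) : ℚ_[p]) ≠ 0 := Nat.cast_ne_zero.mpr hq.ne_zero
    have h2 : (q : ℚ_[p]) = ((ε * q : ℤ) : ℚ_[p]) * LinearMap.det f := hdet
    push_cast at h2
    have h3 : (q : ℚ_[p]) * ((ε : ℚ_[p]) * LinearMap.det f - 1) = 0 := by
      linear_combination -h2
    linear_combination (ε : ℚ_[p]) * (mul_eq_zero.mp h3).resolve_left hq0 -
      LinearMap.det f * hε2
  have hdeg : f.charpoly.natDegree = 1 := by rw [LinearMap.charpoly_natDegree, hfQ]
  have hc0 : f.charpoly.coeff 0 = -(ε : ℚ_[p]) := by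
    rw [Polynomial.coeff_zero_eq_eval_zero, LinearMap.eval_charpoly, map_zero, zero_sub,
      ← neg_one_smul ℚ_[p] f, LinearMap.det_smul, hfQ, pow_one, hfdet, neg_one_mul]
  have hchar : f.charpoly = Polynomial.X + Polynomial.C (-(ε : ℚ_[p])) := by
    rw [f.charpoly_monic.eq_X_add_C hdeg, hc0]
  rw [hchar, Polynomial.reverse, Polynomial.natDegree_X_add_C, Polynomial.reflect_add,
    Polynomial.reflect_C, map_neg, pow_one]
  have hX : Polynomial.reflect 1 (Polynomial.X : Polynomial ℚ_[p]) = 1 := by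
    simp
  rw [hX]
  ring

/-- A point of order `p ^ 3` is not killed by `4`. -/
theorem exists_four_nsmul_ne (B : TateBasis p W) :
    ∃ x : Pts W, p ^ 3 • x = 0 ∧ 4 • x ≠ 0 := by
  refine ⟨B.φ 3 (Pi.single 0 1), B.nsmul_phi 3 _, fun h => ?_⟩
  have := Nat.le_of_dvd (by norm_num) ((nsmul_phi_single_eq_zero B).mp h)
  have : 2 ^ 3 ≤ p ^ 3 := Nat.pow_le_pow_left hp.out.two_le 3
  omega

/-- **At an additive prime some inertia element has no eigenvalue one**, so the coinvariants
vanish. -/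
theorem exists_det_ne_zero_of_additive {E : WeierstrassCurve ℚ} [E.IsElliptic]
    (hW : W.IsIntegralModelOf E) (B : TateBasis p W) [hqf : Fact q.Prime]
    (hA : A.LiesOverPrime q) (hqp : q ≠ p)
    (hadd : ¬ ∃ C : VariableChange ℚ_[q],
      HasGoodReduction ℤ_[q] (C • E.map (algebraMap ℚ ℚ_[q])) ∨
        HasMultiplicativeReduction ℤ_[q] (C • E.map (algebraMap ℚ ℚ_[q]))) :
    ∃ σ ∈ A.inertiaSubgroupIn ℚ, (B.rep σ - 1).det ≠ 0 := by
  by_contra hall
  push Not at hall
  have hq : q.Prime := hqf.out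
  have hu : ∀ σ ∈ A.inertiaSubgroupIn ℚ, (B.rep σ - 1) * (B.rep σ - 1) = 0 := fun σ hσ => by
    have hd := det_rep_inertia B hq hqp hA hσ
    refine sub_one_sq_of_trace ?_ hd
    have h := hall σ hσ
    rw [det_fin_two] at h
    rw [det_fin_two] at hd
    simp only [Matrix.sub_apply, Matrix.one_apply_eq, Matrix.one_apply_ne (show (0 : Fin 2) ≠ 1 by
      decide), Matrix.one_apply_ne (show (1 : Fin 2) ≠ 0 by decide), sub_zero] at h
    rw [trace_fin_two]
    linear_combination hd - h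
  obtain ⟨e, he⟩ := FA.Root.exists_equiv_of_model hW
  by_cases hj : 0 ≤ padicValRat q E.j
  · have hj' : 0 ≤ padicValRat q (ratCurve W).j := by rwa [FA.OggShafarevich.j_ratCurve hW]
    have h1 : ∀ σ ∈ A.inertiaSubgroupIn ℚ, B.rep σ = 1 := fun σ hσ => by
      have h12 : B.rep σ ^ 12 = 1 := (rep_pow_eq_one_iff B hA hqp hj' hσ 12).mpr (by
        rcases pow_mem_torsionFixer (W := W) hA hj' hσ with h | h
        · rw [show 12 = 4 * 3 from rfl, pow_mul]; exact pow_mem h 3
        · rw [show 12 = 6 * 2 from rfl, pow_mul]; exact pow_mem h 2)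
      rw [FA.PadicImage.pow_eq_of_sq_eq_zero (hu σ hσ), add_eq_left] at h12
      refine sub_eq_zero.mp (Matrix.ext fun a b => ?_)
      have h2 := congrFun (congrFun h12 a) b
      simp only [Matrix.smul_apply, smul_eq_mul, Matrix.zero_apply] at h2
      exact (mul_eq_zero.mp h2).resolve_left (Nat.cast_ne_zero.mpr (by norm_num))
    obtain ⟨Z, ⟨C₁, hC₁⟩, hZ⟩ := exists_integralModel_of_fixed (p := p) (W := W) hA hqp hj'
      fun σ hσ n x hx => by
        obtain ⟨v, rfl⟩ := B.surj n x hx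
        rw [B.rep_spec, h1 σ hσ, one_mulVec]
    obtain ⟨C₀, hC₀⟩ := hW
    obtain ⟨C, hC⟩ := FA.Root.exists_good_of_model (W := Z)
      ⟨C₁ * C₀, by rw [mul_smul, hC₀]; exact hC₁⟩ q hZ
    exact hadd ⟨C, Or.inl hC⟩
  refine hadd (exists_reduction_of_pole E (not_le.mp hj) hA hp.out (Ne.symm hqp)
    fun σ hσ W₁ _ hu₁ φ hφ => ?_)
  -- `σ` would be unipotent and minus unipotent
  let ψ : Pts W₁ ≃+ Pts W := φ.trans e.symm
  have hψ : ∀ x, σ • ψ x = -ψ (σ • x) := fun x => e.injective (by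
    rw [he, map_neg, show e (ψ x) = φ x from e.apply_symm_apply _, hφ,
      show e (ψ (σ • x)) = φ (σ • x) from e.apply_symm_apply _])
  obtain ⟨B₁⟩ := exists_tateBasis (p := p) W₁
  obtain ⟨x, hx, hx4⟩ := exists_four_nsmul_ne B₁
  have hy : p ^ 3 • ψ x = 0 := by rw [← map_nsmul, hx, map_zero]
  have hu₂ := (rep_sub_one_sq_iff B σ).mp (hu σ hσ) 3 (ψ x) hy
  have hlin : ∀ a b : Pts W, σ • (a - b) = σ • a - σ • b :=
    fun a b => map_sub (DistribSMul.toAddMonoidHom (Pts W) σ) a b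
  have hneg : ∀ a : Pts W, σ • (-a) = -(σ • a) :=
    fun a => map_neg (DistribSMul.toAddMonoidHom (Pts W) σ) a
  rw [hψ, hlin, hneg, hψ, hψ, neg_neg] at hu₂
  have h1 := congrArg ψ (hu₁ 3 x hx)
  rw [show σ • (σ • x - x) = σ • σ • x - σ • x from
    map_sub (DistribSMul.toAddMonoidHom (Pts W₁) σ) _ _, map_sub, map_sub] at h1
  have h4 : 4 • ψ (σ • x) = 0 := by
    have e4 : 4 • ψ (σ • x) =
        (ψ (σ • σ • x) - -ψ (σ • x) - (-ψ (σ • x) - ψ x)) -
          (ψ (σ • σ • x) - ψ (σ • x) - (ψ (σ • x) - ψ x)) := by abel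
    rw [e4, hu₂, h1, sub_self, sub_self, sub_self]
  rw [← map_nsmul] at h4
  refine hx4 ?_
  have h5 : σ • (4 • x) = 0 := (smul_nsmul_point σ 4 x).trans (ψ.injective (by rw [h4, map_zero]))
  exact inv_smul_smul σ (4 • x) ▸ (by rw [h5, FA.Local.gal_smul_zero])

/-- The coinvariants vanish at an additive prime. -/
theorem coinv_additive (B : TateBasis p W) {σ : GQ} (hσ : σ ∈ A.inertiaSubgroupIn ℚ)
    (h : (B.rep σ - 1).det ≠ 0) :
    Module.finrank ℚ_[p] ((Fin 2 → ℚ_[p]) ⧸ inertiaSpan B A) = 0 ∧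
      ∀ {F : GQ} (hF : F ∈ A.decompositionSubgroup ℚ), (coinvMap B hF).charpoly.reverse = 1 := by
  have hd : IsUnit (ratRep B σ - 1).det := by
    rw [ratRep_apply, ← map_one ((algebraMap ℤ_[p] ℚ_[p]).mapMatrix (m := Fin 2)), ← map_sub,
      ← RingHom.map_det, isUnit_iff_ne_zero]
    exact fun h0 => h ((map_eq_zero_iff _ (FaithfulSMul.algebraMap_injective ℤ_[p] ℚ_[p])).mp h0)
  have htop : inertiaSpan B A = ⊤ := eq_top_iff.mpr fun v _ => by
    have h' := mem_inertiaSpan B hσ ((ratRep B σ - 1)⁻¹ *ᵥ v)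
    rwa [mulVec_mulVec, Matrix.mul_nonsing_inv _ hd, one_mulVec] at h'
  have hf : Module.finrank ℚ_[p] ((Fin 2 → ℚ_[p]) ⧸ inertiaSpan B A) = 0 := by
    have := Submodule.finrank_quotient_add_finrank (inertiaSpan B A)
    rw [htop] at this ⊢
    rw [finrank_top] at this
    omega
  refine ⟨hf, fun {F} hF => ?_⟩
  have h1 : (coinvMap B hF).charpoly = 1 := Polynomial.eq_one_of_monic_natDegree_zero
    (LinearMap.charpoly_monic _) (by rw [LinearMap.charpoly_natDegree, hf])
  rw [h1, ← Polynomial.C_1, Polynomial.reverse_C]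

end FA.GoodReduction

end
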