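import Fermat.Agent.HasseBound.Euler
import Fermat.Agent.Root.SummaryArtinFactor

/-!
# The local polynomial as the inverse of the series of coefficients

The series `∑ a(q ^ k) X ^ k` has one inverse, so the local polynomial at `q` of the L-function is
the reversed characteristic polynomial of Frobenius on the coinvariants of inertia and is
`1 - a X + q X ^ 2`, `1 - a X` or `1` by the type of reduction.
-/

set_option autoImplicit false
set_option linter.style.haveILetI false
set_option linter.unusedSectionVars false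

noncomputable section

open WeierstrassCurve FA.Frob FA.RT.Tate FA.HasseBound

local notation "Qb" => AlgebraicClosure ℚ
local notation "GQ" => AlgebraicClosure ℚ ≃ₐ[ℚ] AlgebraicClosure ℚ

namespace FA.GoodReduction

/-- A polynomial inverting the series of coefficients is the local polynomial. -/
theorem eq_localPoly_of_inverts {R : Type*} [CommRing R] (E : WeierstrassCurve ℚ) (q : Nat.Primes)
    {Q : Polynomial R}
    (hQ : PowerSeries.mk (fun k => (E.LFunction ((q : ℕ) ^ k) : R)) * (Q : PowerSeries R) = 1) :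
    Q = (localPoly E q).map (Int.castRingHom R) := by
  have h1 : PowerSeries.mk (fun k => (E.LFunction ((q : ℕ) ^ k) : R)) *
      (((localPoly E q).map (Int.castRingHom R) : Polynomial R) : PowerSeries R) = 1 := by
    ext n
    rw [PowerSeries.coeff_mul, PowerSeries.coeff_one]
    have h := congrArg (fun z : ℤ => (z : R)) (sum_coeff_mul_LFunction E q n)
    simp only [Int.cast_sum, Int.cast_mul, apply_ite (fun z : ℤ => (z : R)), Int.cast_one,
      Int.cast_zero] at h
    rw [← h]
    exact Finset.sum_congr rfl fun x _ => by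
      rw [PowerSeries.coeff_mk, Polynomial.coeff_coe, Polynomial.coeff_map, eq_intCast]
  refine Polynomial.coe_inj.mp ?_
  calc (Q : PowerSeries R) = (Q : PowerSeries R) *
        (PowerSeries.mk (fun k => (E.LFunction ((q : ℕ) ^ k) : R)) *
          (((localPoly E q).map (Int.castRingHom R) : Polynomial R) : PowerSeries R)) := by
        rw [h1, mul_one]
    _ = _ := by rw [← mul_assoc, mul_comm (Q : PowerSeries R), hQ, one_mul]

variable {E : WeierstrassCurve ℚ} [E.IsElliptic] {q : Nat.Primes}

/-- The local polynomial at a good prime, with Hasse's bound. -/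
theorem localPoly_of_good [Fact (q : ℕ).Prime]
    (h : ∃ C : VariableChange ℚ_[(q : ℕ)],
      HasGoodReduction ℤ_[(q : ℕ)] (C • E.map (algebraMap ℚ ℚ_[(q : ℕ)]))) :
    localPoly E q = 1 - Polynomial.C (E.LFunction q) * Polynomial.X +
        Polynomial.C ((q : ℕ) : ℤ) * Polynomial.X ^ 2 ∧ E.LFunction q ^ 2 ≤ 4 * ((q : ℕ) : ℤ) := by
  obtain ⟨W, hW, hd⟩ := FA.CM.Deuring.exists_model_not_dvd E h
  have hL := FA.Root.isMultiplicative_LFunction E
  constructor
  · have := eq_localPoly_of_inverts (R := ℤ) E q (mk_mul_quadratic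
      (fun k => ((E.LFunction ((q : ℕ) ^ k) : ℤ) : ℤ)) (E.LFunction q) ((q : ℕ) : ℤ)
      (by simp [hL.map_one]) (by simp) fun r => by
        rw [FA.Root.LFunction_apply_prime_pow_good E W hW q.2 hd r,
          FA.Root.LFunction_apply_prime E W hW q.2 hd])
    simpa using this.symm
  · obtain ⟨C, hC⟩ := hW
    exact FA.Summary.hasse_LFunction E W C hC q.2 hd

/-- The local polynomial at a multiplicative prime. -/
theorem localPoly_of_multiplicative [Fact (q : ℕ).Prime]
    (h : ∃ C : VariableChange ℚ_[(q : ℕ)],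
      HasGoodReduction ℤ_[(q : ℕ)] (C • E.map (algebraMap ℚ ℚ_[(q : ℕ)])) ∨
        HasMultiplicativeReduction ℤ_[(q : ℕ)] (C • E.map (algebraMap ℚ ℚ_[(q : ℕ)])))
    (hb : ¬ ∃ C : VariableChange ℚ_[(q : ℕ)],
      HasGoodReduction ℤ_[(q : ℕ)] (C • E.map (algebraMap ℚ ℚ_[(q : ℕ)]))) :
    localPoly E q = 1 - Polynomial.C (E.LFunction q) * Polynomial.X ∧
      (E.LFunction q = 1 ∨ E.LFunction q = -1) := by
  obtain ⟨W, hW, hs⟩ := FA.OggShafarevich.exists_model_semistableAt E
    (FA.Root.isSemistableAt_of_reduction E h.choose_spec)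
  have hd : ((q : ℕ) : ℤ) ∣ W.Δ := by_contra fun hd => hb (FA.Root.exists_good_of_model hW q hd)
  have hc : ¬ ((q : ℕ) : ℤ) ∣ W.c₄ := fun hc => hs ⟨hd, hc⟩
  have hk := FA.Root.LFunction_apply_prime_pow_mult E W hW q.2 hd
    (FA.Frob.Δ_ne_zero_of_model hW) hc
  have h1 : E.LFunction q = FA.Root.splitSign W q := by simpa using hk 1
  constructor
  · have := eq_localPoly_of_inverts (R := ℤ) E q (mk_mul_quadratic
      (fun k => ((E.LFunction ((q : ℕ) ^ k) : ℤ) : ℤ)) (E.LFunction q) 0
      (by simpa using hk 0) (by simp) fun r => by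
        simp only [zero_mul, sub_zero, hk, h1]
        ring)
    simpa using this.symm
  · rw [h1, FA.Root.splitSign]
    split_ifs <;> simp

/-- The local polynomial at an additive prime. -/
theorem localPoly_of_additive [Fact (q : ℕ).Prime]
    (h : ¬ ∃ C : VariableChange ℚ_[(q : ℕ)],
      HasGoodReduction ℤ_[(q : ℕ)] (C • E.map (algebraMap ℚ ℚ_[(q : ℕ)])) ∨
        HasMultiplicativeReduction ℤ_[(q : ℕ)] (C • E.map (algebraMap ℚ ℚ_[(q : ℕ)]))) :
    localPoly E q = 1 := by
  have hL := FA.Root.isMultiplicative_LFunction E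
  have hk : ∀ k : ℕ, E.LFunction ((q : ℕ) ^ k) = if k = 0 then 1 else 0 := fun k => by
    rcases Nat.eq_zero_or_pos k with rfl | hk
    · simp [hL.map_one]
    · rw [if_neg hk.ne', FA.Summary.LFunction_eq_zero_of_additive E h hk]
  have := eq_localPoly_of_inverts (R := ℤ) E q (Q := 1) (by
    ext k
    simp [hk, PowerSeries.coeff_one])
  simpa using this.symm

/-- **The local polynomial is the Galois one**, for every `p ≠ q`. -/
theorem reverse_charpoly_coinvMap {p : ℕ} [Fact p.Prime] (hqp : (q : ℕ) ≠ p)
    {W : WeierstrassCurve ℤ} [(ratCurve W).IsElliptic] (hW : W.IsIntegralModelOf E)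
    (B : TateBasis p W) {A : ValuationSubring Qb} (hA : A.LiesOverPrime (q : ℕ)) {F : GQ}
    (hF : A.IsFrobeniusAt F (q : ℕ)) :
    (coinvMap B hF.mem_decompositionSubgroup).charpoly.reverse =
      (localPoly E q).map (Int.castRingHom ℚ_[p]) := by
  have : Fact (q : ℕ).Prime := ⟨q.2⟩
  exact eq_localPoly_of_inverts E q (FA.Summary.LFunction_eq_artinFactor E hqp hW B hA hF)

end FA.GoodReduction

end
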