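import Fermat.Agent.GoodReduction.Coinvariants
import Fermat.Agent.Root.SummaryTorsionIso

/-!
# Traces modulo `p ^ n`

If the Frobenius traces of two integral equations agree modulo `p ^ n` at almost all primes then so
do the traces of all of Galois on the Tate modules. The trace of an inertia element is read off
from its equation on the points, and at a multiplicative prime the trace of Frobenius is
`ε (q + 1)` for every `p ≠ q`.
-/

set_option autoImplicit false
set_option linter.style.haveILetI false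
set_option linter.unusedSectionVars false

noncomputable section

open WeierstrassCurve WeierstrassCurve.Affine Matrix FA.Frob FA.RT FA.RT.Tate FA.Local
open scoped WeierstrassCurve.Affine

local notation "Qb" => AlgebraicClosure ℚ
local notation "GQ" => AlgebraicClosure ℚ ≃ₐ[ℚ] AlgebraicClosure ℚ

namespace FA.GoodReduction

variable {p : ℕ} [hp : Fact p.Prime] {W W' : WeierstrassCurve ℤ} [(ratCurve W).IsElliptic]
  [(ratCurve W').IsElliptic]

theorem Δ_ne_zero_of_isElliptic {V : WeierstrassCurve ℤ} [(ratCurve V).IsElliptic] : V.Δ ≠ 0 :=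
  fun h => (ratCurve V).isUnit_Δ.ne_zero (by simp [ratCurve, h])

/-- **Congruent traces at almost all Frobenius elements give congruent traces everywhere.** -/
theorem toZModPow_trace_rep_eq (B : TateBasis p W) (B' : TateBasis p W') {n : ℕ} (S : Finset ℕ)
    (h : ∀ l : ℕ, l.Prime → l ∉ S → (p : ℤ) ^ n ∣ W.apOfModel l - W'.apOfModel l) (s : GQ) :
    PadicInt.toZModPow n (B.rep s).trace = PadicInt.toZModPow n (B'.rep s).trace := by
  have := (FA.Density.trace_det_eq_of_frobenius (FA.TorsionIso.repMod B n)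
    (FA.TorsionIso.repMod B' n) (FA.TorsionIso.isOpen_ker_repMod B n)
    (FA.TorsionIso.isOpen_ker_repMod B' n)
    (insert p (S ∪ W.Δ.natAbs.divisors ∪ W'.Δ.natAbs.divisors))
    (fun q hq hqS A hA σ hσ => by
      simp only [Finset.mem_insert, Finset.mem_union, not_or] at hqS
      obtain ⟨hqp, ⟨hS, hW⟩, hW'⟩ := hqS
      have hg : W.IsGoodPrimeFor q := fun hd => hW (Nat.mem_divisors.mpr
        ⟨Int.natCast_dvd.mp hd, Int.natAbs_ne_zero.mpr Δ_ne_zero_of_isElliptic⟩)
      have hg' : W'.IsGoodPrimeFor q := fun hd => hW' (Nat.mem_divisors.mpr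
        ⟨Int.natCast_dvd.mp hd, Int.natAbs_ne_zero.mpr Δ_ne_zero_of_isElliptic⟩)
      obtain ⟨t, d⟩ := B.rep_frobenius hq hA hqp hg hσ
      obtain ⟨t', d'⟩ := B'.rep_frobenius hq hA hqp hg' hσ
      show ((B.rep σ).map (PadicInt.toZModPow n)).trace =
          ((B'.rep σ).map (PadicInt.toZModPow n)).trace ∧
        ((B.rep σ).map (PadicInt.toZModPow n)).det = ((B'.rep σ).map (PadicInt.toZModPow n)).det
      rw [← AddMonoidHom.map_trace, ← AddMonoidHom.map_trace, t, t', map_intCast, map_intCast,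
        ← RingHom.mapMatrix_apply, ← RingHom.mapMatrix_apply, ← RingHom.map_det,
        ← RingHom.map_det, d, d']
      refine ⟨(ZMod.intCast_eq_intCast_iff_dvd_sub _ _ _).mpr ?_, rfl⟩
      rw [dvd_sub_comm]
      exact_mod_cast h q hq hS) s).1
  simpa [FA.TorsionIso.repMod, ← AddMonoidHom.map_trace] using this

/-- Congruent coefficients at almost all primes give congruent traces. -/
theorem toZModPow_trace_eq_of_LFunction {E E' : WeierstrassCurve ℚ} (hW : W.IsIntegralModelOf E)
    (hW' : W'.IsIntegralModelOf E') (B : TateBasis p W) (B' : TateBasis p W') {n : ℕ}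
    (S : Finset ℕ)
    (h : ∀ l : ℕ, l.Prime → l ∉ S → (p : ℤ) ^ n ∣ E.LFunction l - E'.LFunction l) (s : GQ) :
    PadicInt.toZModPow n (B.rep s).trace = PadicInt.toZModPow n (B'.rep s).trace := by
  refine toZModPow_trace_rep_eq B B' (S ∪ W.Δ.natAbs.divisors ∪ W'.Δ.natAbs.divisors)
    (fun q hq hqS => ?_) s
  simp only [Finset.mem_union, not_or] at hqS
  obtain ⟨⟨hS, hd⟩, hd'⟩ := hqS
  rw [← FA.Root.LFunction_apply_prime E W hW hq (fun h => hd (Nat.mem_divisors.mpr
      ⟨Int.natCast_dvd.mp h, Int.natAbs_ne_zero.mpr Δ_ne_zero_of_isElliptic⟩)),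
    ← FA.Root.LFunction_apply_prime E' W' hW' hq (fun h => hd' (Nat.mem_divisors.mpr
      ⟨Int.natCast_dvd.mp h, Int.natAbs_ne_zero.mpr Δ_ne_zero_of_isElliptic⟩))]
  exact h q hq hS

/-- The equation of an element on the points gives the trace. -/
theorem trace_eq_of_equation (B : TateBasis p W) {σ : GQ} (hd : (B.rep σ).det = 1) {t : ℤ}
    (h : ∀ (n : ℕ) (x : Pts W), p ^ n • x = 0 → σ • (σ • x) + x = t • (σ • x)) :
    (B.rep σ).trace = (t : ℤ_[p]) := by
  have hM : B.rep σ * B.rep σ + 1 = (t : ℤ_[p]) • B.rep σ := B.ext_phi fun n v => by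
    rw [add_mulVec, one_mulVec, map_add, ← mulVec_mulVec, ← B.rep_spec, ← B.rep_spec, smul_mulVec,
      Int.cast_smul_eq_zsmul, map_zsmul, ← B.rep_spec, h n _ (B.nsmul_phi n v)]
  rw [sq_add_one_of_det hd, ← sub_eq_zero, ← sub_smul, smul_eq_zero] at hM
  refine sub_eq_zero.mp (hM.resolve_right fun h0 => ?_)
  rw [h0, det_zero] at hd
  exact zero_ne_one hd

variable {q : ℕ} {A : ValuationSubring Qb}

/-- **The trace of Frobenius at a multiplicative prime**, for every `p ≠ q`. -/
theorem trace_frobenius_mult_all (B : TateBasis p W) (hm : MultAt W q A) (hqp : q ≠ p) {F : GQ}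
    (hF : A.IsFrobeniusAt F q) :
    (B.rep F).trace = (FA.Root.splitSign W q : ℤ_[p]) * (q + 1) := by
  obtain ⟨r, N⟩ := exists_nodeData hm
  obtain ⟨σ₀, hσ₀, hne⟩ := FA.OpenImage.exists_inertia_rep_ne_one B hm
  obtain ⟨j, hj⟩ : ∃ j, (B.rep σ₀ - 1) *ᵥ Pi.single j 1 ≠ 0 := by
    by_contra h
    push Not at h
    refine sub_ne_zero.mpr hne (Matrix.ext fun i j => ?_)
    have h' := congrFun (h j) i
    rw [mulVec_single_one, Matrix.col_apply] at h'
    rw [h', Matrix.zero_apply, Pi.zero_apply]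
  set u := (B.rep σ₀ - 1) *ᵥ Pi.single j 1 with hu
  set ε := FA.Root.splitSign W q with hε
  have hFu : B.rep F *ᵥ u = ((ε * q : ℤ) : ℤ_[p]) • u := by
    refine funext fun i => PadicInt.ext_of_toZModPow.mp fun n => ?_
    refine B.phi_eq_iff.mp ?_ i
    have hmem : B.φ n u ∈ N.e0Sub := by
      rw [hu, sub_mulVec, one_mulVec, map_sub, ← B.rep_spec]
      exact N.smul_sub_mem_e0Sub hσ₀ _
    rw [← B.rep_spec, Int.cast_smul_eq_zsmul, map_zsmul]
    exact smul_eq_splitSign_mul N hqp hF hmem (B.nsmul_phi n u)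
  set c : ℤ_[p] := ((ε * q : ℤ) : ℤ_[p]) with hc
  have hdet : (B.rep F - c • 1).det = 0 := exists_mulVec_eq_zero_iff.mp
    ⟨u, hj, by rw [sub_mulVec, smul_mulVec, one_mulVec, hFu, sub_self]⟩
  have hd := det_rep_frobenius B hm.prime hm.lies hqp hF
  rw [det_fin_two] at hd hdet
  simp only [Matrix.sub_apply, Matrix.smul_apply, Matrix.one_apply_eq, smul_eq_mul,
    Matrix.one_apply_ne (show (0 : Fin 2) ≠ 1 by decide),
    Matrix.one_apply_ne (show (1 : Fin 2) ≠ 0 by decide), mul_one, mul_zero, sub_zero] at hdet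
  have hε2 : (ε : ℤ_[p]) * ε = 1 := by
    rw [hε, FA.Root.splitSign]
    split_ifs <;> simp
  rw [trace_fin_two]
  have hc' : c = (ε : ℤ_[p]) * q := by rw [hc]; push_cast; ring
  rw [hc'] at hdet
  have h2 : (q : ℤ_[p]) * ((ε : ℤ_[p]) * (B.rep F 0 0 + B.rep F 1 1) - (q + 1)) = 0 := by
    linear_combination hd - hdet + (q : ℤ_[p]) ^ 2 * hε2
  have h3 := (mul_eq_zero.mp h2).resolve_left (Nat.cast_ne_zero.mpr hm.prime.ne_zero)
  linear_combination (ε : ℤ_[p]) * h3 - (B.rep F 0 0 + B.rep F 1 1) * hε2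

end FA.GoodReduction

end
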