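import Fermat.Agent.GoodReduction.Descent
import Fermat.Agent.Root.SummaryTwistCriterion

/-!
# Inertia fixing the torsion forces good reduction, at every prime

Let the equation `W` over `ℤ` have integral invariant at `q` and let inertia fix the `p`-power
torsion, `p ≠ q`. In a good equation over `ℚ̄` a torsion point `P` of order `p ^ 3` and its double
have different reductions, so the good equation with `P` at the origin, horizontal tangent and
scaling normalised by `P` is reached by a change of variables fixed by inertia. Its scaling has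
integral valuation `k`, and its other entries are stable under the decomposition group modulo the
powers of `q` that matter. So they may be replaced by integers, which gives an equation over `ℤ`
with discriminant prime to `q`. No case distinction on `q` is needed.
-/

set_option autoImplicit false
set_option linter.style.haveILetI false
set_option linter.unusedSectionVars false

noncomputable section

open WeierstrassCurve WeierstrassCurve.Affine FA.Frob FA.RT.Tate FA.Local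
open scoped WeierstrassCurve.Affine

local notation "Qb" => AlgebraicClosure ℚ
local notation "GQ" => AlgebraicClosure ℚ ≃ₐ[ℚ] AlgebraicClosure ℚ

namespace FA.GoodReduction

variable {q : ℕ} {A : ValuationSubring Qb}
variable {p : ℕ} [hp : Fact p.Prime] {W : WeierstrassCurve ℤ} [(ratCurve W).IsElliptic]

theorem valuation_p_eq_one (hq : q.Prime) (hA : A.LiesOverPrime q) (hqp : q ≠ p) :
    A.valuation (p : Qb) = 1 := by
  have h1 := valuation_intCast_of_liesOverPrime hq hA (n := (p : ℤ)) fun hd =>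
    hqp ((Nat.prime_dvd_prime_iff_eq hq hp.out).mp (Int.natCast_dvd_natCast.mp hd))
  rwa [Int.cast_natCast] at h1

/-- A point of `p`-power order at least `4` on a good equation is integral, has no vertical tangent
and differs from its double modulo the maximal ideal. -/
theorem exists_torsion_pair {V : WeierstrassCurve Qb} [V.IsElliptic]
    (hI : IntCoeff A.valuation V.toAffine) (hΔ : A.valuation V.Δ = 1)
    (hpv : A.valuation (p : Qb) = 1) (P₀ : V.toAffine.Point)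
    {a : ℕ} (hP₀k : ∀ k : ℕ, 0 < k → k < 4 → k • P₀ ≠ 0) (hP₀ : p ^ a • P₀ = 0) :
    ∃ (x₁ y₁ x₂ y₂ : Qb) (h₁ : V.toAffine.Nonsingular x₁ y₁) (h₂ : V.toAffine.Nonsingular x₂ y₂),
      P₀ = .some x₁ y₁ h₁ ∧ 2 • P₀ = .some x₂ y₂ h₂ ∧ A.valuation x₁ ≤ 1 ∧
        A.valuation (fy V.toAffine x₁ y₁) = 1 ∧ A.valuation (x₁ - x₂) = 1 := by
  have hord : ∀ k : ℕ, p ^ a • (k • P₀) = 0 := fun k => by rw [smul_comm, hP₀, nsmul_zero]
  have hinj : ∀ (R : V.toAffine.Point), p ^ a • R = 0 → E1 A.valuation V.toAffine R → R = 0 :=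
    fun R hR h1 => FA.PotentialGood.eq_zero_of_e1_prime_pow hI hp.out hpv h1 hR
  have haff : ∀ k : ℕ, 0 < k → k < 4 → ∃ (x y : Qb) (h : V.toAffine.Nonsingular x y),
      k • P₀ = .some x y h ∧ A.valuation x ≤ 1 := by
    intro k hk0 hk4
    rcases hR : k • P₀ with _ | ⟨x, y, h⟩
    · exact absurd hR (hP₀k k hk0 hk4)
    refine ⟨x, y, h, rfl, ?_⟩
    by_contra hx
    exact hP₀k k hk0 hk4 (hinj _ (hord k) (by rw [hR, e1_some]; exact not_le.mp hx))
  obtain ⟨x₁, y₁, h₁, e1, hx₁⟩ := haff 1 one_pos (by norm_num)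
  obtain ⟨x₂, y₂, h₂, e2, hx₂⟩ := haff 2 two_pos (by norm_num)
  have hy₁ := le_y_of_le_x hI h₁.1 hx₁
  have hy₂ := le_y_of_le_x hI h₂.1 hx₂
  have hns := nsRed_of_unit_Δ hI hΔ h₁.1 hx₁
  have hsum : ∀ {R : V.toAffine.Point} (k : ℕ), R = k • P₀ → 0 < k → k < 4 →
      E1 A.valuation V.toAffine R → False := fun {R} k hR h0 h5 h =>
    hP₀k k h0 h5 (hinj _ (hord k) (hR ▸ h))
  -- the vertical derivative at `P` is a unit
  set z := fy V.toAffine x₁ y₁ with hzdef
  have hz : A.valuation z = 1 := by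
    refine eq_one_of_not_lt (fy_le hI hx₁ hy₁) fun hlt => ?_
    have := e1_sub_of_congr hI h₁ ((Affine.nonsingular_neg x₁ y₁).mpr h₁) hx₁ hns
      (by rw [sub_self, map_zero]; exact zero_lt_one)
      (by rwa [show y₁ - V.toAffine.negY x₁ y₁ = z by simp only [hzdef, fy, Affine.negY]; ring])
    refine hsum 2 ?_ two_pos (by norm_num) this
    rw [← Affine.Point.neg_some h₁, sub_neg_eq_add, ← e1, one_nsmul, two_nsmul]
  -- the abscissas have different reductions
  have hd : A.valuation (x₁ - x₂) = 1 := by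
    refine eq_one_of_not_lt (A.valuation.map_sub_le hx₁ hx₂) fun hlt => ?_
    have hprod : A.valuation ((y₁ - y₂) * (y₁ - V.toAffine.negY x₂ y₂)) < 1 := by
      have q1 := h₁.1
      have q2 := h₂.1
      rw [Affine.equation_iff] at q1 q2
      rw [show (y₁ - y₂) * (y₁ - V.toAffine.negY x₂ y₂) = (x₁ - x₂) * (x₁ ^ 2 + x₁ * x₂ + x₂ ^ 2 +
          V.a₂ * (x₁ + x₂) + V.a₄ - V.a₁ * y₁) by
        simp only [Affine.negY]; linear_combination q1 - q2]
      refine map_mul_lt_one' hlt (A.valuation.map_sub_le (A.valuation.map_add_le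
        (A.valuation.map_add_le (A.valuation.map_add_le (A.valuation.map_add_le
          (map_pow_le_one hx₁ 2) (map_mul_le_one hx₁ hx₂)) (map_pow_le_one hx₂ 2))
          (map_mul_le_one hI.h₂ (A.valuation.map_add_le hx₁ hx₂))) hI.h₄)
        (map_mul_le_one hI.h₁ hy₁))
    rcases (by
      by_contra hc
      rw [not_or, not_lt, not_lt] at hc
      rw [map_mul] at hprod
      exact absurd hprod (not_lt.mpr (one_le_mul hc.1 hc.2)) :
        A.valuation (y₁ - y₂) < 1 ∨ A.valuation (y₁ - V.toAffine.negY x₂ y₂) < 1) with hy | hy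
    · refine hsum 1 ?_ one_pos (by norm_num)
        (e1_neg.mpr (e1_sub_of_congr hI h₁ h₂ hx₁ hns hlt hy))
      rw [neg_sub, ← e1, ← e2, two_nsmul, one_nsmul, add_sub_cancel_right]
    · refine hsum 3 ?_ three_pos (by norm_num)
        (e1_sub_of_congr hI h₁ ((Affine.nonsingular_neg x₂ y₂).mpr h₂) hx₁ hns hlt hy)
      rw [← Affine.Point.neg_some h₂, sub_neg_eq_add, ← e1, ← e2, ← add_nsmul]
  exact ⟨x₁, y₁, x₂, y₂, h₁, h₂, by rwa [one_nsmul] at e1, e2, hx₁, hz, hd⟩

/-- **A good equation with a torsion point at the origin**: if `P` has `p`-power order at least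
`4` then the change of variables to a good equation with `P` at the origin, horizontal tangent and
scaling normalised by `P` is fixed by every inertia element fixing `P`. -/
theorem exists_goodModel_of_point [hqf : Fact q.Prime] (hA : A.LiesOverPrime q) (hqp : q ≠ p)
    (hj : 0 ≤ padicValRat q (ratCurve W).j) {a : ℕ} {P : Pts W} (hP : p ^ a • P = 0)
    (hPk : ∀ k : ℕ, 0 < k → k < 4 → k • P ≠ 0) :
    ∃ (C : VariableChange Qb) (V : WeierstrassCurve Qb), V = C • ((ratCurve W)⁄Qb) ∧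
      IntCoeff A.valuation V.toAffine ∧ A.valuation V.Δ = 1 ∧
      (∀ σ ∈ A.inertiaSubgroupIn ℚ, σ • P = P →
        σ (C.u : Qb) = C.u ∧ σ C.r = C.r ∧ σ C.s = C.s ∧ σ C.t = C.t) ∧
      ∃ h : ((ratCurve W)⁄Qb).toAffine.Nonsingular C.r C.t,
        (Point.some C.r C.t h : Pts W) = P := by
  have hq : q.Prime := hqf.out
  haveI : ((ratCurve W)⁄Qb).IsElliptic :=
    inferInstanceAs ((ratCurve W).map (algebraMap ℚ Qb)).IsElliptic
  obtain ⟨C₀, V₀, hV₀, hI, hΔ⟩ := FA.PotentialGood.exists_goodModel (ratCurve W) hq hA hj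
  haveI : V₀.IsElliptic := ⟨isUnit_iff_ne_zero.mpr fun h0 => by simp [h0] at hΔ⟩
  let e : V₀.toAffine.Point ≃+ ((ratCurve W)⁄Qb).toAffine.Point := vcEquiv C₀ hV₀.symm
  set P₀ : V₀.toAffine.Point := e.symm P with hP₀
  obtain ⟨x₁, y₁, x₂, y₂, h₁, h₂, e1, e2, hx₁, hz, hd⟩ := exists_torsion_pair hI hΔ
    (valuation_p_eq_one (p := p) hq hA hqp) P₀ (a := a)
    (fun k hk0 hk4 h => hPk k hk0 hk4 (e.symm.injective (by
      rw [map_nsmul, ← hP₀, h, map_zero])))
    (by rw [hP₀, ← map_nsmul, hP, map_zero])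
  have heP : e P₀ = P := e.apply_symm_apply P
  have hco : ∀ (k : ℕ) {x y : Qb} (h : V₀.toAffine.Nonsingular x y), k • P₀ = .some x y h →
      ∀ σ ∈ A.inertiaSubgroupIn ℚ, σ • P = P →
        σ (vcX C₀ x) = vcX C₀ x ∧ σ (vcY C₀ x y) = vcY C₀ x y := by
    intro k x y h hk σ _ hfix
    have hf : σ • e (k • P₀) = e (k • P₀) := by
      rw [map_nsmul, heP]
      exact (map_nsmul (DistribSMul.toAddMonoidHom (Pts W) σ) k P).trans
        (congrArg (k • ·) hfix)
    rw [hk] at hf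
    change Affine.Point.map σ.toAlgHom (vcFun C₀ hV₀.symm (.some x y h)) =
      vcFun C₀ hV₀.symm (.some x y h) at hf
    simpa [vcFun, Affine.Point.map_some] using hf
  set u := (C₀.u : Qb) with hu
  have hu0 : u ≠ 0 := C₀.u.ne_zero
  set z := fy V₀.toAffine x₁ y₁
  have hz0 : z ≠ 0 := fun h0 => by simp [h0] at hz
  have hd0 : x₁ - x₂ ≠ 0 := fun h0 => by simp [h0] at hd
  have hy₁ := le_y_of_le_x hI h₁.1 hx₁
  set sl := fx V₀.toAffine x₁ y₁ / z with hsl
  have hsl1 : A.valuation sl ≤ 1 := by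
    rw [hsl, map_div₀, hz, div_one]
    exact fx_le hI hx₁ hy₁
  let D : VariableChange Qb := ⟨Units.mk0 (z / (x₁ - x₂)) (div_ne_zero hz0 hd0), x₁, sl, y₁⟩
  obtain ⟨hI', hΔ'⟩ := intCoeff_smul D hI hΔ
    (show A.valuation (z / (x₁ - x₂)) = 1 by rw [map_div₀, hz, hd, div_one]) hx₁ hsl1 hy₁
  have hr : (D * C₀).r = vcX C₀ x₁ := by
    simp only [VariableChange.mul_def, D, vcX]; ring
  have ht : (D * C₀).t = vcY C₀ x₁ y₁ := by
    simp only [VariableChange.mul_def, D, vcY]; ring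
  -- the derivatives at the point on `W`
  let Wa := ((ratCurve W)⁄Qb).toAffine
  obtain ⟨c1, c2, c3, c4, -⟩ := vc_coeffs C₀ hV₀.symm
  have hfy : fy Wa (vcX C₀ x₁) (vcY C₀ x₁ y₁) = u ^ 3 * z := by
    simp only [fy, Wa, z, vcX, vcY]
    rw [show ((ratCurve W)⁄Qb).toAffine.a₁ = ((ratCurve W)⁄Qb).a₁ from rfl,
      show ((ratCurve W)⁄Qb).toAffine.a₃ = ((ratCurve W)⁄Qb).a₃ from rfl, c3, c1]
    ring
  have hfx : fx Wa (vcX C₀ x₁) (vcY C₀ x₁ y₁) = (u * sl + C₀.s) * (u ^ 3 * z) := by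
    rw [hsl]
    field_simp
    simp only [fx, fy, Wa, z, vcX, vcY]
    rw [show ((ratCurve W)⁄Qb).toAffine.a₁ = ((ratCurve W)⁄Qb).a₁ from rfl,
      show ((ratCurve W)⁄Qb).toAffine.a₂ = ((ratCurve W)⁄Qb).a₂ from rfl,
      show ((ratCurve W)⁄Qb).toAffine.a₄ = ((ratCurve W)⁄Qb).a₄ from rfl, c4, c3, c2, c1]
    ring
  refine ⟨D * C₀, D • V₀, by rw [hV₀, mul_smul], hI', hΔ', fun σ hσ hσP => ?_, ?_⟩
  · obtain ⟨hX, hY⟩ := hco 1 h₁ (by rw [one_nsmul, e1]) σ hσ hσP
    obtain ⟨hX₂, -⟩ := hco 2 h₂ e2 σ hσ hσP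
    have ha : ∀ a : ℚ, σ (algebraMap ℚ Qb a) = algebraMap ℚ Qb a := σ.commutes
    have hFy : σ (u ^ 3 * z) = u ^ 3 * z := by
      rw [← hfy]
      simp only [fy, Wa, map_add, map_mul, hX, hY, map_ofNat, WeierstrassCurve.map_a₁,
        WeierstrassCurve.map_a₃, WeierstrassCurve.baseChange, ha]
    have hFx : σ ((u * sl + C₀.s) * (u ^ 3 * z)) = (u * sl + C₀.s) * (u ^ 3 * z) := by
      rw [← hfx]
      simp only [fx, Wa, map_add, map_sub, map_mul, map_pow, hX, hY, map_ofNat,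
        WeierstrassCurve.map_a₁, WeierstrassCurve.map_a₂, WeierstrassCurve.map_a₄,
        WeierstrassCurve.baseChange, ha]
    refine ⟨?_, by rw [hr, hX], ?_, by rw [ht, hY]⟩
    · have hu' : ((D * C₀).u : Qb) = u ^ 3 * z / (vcX C₀ x₁ - vcX C₀ x₂) := by
        simp only [VariableChange.mul_def, D, Units.val_mul, Units.val_mk0, vcX]
        rw [show u ^ 2 * x₁ + C₀.r - (u ^ 2 * x₂ + C₀.r) = u ^ 2 * (x₁ - x₂) by ring, ← hu]
        field_simp
      rw [hu', map_div₀, hFy, map_sub, hX, hX₂]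
    · rw [map_mul, hFy] at hFx
      have := mul_right_cancel₀ (mul_ne_zero (pow_ne_zero 3 hu0) hz0) hFx
      simpa only [VariableChange.mul_def, D] using this
  · have h' : Wa.Nonsingular (D * C₀).r (D * C₀).t := by
      rw [hr, ht]
      exact Affine.equation_iff_nonsingular.mp ((equation_vc C₀ hV₀.symm x₁ y₁).mpr h₁.1)
    refine ⟨h', ?_⟩
    have he : (Point.some _ _ h' : Pts W) = e P₀ := by
      rw [e1]
      show _ = vcFun C₀ hV₀.symm (.some x₁ y₁ h₁)
      simp only [vcFun, Affine.Point.some.injEq]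
      exact ⟨hr, ht⟩
    rw [he, heP]

/-- **A good equation defined over the fixed field of inertia**, if inertia fixes the torsion: the
change of variables to it is fixed by inertia and moves a torsion point to the origin. -/
theorem exists_fixed_goodModel [hqf : Fact q.Prime] (hA : A.LiesOverPrime q) (hqp : q ≠ p)
    (hj : 0 ≤ padicValRat q (ratCurve W).j)
    (hfix : ∀ σ ∈ A.inertiaSubgroupIn ℚ, ∀ (n : ℕ) (x : Pts W), p ^ n • x = 0 → σ • x = x) :
    ∃ (C : VariableChange Qb) (V : WeierstrassCurve Qb), V = C • ((ratCurve W)⁄Qb) ∧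
      IntCoeff A.valuation V.toAffine ∧ A.valuation V.Δ = 1 ∧
      (∀ σ ∈ A.inertiaSubgroupIn ℚ,
        σ (C.u : Qb) = C.u ∧ σ C.r = C.r ∧ σ C.s = C.s ∧ σ C.t = C.t) ∧
      ∃ h : ((ratCurve W)⁄Qb).toAffine.Nonsingular C.r C.t,
        p ^ 3 • (Point.some C.r C.t h : Pts W) = 0 := by
  obtain ⟨B⟩ := exists_tateBasis (p := p) W
  have hP := B.nsmul_phi 3 (Pi.single 0 1)
  obtain ⟨C, V, hV, hI, hΔ, hC, h, hh⟩ := exists_goodModel_of_point hA hqp hj hP
    fun k hk0 hk4 h => by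
      rw [← map_nsmul] at h
      have h2 := (B.ker 3 _).mp h 0
      rw [Pi.smul_apply, Pi.single_eq_same, nsmul_one, map_natCast,
        ZMod.natCast_eq_zero_iff] at h2
      have := Nat.le_of_dvd hk0 h2
      have : 2 ^ 3 ≤ p ^ 3 := Nat.pow_le_pow_left hp.out.two_le 3
      omega
  exact ⟨C, V, hV, hI, hΔ, fun σ hσ => hC σ hσ (hfix σ hσ 3 _ hP), h, by rw [hh, hP]⟩

/-- The bounds for the conjugates of the entries of the change of variables under the
decomposition group. -/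
theorem decomposition_bounds (hq : q.Prime) (hA : A.LiesOverPrime q) (hqp : q ≠ p)
    {C : VariableChange Qb} {V : WeierstrassCurve Qb} (hV : V = C • ((ratCurve W)⁄Qb))
    (hI : IntCoeff A.valuation V.toAffine) (hΔ : A.valuation V.Δ = 1)
    {h : ((ratCurve W)⁄Qb).toAffine.Nonsingular C.r C.t}
    (hP : p ^ 3 • (Point.some C.r C.t h : Pts W) = 0) {σ : GQ}
    (hσ : σ ∈ A.decompositionSubgroup ℚ) :
    A.valuation (σ C.r - C.r) ≤ A.valuation (C.u : Qb) ^ 2 ∧
      A.valuation (σ C.s - C.s) ≤ A.valuation (C.u : Qb) ∧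
      A.valuation (σ C.t - C.t - (σ C.r - C.r) * C.s) ≤ A.valuation (C.u : Qb) ^ 3 := by
  haveI : V.IsElliptic := ⟨isUnit_iff_ne_zero.mpr fun h0 => by simp [h0] at hΔ⟩
  haveI : ((ratCurve W)⁄Qb).IsElliptic :=
    inferInstanceAs ((ratCurve W).map (algebraMap ℚ Qb)).IsElliptic
  let e : V.toAffine.Point ≃+ ((ratCurve W)⁄Qb).toAffine.Point := vcEquiv C hV.symm
  obtain ⟨Q, hQ⟩ := e.surjective (Affine.Point.map σ.toAlgHom (Point.some C.r C.t h))
  have hord : p ^ 3 • Q = 0 := e.injective (by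
    rw [map_nsmul, map_zero, hQ, ← map_nsmul, hP, map_zero])
  change vcFun C hV.symm Q = _ at hQ
  rw [Affine.Point.map_some] at hQ
  rcases Q with _ | ⟨x, y, hxy⟩
  · simp [vcFun] at hQ
  have hx : A.valuation x ≤ 1 := by
    by_contra hc
    have := FA.PotentialGood.eq_zero_of_e1_prime_pow hI hp.out
      (valuation_p_eq_one (p := p) hq hA hqp) ((e1_some hxy).mpr (not_le.mp hc)) hord
    simp at this
  have hy := le_y_of_le_x hI hxy.1 hx
  simp only [vcFun, Affine.Point.some.injEq, vcX, vcY] at hQ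
  obtain ⟨hr, ht⟩ := hQ
  change _ = σ C.r at hr
  change _ = σ C.t at ht
  set u := (C.u : Qb) with hu
  have hu0 : u ≠ 0 := C.u.ne_zero
  have h2 : A.valuation (σ C.r - C.r) ≤ A.valuation u ^ 2 := by
    rw [← hr, add_sub_cancel_right, map_mul, map_pow]
    exact mul_le_of_le_one_right' hx
  refine ⟨h2, ?_, ?_⟩
  · obtain ⟨c1, c2, -⟩ := vc_coeffs C hV.symm
    have hσu : A.valuation (σ u) = A.valuation u := FA.LocalDef.decomp_map_eq hσ u
    have ha : ∀ a : ℚ, σ (algebraMap ℚ Qb a) = algebraMap ℚ Qb a := σ.commutes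
    have f1 : σ ((ratCurve W)⁄Qb).a₁ = ((ratCurve W)⁄Qb).a₁ := ha _
    have f2 : σ ((ratCurve W)⁄Qb).a₂ = ((ratCurve W)⁄Qb).a₂ := ha _
    have g2 := congrArg σ c2
    rw [f2] at g2
    simp only [map_add, map_sub, map_mul, map_pow, map_ofNat] at g2
    have g1 := congrArg σ c1
    rw [f1] at g1
    simp only [map_sub, map_mul, map_ofNat] at g1
    set d := σ C.s - C.s
    have key : d * (d + u * V.a₁) = 3 * (σ C.r - C.r) -
        ((σ u) ^ 2 * σ V.a₂ - u ^ 2 * V.a₂) := by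
      linear_combination c2 - g2 + σ C.s * g1 - σ C.s * c1
    have hrhs : A.valuation (d * (d + u * V.a₁)) ≤ A.valuation u ^ 2 := by
      rw [key]
      refine A.valuation.map_sub_le ?_ (A.valuation.map_sub_le ?_ ?_)
      · rw [map_mul]
        exact (mul_le_of_le_one_left' le_three).trans h2
      · rw [map_mul, map_pow, hσu]
        exact mul_le_of_le_one_right' (FA.LocalDef.decomp_map_le hσ hI.h₂)
      · rw [map_mul, map_pow]
        exact mul_le_of_le_one_right' hI.h₂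
    by_contra hc
    rw [not_le] at hc
    have hlt : A.valuation (u * V.a₁) < A.valuation d := by
      rw [map_mul]
      exact (mul_le_of_le_one_right' hI.h₁).trans_lt hc
    rw [map_mul, A.valuation.map_add_eq_of_lt_left hlt, ← sq] at hrhs
    exact absurd hrhs (not_le.mpr (pow_lt_pow_left₀ hc zero_le two_ne_zero))
  · rw [show σ C.t - C.t - (σ C.r - C.r) * C.s = u ^ 3 * y by
      rw [← hr, ← ht, hu]; ring, map_mul, map_pow]
    exact mul_le_of_le_one_right' hy

/-- **Inertia fixing the torsion gives an equation over `ℤ` with good reduction at `q`.** -/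
theorem exists_integralModel_of_fixed [hqf : Fact q.Prime] (hA : A.LiesOverPrime q) (hqp : q ≠ p)
    (hj : 0 ≤ padicValRat q (ratCurve W).j)
    (hfix : ∀ σ ∈ A.inertiaSubgroupIn ℚ, ∀ (n : ℕ) (x : Pts W), p ^ n • x = 0 → σ • x = x) :
    ∃ Z : WeierstrassCurve ℤ, Z.IsIntegralModelOf (ratCurve W) ∧ ¬ (q : ℤ) ∣ Z.Δ := by
  have hq : q.Prime := hqf.out
  haveI : ((ratCurve W)⁄Qb).IsElliptic :=
    inferInstanceAs ((ratCurve W).map (algebraMap ℚ Qb)).IsElliptic
  obtain ⟨C, V, hV, hI, hΔ, hC, h, hP⟩ := exists_fixed_goodModel hA hqp hj hfix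
  set u := (C.u : Qb) with hu
  have hu0 : u ≠ 0 := C.u.ne_zero
  have hvu : A.valuation u ≠ 0 := A.valuation.ne_zero_iff.mpr hu0
  have hq0 : (q : Qb) ≠ 0 := Nat.cast_ne_zero.mpr hq.ne_zero
  have hvq : A.valuation (q : Qb) ≠ 0 := A.valuation.ne_zero_iff.mpr hq0
  have hq1 : A.valuation (q : Qb) < 1 := FA.LocalDef.valuation_p_lt_one hA
  have hcoef : ∀ c : ℤ, A.valuation (algebraMap ℚ Qb (c : ℚ)) ≤ 1 := fun c => by
    rw [map_intCast]; exact intCast_le_one c
  have hIW : IntCoeff A.valuation ((ratCurve W)⁄Qb).toAffine :=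
    ⟨hcoef W.a₁, hcoef W.a₂, hcoef W.a₃, hcoef W.a₄, hcoef W.a₆⟩
  -- the valuation of the scaling
  have hu1 : A.valuation u ≤ 1 := by
    have e : V.Δ * u ^ 12 = ((W.Δ : ℤ) : Qb) := by
      rw [hV, variableChange_Δ, Units.val_inv_eq_inv_val, mul_right_comm, ← mul_pow,
        inv_mul_cancel₀ hu0, one_pow, one_mul]
      simp [ratCurve, WeierstrassCurve.baseChange]
    by_contra hc
    have h1 := congrArg A.valuation e
    rw [map_mul, hΔ, one_mul, map_pow] at h1
    exact absurd (intCast_le_one (v := A.valuation) W.Δ)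
      (not_le.mpr (h1 ▸ one_lt_pow₀ (not_le.mp hc) (by norm_num)))
  obtain ⟨k, hk⟩ : ∃ k : ℕ, A.valuation u = A.valuation (q : Qb) ^ k := by
    obtain ⟨j, hj⟩ := FA.LocalDef.exists_zpow_of_mem_kur hq hA
      (FA.LocalDef.mem_kur.mpr fun σ hσ => (hC σ hσ).1) hu0
    rcases Int.eq_nat_or_neg j with ⟨k, rfl | rfl⟩
    · exact ⟨k, by rw [← zpow_natCast]; exact hj⟩
    · refine ⟨0, le_antisymm (by simpa using hu1) ?_⟩
      rw [pow_zero, hj, zpow_neg, zpow_natCast, one_le_inv₀ (pow_pos (zero_lt_iff.mpr hvq) k)]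
      exact pow_le_one₀ zero_le hq1.le
  -- the entries are integral
  have hr1 : A.valuation C.r ≤ 1 := by
    by_contra hc
    have := FA.PotentialGood.eq_zero_of_e1_prime_pow hIW hp.out
      (valuation_p_eq_one (p := p) hq hA hqp) ((e1_some h).mpr (not_le.mp hc)) hP
    simp at this
  have ht1 := le_y_of_le_x hIW h.1 hr1
  have hs1 : A.valuation C.s ≤ 1 := by
    obtain ⟨c1, c2, -⟩ := vc_coeffs C hV.symm
    have e : C.s * (C.s + ((ratCurve W)⁄Qb).a₁) =
        ((ratCurve W)⁄Qb).a₂ + 3 * C.r - u ^ 2 * V.a₂ := by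
      linear_combination C.s * c1 - c2
    by_contra hc
    have hlt : A.valuation ((ratCurve W)⁄Qb).a₁ < A.valuation C.s :=
      hIW.h₁.trans_lt (not_le.mp hc)
    have h1 := congrArg A.valuation e
    rw [map_mul, A.valuation.map_add_eq_of_lt_left hlt] at h1
    exact absurd (A.valuation.map_sub_le (A.valuation.map_add_le hIW.h₂
        (map_mul_le_one le_three hr1)) (map_mul_le_one (map_pow_le_one hu1 2) hI.h₂))
      (not_le.mpr (h1 ▸ one_lt_mul'' (not_le.mp hc) (not_le.mp hc)))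
  -- replace the entries by integers
  obtain ⟨r₀, hr₀⟩ := exists_intCast_sub_le hA (fun σ hσ => (hC σ hσ).2.1) hr1 (2 * k)
    fun σ hσ => by
      rw [mul_comm, pow_mul, ← hk]
      exact (decomposition_bounds hq hA hqp hV hI hΔ hP hσ).1
  obtain ⟨s₀, hs₀⟩ := exists_intCast_sub_le hA (fun σ hσ => (hC σ hσ).2.2.1) hs1 k
    fun σ hσ => by rw [← hk]; exact (decomposition_bounds hq hA hqp hV hI hΔ hP hσ).2.1
  rw [mul_comm, pow_mul, ← hk, A.valuation.map_sub_swap] at hr₀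
  rw [← hk, A.valuation.map_sub_swap] at hs₀
  set t' := C.t + ((r₀ : Qb) - C.r) * C.s with ht'
  obtain ⟨t₀, ht₀⟩ := exists_intCast_sub_le hA (x := t')
    (fun σ hσ => by
      rw [ht', map_add, map_mul, map_sub, map_intCast, (hC σ hσ).2.1, (hC σ hσ).2.2.1,
        (hC σ hσ).2.2.2])
    (A.valuation.map_add_le ht1
      (map_mul_le_one (A.valuation.map_sub_le (intCast_le_one _) hr1) hs1)) (3 * k)
    fun σ hσ => by
      obtain ⟨b1, b2, b3⟩ := decomposition_bounds hq hA hqp hV hI hΔ hP hσ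
      rw [mul_comm, pow_mul, ← hk]
      rw [show σ t' - t' = (σ C.t - C.t - (σ C.r - C.r) * C.s) +
          (((r₀ : Qb) - C.r) - (σ C.r - C.r)) * (σ C.s - C.s) by
        rw [ht', map_add, map_mul, map_sub, map_intCast]; ring]
      refine A.valuation.map_add_le b3 ?_
      rw [map_mul, pow_succ]
      exact mul_le_mul' (A.valuation.map_sub_le hr₀ b1) b2
  rw [mul_comm, pow_mul, ← hk, A.valuation.map_sub_swap] at ht₀
  have hqk : ((q : ℚ) ^ k) ≠ 0 := pow_ne_zero _ (Nat.cast_ne_zero.mpr hq.ne_zero)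
  let C₁ : VariableChange ℚ := ⟨Units.mk0 _ hqk, r₀, s₀, t₀⟩
  let D : VariableChange Qb := ⟨Units.mk0 ((q : Qb) ^ k / u) (div_ne_zero (pow_ne_zero _ hq0) hu0),
    ((r₀ : Qb) - C.r) / u ^ 2, ((s₀ : Qb) - C.s) / u, ((t₀ : Qb) - t') / u ^ 3⟩
  have hDC : D * C = C₁.map (algebraMap ℚ Qb) := by
    rw [VariableChange.mul_def]
    simp only [D, C₁, VariableChange.map]
    refine VariableChange.ext (Units.ext ?_) ?_ ?_ ?_
    · simp [← hu, hu0]
    all_goals simp only [← hu, ht', map_intCast]; field_simp; ring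
  have hle : ∀ {a b : Qb} {n : ℕ}, A.valuation a ≤ A.valuation b ^ n → b ≠ 0 →
      A.valuation (a / b ^ n) ≤ 1 := fun {a b n} hab hb => by
    rw [map_div₀, map_pow, div_le_one₀ (pow_pos (A.valuation.pos_iff.mpr hb) n)]
    exact hab
  obtain ⟨hI', hΔ'⟩ := intCoeff_smul D hI hΔ
    (show A.valuation ((q : Qb) ^ k / u) = 1 by rw [map_div₀, map_pow, ← hk, div_self hvu])
    (hle hr₀ hu0) (show A.valuation (((s₀ : Qb) - C.s) / u) ≤ 1 by
      simpa only [pow_one] using hle (n := 1) (b := u) (by rwa [pow_one]) hu0)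
    (hle ht₀ hu0)
  have hmap : D • V = (C₁ • ratCurve W).map (algebraMap ℚ Qb) := by
    rw [hV, ← mul_smul, hDC, ← map_variableChange]
    rfl
  rw [hmap] at hI' hΔ'
  -- the coefficients are integers
  have hint : ∀ (a : ℚ) (n : ℕ) (z : ℤ), a * (q : ℚ) ^ n = z →
      A.valuation (algebraMap ℚ Qb a) ≤ 1 → ∃ m : ℤ, (m : ℚ) = a := fun a n z hz hv => by
    rcases eq_or_ne z 0 with rfl | hz0
    · exact ⟨0, by simpa [hq.ne_zero, eq_comm] using hz⟩
    obtain ⟨m, hm⟩ : ((q : ℤ) ^ n) ∣ z := by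
      refine (padicValInt_dvd_iff n z).mpr (Or.inr ?_)
      by_contra hlt
      have h1 := exists_valuation_eq_pow hq hA hz0
      rw [show (z : Qb) = algebraMap ℚ Qb a * (q : Qb) ^ n by
        rw [← map_intCast (algebraMap ℚ Qb), ← hz, map_mul, map_pow, map_natCast], map_mul,
        map_pow] at h1
      exact absurd (h1 ▸ mul_le_of_le_one_left' hv)
        (not_le.mpr (pow_lt_pow_right_of_lt_one₀ (zero_lt_iff.mpr hvq) hq1 (not_le.mp hlt)))
    refine ⟨m, mul_right_cancel₀ (pow_ne_zero n (Nat.cast_ne_zero.mpr hq.ne_zero)) ?_⟩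
    rw [hz, hm]
    push_cast
    ring
  have hC₁ := vc_coeffs C₁ (rfl : C₁ • ratCurve W = C₁ • ratCurve W)
  obtain ⟨c1, c2, c3, c4, c6⟩ := hC₁
  simp only [C₁, Units.val_mk0, ratCurve, map_a₁, map_a₂, map_a₃, map_a₄, map_a₆,
    eq_intCast] at c1 c2 c3 c4 c6
  obtain ⟨m₁, hm₁⟩ := hint (C₁ • ratCurve W).a₁ k (W.a₁ + 2 * s₀)
    (by simp only [C₁, ratCurve]; push_cast; linear_combination -c1) hI'.h₁
  obtain ⟨m₂, hm₂⟩ := hint (C₁ • ratCurve W).a₂ (k * 2) (W.a₂ - s₀ * W.a₁ + 3 * r₀ - s₀ ^ 2)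
    (by simp only [C₁, ratCurve, pow_mul]; push_cast; linear_combination -c2 + (s₀ : ℚ) * c1)
    hI'.h₂
  obtain ⟨m₃, hm₃⟩ := hint (C₁ • ratCurve W).a₃ (k * 3) (W.a₃ + r₀ * W.a₁ + 2 * t₀)
    (by simp only [C₁, ratCurve, pow_mul]; push_cast; linear_combination -c3) hI'.h₃
  obtain ⟨m₄, hm₄⟩ := hint (C₁ • ratCurve W).a₄ (k * 4) (W.a₄ - s₀ * W.a₃ + 2 * r₀ * W.a₂
      - (t₀ + r₀ * s₀) * W.a₁ + 3 * r₀ ^ 2 - 2 * s₀ * t₀)
    (by simp only [C₁, ratCurve, pow_mul]; push_cast; linear_combination -c4) hI'.h₄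
  obtain ⟨m₆, hm₆⟩ := hint (C₁ • ratCurve W).a₆ (k * 6) (W.a₆ + r₀ * W.a₄ + r₀ ^ 2 * W.a₂ + r₀ ^ 3
      - t₀ * W.a₃ - t₀ ^ 2 - r₀ * t₀ * W.a₁)
    (by simp only [C₁, ratCurve, pow_mul]; push_cast; linear_combination -c6) hI'.h₆
  refine ⟨⟨m₁, m₂, m₃, m₄, m₆⟩, ⟨C₁, ?_⟩, fun hd => ?_⟩
  · exact WeierstrassCurve.ext hm₁.symm hm₂.symm hm₃.symm hm₄.symm hm₆.symm
  · have e : ((C₁ • ratCurve W).map (algebraMap ℚ Qb)).Δ =
        (((⟨m₁, m₂, m₃, m₄, m₆⟩ : WeierstrassCurve ℤ).Δ : ℤ) : Qb) := by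
      rw [show (C₁ • ratCurve W) = (⟨m₁, m₂, m₃, m₄, m₆⟩ : WeierstrassCurve ℤ).map
        (Int.castRingHom ℚ) from WeierstrassCurve.ext hm₁.symm hm₂.symm hm₃.symm hm₄.symm hm₆.symm,
        WeierstrassCurve.map_map, map_Δ, eq_intCast]
    obtain ⟨c, hc⟩ := hd
    rw [e, hc, Int.cast_mul, Int.cast_natCast, map_mul] at hΔ'
    exact absurd hΔ' ((mul_le_of_le_one_right' (intCast_le_one c)).trans_lt hq1).ne

end FA.GoodReduction

end
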