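import Fermat.Agent.GoodReduction.Criterion
import Fermat.Agent.Twists.Main

/-!
# Serre's semistability defect at a prime `q ≥ 5` of potentially good reduction

Let `j` be integral at `q ≥ 5`, let `v` be the valuation of the discriminant and let `e` be the
denominator of `v / 12`, so that `π ^ e = q` and a power `μ` of `π` has `μ ^ 12 = q ^ v`. Scaling
the short equation by `μ` gives a good equation, so inertia fixing `π` fixes the torsion prime to
`q`. Conversely an inertia element fixing the torsion multiplies the scaling by a twelfth root of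
unity congruent to `1`, which is `1`. So inertia acts through its action on `π`, cyclically of
order `e`.
-/

set_option autoImplicit false
set_option linter.style.haveILetI false
set_option linter.unusedSectionVars false

noncomputable section

open WeierstrassCurve WeierstrassCurve.Affine FA.Frob FA.RT.Tate FA.Local
open scoped WeierstrassCurve.Affine

local notation "Qb" => AlgebraicClosure ℚ
local notation "GQ" => AlgebraicClosure ℚ ≃ₐ[ℚ] AlgebraicClosure ℚ

namespace FA.GoodReduction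

/-- The semistability defect at `q`: the denominator of `v_q(Δ) / 12`. At a prime `q ≥ 5` with `j`
integral it is the order of the image of inertia on the torsion prime to `q`. It does not depend on
the equation. -/
def defect (q : ℕ) (E : WeierstrassCurve ℚ) : ℕ :=
  12 / Int.gcd (padicValRat q E.Δ) 12

/-- The numerator of `v_q(Δ) / 12`. -/
def defectNum (q : ℕ) (E : WeierstrassCurve ℚ) : ℤ :=
  padicValRat q E.Δ / (Int.gcd (padicValRat q E.Δ) 12 : ℕ)

/-- `v / 12 = defectNum / defect` in lowest terms. -/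
theorem defect_spec (q : ℕ) (E : WeierstrassCurve ℚ) :
    0 < defect q E ∧ defect q E ∣ 12 ∧
      12 * defectNum q E = padicValRat q E.Δ * (defect q E : ℤ) ∧
      IsCoprime (defectNum q E) (defect q E : ℤ) := by
  rw [defect, defectNum]
  generalize padicValRat q E.Δ = v
  have hg : 0 < Int.gcd v 12 := Int.gcd_pos_of_ne_zero_right v (by norm_num)
  have hd : Int.gcd v 12 ∣ 12 :=
    Int.natCast_dvd_natCast.mp (by exact_mod_cast Int.gcd_dvd_right v 12)
  obtain ⟨e, he⟩ := hd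
  obtain ⟨m, hm⟩ : ((Int.gcd v 12 : ℕ) : ℤ) ∣ v := Int.gcd_dvd_left v 12
  have he0 : 0 < e := Nat.pos_of_mul_pos_left (he ▸ (by norm_num : 0 < 12))
  have e1 : 12 / Int.gcd v 12 = e := by
    conv_lhs => rw [he]
    exact Nat.mul_div_cancel_left e hg
  have e2 : v / ((Int.gcd v 12 : ℕ) : ℤ) = m := by
    conv_lhs => arg 1; rw [hm]
    exact Int.mul_ediv_cancel_left m (by exact_mod_cast hg.ne')
  rw [e1, e2]
  have h12 : (12 : ℤ) = (Int.gcd v 12 : ℤ) * e := by exact_mod_cast he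
  refine ⟨he0, Dvd.intro_left _ he.symm, ?_, ?_⟩
  · linear_combination m * h12 - (e : ℤ) * hm
  · have := Int.isCoprime_iff_gcd_eq_one.mpr (Int.gcd_div_gcd_div_gcd hg)
    rwa [e2, show (12 : ℤ) / ((Int.gcd v 12 : ℕ) : ℤ) = (e : ℤ) by exact_mod_cast e1] at this

variable {q : ℕ} {A : ValuationSubring Qb}

/-- The valuation of a rational number at a place above `q`. -/
theorem valuation_algebraMap_eq_zpow (hq : q.Prime) (hA : A.LiesOverPrime q) {c : ℚ} (hc : c ≠ 0) :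
    A.valuation (algebraMap ℚ Qb c) = A.valuation (q : Qb) ^ padicValRat q c := by
  have h1 := exists_valuation_eq_pow hq hA (Rat.num_ne_zero.mpr hc)
  have h2 := exists_valuation_eq_pow hq hA (n := (c.den : ℤ)) (by exact_mod_cast c.den_nz)
  have hv : A.valuation (q : Qb) ≠ 0 := (LocalDef.valuation_p_pos hq).ne'
  rw [Int.cast_natCast] at h2
  rw [eq_ratCast, Rat.cast_def, map_div₀, h1, h2, padicValRat_def,
    zpow_sub₀ hv, zpow_natCast, zpow_natCast, padicValInt.of_nat]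

/-- A natural number prime to `q` is a unit at a place above `q`. -/
theorem natCast_eq_one (hq : q.Prime) (hA : A.LiesOverPrime q) {n : ℕ} (hn : ¬ q ∣ n) :
    A.valuation (n : Qb) = 1 := by
  simpa using natCast_eq_one_of_not_dvd hq (LocalDef.valuation_p_lt_one hA) (n := (n : ℤ))
    fun h => hn (Int.natCast_dvd_natCast.mp h)

/-- A prime `q ≥ 5` divides no divisor of `12`. -/
theorem not_dvd_of_dvd_twelve (hq : q.Prime) (h5 : 5 ≤ q) {e : ℕ} (he : e ∣ 12) : ¬ q ∣ e :=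
  fun h => by
    have := Nat.le_of_dvd (by norm_num) (h.trans he)
    interval_cases q <;> norm_num at * <;> exact absurd (h.trans he) (by norm_num)

/-- A root of unity of order prime to `q` congruent to `1` is `1`. -/
theorem eq_one_of_pow_eq_one (hq : q.Prime) (hA : A.LiesOverPrime q) {n : ℕ} (hn : ¬ q ∣ n)
    {η : Qb} (hη : η ^ n = 1) (h : A.valuation (η - 1) < 1) : η = 1 := by
  by_contra hne
  have hn0 : n ≠ 0 := fun h0 => hn (h0 ▸ dvd_zero q)
  have hη1 : A.valuation η = 1 :=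
    (pow_eq_one_iff.mp (by rw [← map_pow, hη, map_one] : A.valuation η ^ n = 1)).resolve_right hn0
  have hsum : ∑ i ∈ Finset.range n, η ^ i = 0 := by
    have := geom_sum_mul η n
    rw [hη, sub_self] at this
    exact (mul_eq_zero.mp this).resolve_right (sub_ne_zero.mpr hne)
  have hlt : ∀ i : ℕ, A.valuation (η ^ i - 1) < 1 := fun i => by
    induction i with
    | zero => simp
    | succ i ih =>
      rw [show η ^ (i + 1) - 1 = η * (η ^ i - 1) + (η - 1) by ring]
      exact A.valuation.map_add_lt (map_mul_lt_one hη1.le ih) h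
  have h' : A.valuation (∑ i ∈ Finset.range n, (η ^ i - 1)) < 1 :=
    A.valuation.map_sum_lt one_ne_zero fun i _ => hlt i
  rw [Finset.sum_sub_distrib, hsum, Finset.sum_const, Finset.card_range, nsmul_one, zero_sub,
    A.valuation.map_neg, natCast_eq_one hq hA hn] at h'
  exact lt_irrefl _ h'

/-- Inertia fixes the roots of unity of order prime to `q`. -/
theorem inertia_fix_root (hq : q.Prime) (hA : A.LiesOverPrime q) {e : ℕ} (heq : ¬ q ∣ e) {σ : GQ}
    (hσ : σ ∈ A.inertiaSubgroupIn ℚ) {η : Qb} (hη : η ^ e = 1) : σ η = η := by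
  have he : e ≠ 0 := fun h => heq (h ▸ dvd_zero q)
  have hη0 : η ≠ 0 := fun h => by rw [h, zero_pow he] at hη; exact zero_ne_one hη
  have hv : A.valuation η = 1 := (pow_eq_one_iff.mp
    (by rw [← map_pow, hη, map_one] : A.valuation η ^ e = 1)).resolve_right he
  have := eq_one_of_pow_eq_one hq hA heq (η := σ η / η)
    (by rw [div_pow, ← map_pow, hη, map_one, one_div_one])
    (by rw [div_sub_one hη0, map_div₀, hv, div_one]
        exact (inert_of_mem_inertiaSubgroupIn A hσ).sub_lt η hv.le)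
  rwa [div_eq_one_iff_eq hη0] at this

variable {E : WeierstrassCurve ℚ} [E.IsElliptic] {π : Qb}

/-- The short equation scaled by the power `μ` of `π` with `μ ^ 12 = q ^ v` is good at `q`. -/
theorem exists_shortModel (hq : q.Prime) (h5 : 5 ≤ q) (hA : A.LiesOverPrime q)
    (hj : 0 ≤ padicValRat q E.j) (hπ : π ^ defect q E = (q : Qb)) :
    ∃ (C : VariableChange Qb) (V : WeierstrassCurve Qb), V = C • (E⁄Qb) ∧
      IntCoeff A.valuation V.toAffine ∧ A.valuation V.Δ = 1 ∧ V.a₁ = 0 ∧ V.a₃ = 0 ∧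
      (C.u : Qb) = π ^ defectNum q E * algebraMap ℚ Qb (1 / 6) ∧
      (∃ r : ℚ, C.r = algebraMap ℚ Qb r) ∧ (∃ s : ℚ, C.s = algebraMap ℚ Qb s) ∧
      ∃ t : ℚ, C.t = algebraMap ℚ Qb t := by
  obtain ⟨he, hed, hnum, -⟩ := defect_spec q E
  have hq0 : (q : Qb) ≠ 0 := Nat.cast_ne_zero.mpr hq.ne_zero
  have hπ0 : π ≠ 0 := fun h => hq0 (by rw [← hπ, h, zero_pow he.ne'])
  set μ := π ^ defectNum q E with hμ
  have hμ0 : μ ≠ 0 := zpow_ne_zero _ hπ0
  have hμ12 : μ ^ 12 = (q : Qb) ^ padicValRat q E.Δ := by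
    rw [hμ, ← zpow_natCast, ← zpow_mul, mul_comm, Nat.cast_ofNat, hnum, mul_comm, zpow_mul,
      zpow_natCast, hπ]
  have h16 : algebraMap ℚ Qb (1 / 6) ≠ 0 := (map_ne_zero _).mpr (by norm_num)
  set C₁ : VariableChange ℚ := ⟨Units.mk0 (1 / 6 : ℚ) (by norm_num), -E.b₂ / 12, -E.a₁ / 2,
    E.a₁ * E.b₂ / 24 - E.a₃ / 2⟩
  have hC₁ : C₁ • E = FA.Twists.short E.c₄ E.c₆ := by
    ext
    all_goals simp only [C₁, variableChange_a₁, variableChange_a₂, variableChange_a₃,
      variableChange_a₄, variableChange_a₆, Units.val_inv_eq_inv_val, Units.val_mk0,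
      FA.Twists.short, c₄, c₆, b₂, b₄, b₆]
    all_goals ring
  set C : VariableChange Qb := ⟨Units.mk0 μ hμ0, 0, 0, 0⟩ * C₁.map (algebraMap ℚ Qb) with hC
  set V := C • (E⁄Qb) with hV
  have hsix : A.valuation (algebraMap ℚ Qb (1 / 6)) = 1 := by
    rw [one_div, map_inv₀, map_inv₀, map_ofNat, show (6 : Qb) = ((6 : ℕ) : Qb) by norm_num,
      natCast_eq_one hq hA (fun h => by
        have := Nat.le_of_dvd (by norm_num) h
        interval_cases q <;> norm_num at *), inv_one]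
  have hu : (C.u : Qb) = μ * algebraMap ℚ Qb (1 / 6) := rfl
  have hΔ : A.valuation V.Δ = 1 := by
    have hEΔ : (E⁄Qb).Δ = algebraMap ℚ Qb E.Δ := map_Δ _ _
    rw [hV, variableChange_Δ, Units.val_inv_eq_inv_val, hEΔ, map_mul, map_pow, map_inv₀, hu,
      map_mul, hsix, mul_one, inv_pow, ← map_pow, hμ12, map_zpow₀,
      valuation_algebraMap_eq_zpow hq hA E.isUnit_Δ.ne_zero,
      inv_mul_cancel₀ (zpow_ne_zero _ (LocalDef.valuation_p_pos hq).ne')]
  obtain ⟨a, b, hab⟩ : ∃ a b : Qb, V = ⟨0, 0, 0, a, b⟩ := by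
    refine ⟨V.a₄, V.a₆, ?_⟩
    have : V = (⟨Units.mk0 μ hμ0, 0, 0, 0⟩ : VariableChange Qb) •
        (FA.Twists.short E.c₄ E.c₆).map (algebraMap ℚ Qb) := by
      rw [hV, hC, mul_smul, ← hC₁, ← map_variableChange]
      rfl
    rw [this]
    ext <;> simp [variableChange_a₁, variableChange_a₂, variableChange_a₃, FA.Twists.short]
  have hn : ∀ n : ℕ, n ∣ 864 * 48 → A.valuation (n : Qb) = 1 := fun n hn =>
    natCast_eq_one hq hA fun h => by
      have h1 : q ∣ 2 ^ 9 * 3 ^ 4 := (h.trans hn).trans (by norm_num)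
      rcases hq.dvd_mul.mp h1 with h2 | h2 <;>
        have := Nat.le_of_dvd (by norm_num) (hq.dvd_of_dvd_pow h2) <;> omega
  have hc4 : A.valuation V.c₄ ≤ 1 := by
    have e : V.c₄ ^ 3 = algebraMap ℚ Qb E.j * V.Δ := by
      have eE : E.c₄ ^ 3 = E.j * E.Δ := by
        rw [WeierstrassCurve.j, Units.val_inv_eq_inv_val, coe_Δ']
        field_simp [E.isUnit_Δ.ne_zero]
      rw [hV, variableChange_c₄, variableChange_Δ, show (E⁄Qb).c₄ = algebraMap ℚ Qb E.c₄ from
        map_c₄ _ _, show (E⁄Qb).Δ = algebraMap ℚ Qb E.Δ from map_Δ _ _]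
      have eQ := congrArg (algebraMap ℚ Qb) eE
      rw [map_pow, map_mul] at eQ
      linear_combination ((C.u⁻¹ : Qbˣ) : Qb) ^ 12 * eQ
    by_contra hc
    have h1 := congrArg A.valuation e
    rw [map_mul, hΔ, mul_one, map_pow] at h1
    exact absurd (FA.PotentialGood.valuation_le_one_of_padicValRat hq hA hj)
      (not_le.mpr (h1 ▸ one_lt_pow₀ (not_le.mp hc) three_ne_zero))
  have hc6 : A.valuation V.c₆ ≤ 1 := by
    have e : V.c₆ ^ 2 = V.c₄ ^ 3 - ((1728 : ℕ) : Qb) * V.Δ := by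
      push_cast; linear_combination V.c_relation
    by_contra hc
    have h1 := congrArg A.valuation e
    rw [map_pow] at h1
    exact absurd (A.valuation.map_sub_le (map_pow_le_one hc4 3)
      (map_mul_le_one (natCast_le_one 1728) hΔ.le))
      (not_le.mpr (h1 ▸ one_lt_pow₀ (not_le.mp hc) two_ne_zero))
  have ea : V.c₄ = -(((48 : ℕ) : Qb) * a) := by
    rw [hab]; simp only [c₄, b₂, b₄]; push_cast; ring
  have eb : V.c₆ = -(((864 : ℕ) : Qb) * b) := by
    rw [hab]; simp only [c₆, b₂, b₄, b₆]; push_cast; ring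
  rw [ea, A.valuation.map_neg, map_mul, hn 48 (Dvd.intro_left _ rfl), one_mul] at hc4
  rw [eb, A.valuation.map_neg, map_mul, hn 864 (Dvd.intro _ rfl), one_mul] at hc6
  refine ⟨C, V, rfl, ?_, hΔ, by rw [hab], by rw [hab], hu, ⟨C₁.r, ?_⟩, ⟨C₁.s, ?_⟩, ⟨C₁.t, ?_⟩⟩
  · rw [hab]; exact ⟨by simp, by simp, by simp, hc4, hc6⟩
  all_goals simp [hC, VariableChange.mul_def, VariableChange.map]

/-- **Inertia fixing `π` fixes the torsion prime to `q`.** -/
theorem smul_eq_of_root_fixed (hq : q.Prime) (h5 : 5 ≤ q) (hA : A.LiesOverPrime q)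
    (hj : 0 ≤ padicValRat q E.j) (hπ : π ^ defect q E = (q : Qb)) {σ : GQ}
    (hσ : σ ∈ A.inertiaSubgroupIn ℚ) (hσπ : σ π = π) {p : ℕ} (hp : p.Prime) (hpq : p ≠ q)
    (n : ℕ) (P : (E.toAffine⁄Qb).Point) (hP : p ^ n • P = 0) :
    Affine.Point.map σ.toAlgHom P = P := by
  have := Fact.mk hp
  obtain ⟨C, V, hV, hI, hΔ, -, -, hu, ⟨r, hr⟩, ⟨s, hs⟩, ⟨t, ht⟩⟩ :=
    exists_shortModel hq h5 hA hj hπ
  haveI : (E⁄Qb).IsElliptic := inferInstanceAs (E.map (algebraMap ℚ Qb)).IsElliptic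
  haveI : V.IsElliptic := ⟨isUnit_iff_ne_zero.mpr fun h0 => by simp [h0] at hΔ⟩
  let e : V.toAffine.Point ≃+ (E⁄Qb).toAffine.Point := vcEquiv C hV.symm
  obtain ⟨Q, rfl⟩ := e.surjective P
  obtain ⟨Q', hQ', hE⟩ := FA.PotentialGood.exists_map_eq_e1_sub E hV hI hΔ hσ
    (by rw [hu, map_mul, map_zpow₀, hσπ, σ.commutes]) (by rw [hr]; exact σ.commutes r)
    (by rw [hs]; exact σ.commutes s) (by rw [ht]; exact σ.commutes t) Q
  change e Q' = _ at hQ'
  have hz : Q' - Q = 0 := FA.PotentialGood.eq_zero_of_e1_prime_pow hI hp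
    (valuation_p_eq_one (p := p) hq hA hpq.symm) hE (n := n) (e.injective (by
      rw [map_nsmul, map_sub, hQ', nsmul_sub, ← map_nsmul, hP, map_zero, sub_zero]
      exact (map_zero e).symm))
  rw [← hQ', sub_eq_zero.mp hz]

/-- **Inertia fixing the `p`-power torsion fixes `π`.** -/
theorem root_fixed_of_smul_eq (hq : q.Prime) (h5 : 5 ≤ q) (hA : A.LiesOverPrime q)
    (hj : 0 ≤ padicValRat q E.j) (hπ : π ^ defect q E = (q : Qb)) {σ : GQ}
    (hσ : σ ∈ A.inertiaSubgroupIn ℚ) {p : ℕ} [hp : Fact p.Prime] (hpq : p ≠ q)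
    (hfix : ∀ (n : ℕ) (P : (E.toAffine⁄Qb).Point), p ^ n • P = 0 →
      Affine.Point.map σ.toAlgHom P = P) : σ π = π := by
  obtain ⟨he, hed, hnum, hco⟩ := defect_spec q E
  obtain ⟨C, V, hV, hI, hΔ, ha₁, ha₃, hu, ⟨r, hr⟩, ⟨s, hs⟩, ⟨t, ht⟩⟩ :=
    exists_shortModel hq h5 hA hj hπ
  haveI : (E⁄Qb).IsElliptic := inferInstanceAs (E.map (algebraMap ℚ Qb)).IsElliptic
  haveI : V.IsElliptic := ⟨isUnit_iff_ne_zero.mpr fun h0 => by simp [h0] at hΔ⟩
  let e : V.toAffine.Point ≃+ (E⁄Qb).toAffine.Point := vcEquiv C hV.symm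
  obtain ⟨W, hW⟩ := FA.Frob.exists_integralModel E
  haveI := FA.Frob.ratCurve_isElliptic_of_Δ (FA.Frob.Δ_ne_zero_of_model hW)
  obtain ⟨w, -⟩ := FA.Root.exists_equiv_of_model hW
  obtain ⟨B⟩ := exists_tateBasis (p := p) W
  set P₀ : V.toAffine.Point := e.symm (w (B.φ 3 (Pi.single 0 1))) with hP₀
  have hord : p ^ 3 • P₀ = 0 := by
    rw [hP₀, ← map_nsmul e.symm, ← map_nsmul w, B.nsmul_phi, map_zero, map_zero]
  obtain ⟨x₁, y₁, x₂, y₂, h₁, h₂, e1, e2, hx₁, hz, hd⟩ := exists_torsion_pair hI hΔ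
    (valuation_p_eq_one (p := p) hq hA hpq.symm) P₀ (fun k hk0 hk5 h => by
      have h1 : B.φ 3 (k • Pi.single 0 1) = 0 := w.injective (e.symm.injective (by
        rw [map_nsmul (B.φ 3), map_nsmul w, map_nsmul e.symm, ← hP₀, h, map_zero, map_zero]))
      have h2 := (B.ker 3 _).mp h1 0
      rw [Pi.smul_apply, Pi.single_eq_same, nsmul_one, map_natCast,
        ZMod.natCast_eq_zero_iff] at h2
      have := Nat.le_of_dvd hk0 h2
      have : 2 ^ 3 ≤ p ^ 3 := Nat.pow_le_pow_left hp.out.two_le 3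
      omega) hord
  have hco' : ∀ (k : ℕ) {x y : Qb} (h : V.toAffine.Nonsingular x y), k • P₀ = .some x y h →
      σ (vcX C x) = vcX C x ∧ σ (vcY C x y) = vcY C x y := by
    intro k x y h hk
    have hf := hfix 3 (e (k • P₀)) (by rw [← map_nsmul, smul_comm, hord, nsmul_zero, map_zero])
    rw [hk] at hf
    change Affine.Point.map σ.toAlgHom (vcFun C hV.symm (.some x y h)) =
      vcFun C hV.symm (.some x y h) at hf
    simpa [vcFun, Affine.Point.map_some] using hf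
  obtain ⟨hX, hY⟩ := hco' 1 h₁ (by rw [one_nsmul, e1])
  obtain ⟨hX₂, -⟩ := hco' 2 h₂ e2
  set u := (C.u : Qb) with hudef
  have hu0 : u ≠ 0 := C.u.ne_zero
  set ζ := σ u / u with hζ
  have hσu : σ u = ζ * u := by rw [hζ, div_mul_cancel₀ _ hu0]
  have hq0 : (q : Qb) ≠ 0 := Nat.cast_ne_zero.mpr hq.ne_zero
  have hπ0 : π ≠ 0 := fun h => hq0 (by rw [← hπ, h, zero_pow he.ne'])
  have hi := inert_of_mem_inertiaSubgroupIn A hσ
  have hζv : A.valuation ζ = 1 := by
    rw [hζ, map_div₀, hi.map_eq, div_self (A.valuation.ne_zero_iff.mpr hu0)]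
  have hmove : ∀ {c : Qb} (k : ℕ), A.valuation c = 1 → σ (u ^ k * c) = u ^ k * c →
      A.valuation (ζ ^ k - 1) < 1 := fun {c} k hc hk => by
    rw [map_mul, map_pow, hσu, mul_pow, mul_assoc, mul_comm (u ^ k), mul_comm (u ^ k) c,
      ← mul_assoc] at hk
    have h := mul_right_cancel₀ (pow_ne_zero k hu0) hk
    have h' := hi.sub_lt c hc.le
    rw [← one_mul (A.valuation (ζ ^ k - 1)), ← hc, ← map_mul,
      show c * (ζ ^ k - 1) = -(ζ ^ k * (σ c - c)) by linear_combination h, A.valuation.map_neg]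
    rw [hc]
    exact map_mul_lt_one (map_pow_le_one hζv.le k) h'
  have h2 : A.valuation (ζ ^ 2 - 1) < 1 := hmove 2 hd (by
    have h := congrArg₂ (· - ·) hX hX₂
    simp only [vcX, map_add, map_mul, map_pow, map_sub] at h ⊢
    linear_combination h)
  have h3 : A.valuation (ζ ^ 3 - 1) < 1 := hmove 3 hz (by
    simp only [fy, show V.toAffine.a₁ = 0 from ha₁, show V.toAffine.a₃ = 0 from ha₃]
    have hx : σ (u ^ 2 * x₁) = u ^ 2 * x₁ := by
      simp only [vcX, map_add, hr, σ.commutes, add_left_inj] at hX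
      exact hX
    have hy : σ (u ^ 3 * y₁) = u ^ 3 * y₁ := by
      simp only [vcY, map_add, hs, ht, σ.commutes, add_left_inj] at hY
      rw [mul_assoc (algebraMap ℚ Qb s), map_mul σ (algebraMap ℚ Qb s), σ.commutes, hx] at hY
      exact add_right_cancel hY
    rw [show u ^ 3 * (2 * y₁ + 0 * x₁ + 0) = 2 * (u ^ 3 * y₁) by ring, map_mul, hy, map_ofNat])
  have hζ1 : A.valuation (ζ - 1) < 1 := by
    rw [show ζ - 1 = (ζ ^ 3 - 1) - ζ * (ζ ^ 2 - 1) by ring]
    exact A.valuation.map_sub_lt h3 (map_mul_lt_one hζv.le h2)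
  set η := σ π / π with hη
  have hσπ : σ π = η * π := by rw [hη, div_mul_cancel₀ _ hπ0]
  have hηe : η ^ defect q E = 1 := by rw [hη, div_pow, ← map_pow, hπ, map_natCast, div_self hq0]
  have hζη : ζ = η ^ defectNum q E := by
    rw [hζ, hu, map_mul, σ.commutes, map_zpow₀, hσπ, mul_zpow]
    field_simp [zpow_ne_zero _ hπ0]
  have hζ12 : ζ ^ 12 = 1 := by
    rw [hζη, ← zpow_natCast, ← zpow_mul, mul_comm, Nat.cast_ofNat, hnum, mul_comm, zpow_mul,
      zpow_natCast, hηe, one_zpow]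
  have hone := eq_one_of_pow_eq_one hq hA (not_dvd_of_dvd_twelve hq h5 dvd_rfl) hζ12 hζ1
  rw [hζη] at hone
  obtain ⟨a, b, hab⟩ := hco
  have hη0 : η ≠ 0 := div_ne_zero ((map_ne_zero σ).mpr hπ0) hπ0
  have : η = 1 := by
    calc η = η ^ (a * defectNum q E + b * (defect q E : ℤ)) := by rw [hab, zpow_one]
      _ = 1 := by
        rw [zpow_add₀ hη0, mul_comm a, mul_comm b, zpow_mul, zpow_mul, hone, zpow_natCast, hηe,
          one_zpow, one_zpow, mul_one]
  rw [hσπ, this, one_mul]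

/-- **The action on `π` is cyclic of order `e`.** -/
theorem exists_generator (hq : q.Prime) (hA : A.LiesOverPrime q) {e : ℕ} (he : 0 < e)
    (heq : ¬ q ∣ e) (hπ : π ^ e = (q : Qb)) :
    ∃ σ₀ ∈ A.inertiaSubgroupIn ℚ, (∀ σ ∈ A.inertiaSubgroupIn ℚ, ∃ k < e, σ π = (σ₀ ^ k) π) ∧
      ∀ k : ℕ, (σ₀ ^ k) π = π ↔ e ∣ k := by
  have : NeZero e := ⟨he.ne'⟩
  have hq0 : (q : Qb) ≠ 0 := Nat.cast_ne_zero.mpr hq.ne_zero
  have hπ0 : π ≠ 0 := fun h => hq0 (by rw [← hπ, h, zero_pow he.ne'])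
  have hroot : ∀ σ : GQ, (σ π / π) ^ e = 1 := fun σ => by
    rw [div_pow, ← map_pow, hπ, map_natCast, div_self hq0]
  set I := A.inertiaSubgroupIn ℚ
  have hfix : ∀ σ ∈ I, ∀ η : Qb, η ^ e = 1 → σ η = η := fun σ hσ η =>
    inertia_fix_root hq hA heq hσ
  let χ : I →* rootsOfUnity e Qb :=
    MonoidHom.mk' (fun σ => rootsOfUnity.mkOfPowEq _ (hroot σ.1)) fun σ τ => by
      refine Subtype.ext (Units.ext ?_)
      simp only [rootsOfUnity.val_mkOfPowEq_coe, Subgroup.coe_mul, AlgEquiv.mul_apply,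
        Units.val_mul]
      have : τ.1 π = τ.1 π / π * π := by rw [div_mul_cancel₀ _ hπ0]
      conv_lhs => rw [this, map_mul, hfix σ.1 σ.2 _ (hroot τ.1)]
      field_simp
  have hval : ∀ σ : I, (((χ σ : rootsOfUnity e Qb) : Qbˣ) : Qb) * π = σ.1 π := fun σ => by
    show σ.1 π / π * π = _
    rw [div_mul_cancel₀ _ hπ0]
  obtain ⟨⟨g, hg⟩, hgen⟩ := IsCyclic.exists_generator (α := χ.range)
  obtain ⟨σ₀, hσ₀⟩ := hg
  have hpow : ∀ k : ℕ, ((σ₀ ^ k : I) : GQ) π = π ↔ g ^ k = 1 := fun k => by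
    rw [← hval, map_pow, hσ₀, mul_eq_right₀ hπ0, Subtype.ext_iff, Units.ext_iff]
    rfl
  have hord : orderOf g = e := by
    have hd : orderOf g ∣ e := orderOf_dvd_of_pow_eq_one (Subtype.ext g.2)
    refine Nat.dvd_antisymm hd ?_
    have hkur : π ^ orderOf g ∈ LocalDef.kur A := LocalDef.mem_kur.mpr fun σ hσ => by
      obtain ⟨i, hi⟩ := Subgroup.mem_zpowers_iff.mp (hgen ⟨χ ⟨σ, hσ⟩, ⟨σ, hσ⟩, rfl⟩)
      have hi' : g ^ i = χ ⟨σ, hσ⟩ := congrArg Subtype.val hi
      have h1 : χ ⟨σ, hσ⟩ ^ orderOf g = 1 := by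
        rw [← hi', ← zpow_natCast, zpow_comm, zpow_natCast, pow_orderOf_eq_one, one_zpow]
      rw [map_pow, ← hval ⟨σ, hσ⟩, mul_pow]
      rw [Subtype.ext_iff, Units.ext_iff] at h1
      simp only [SubmonoidClass.coe_pow, Units.val_pow_eq_pow_val] at h1
      rw [show ((((χ ⟨σ, hσ⟩ : rootsOfUnity e Qb) : Qbˣ) : Qb)) ^ orderOf g = 1 from h1, one_mul]
    obtain ⟨i, hi⟩ := LocalDef.exists_zpow_of_mem_kur hq hA hkur (pow_ne_zero _ hπ0)
    have h2 : A.valuation (q : Qb) ^ (orderOf g : ℤ) = A.valuation (q : Qb) ^ (i * (e : ℤ)) := by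
      rw [zpow_mul, ← hi, zpow_natCast, zpow_natCast, ← map_pow, ← map_pow, ← hπ, ← pow_mul,
        ← pow_mul, mul_comm e]
    have h3 := zpow_right_injective₀ (LocalDef.valuation_p_pos hq)
      (LocalDef.valuation_p_lt_one hA).ne h2
    exact Int.natCast_dvd_natCast.mp ⟨i, by rw [h3, mul_comm]⟩
  refine ⟨σ₀.1, σ₀.2, fun σ hσ => ?_, fun k => ?_⟩
  · obtain ⟨i, hi⟩ := Subgroup.mem_zpowers_iff.mp (hgen ⟨χ ⟨σ, hσ⟩, ⟨σ, hσ⟩, rfl⟩)
    have hi' : g ^ i = χ ⟨σ, hσ⟩ := congrArg Subtype.val hi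
    refine ⟨(i % e).toNat, ?_, ?_⟩
    · have := Int.emod_lt_of_pos i (Int.natCast_pos.mpr he)
      omega
    · rw [← Subgroup.coe_pow, ← hval, map_pow, hσ₀, ← zpow_natCast g,
        Int.toNat_of_nonneg (Int.emod_nonneg i (by exact_mod_cast he.ne'))]
      have h := zpow_mod_orderOf g i
      rw [hord] at h
      rw [h, hi', hval ⟨σ, hσ⟩]
  · rw [← Subgroup.coe_pow, hpow, ← orderOf_dvd_iff_pow_eq_one, hord]

/-- The `e`-th power of an inertia element fixes `π`. -/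
theorem pow_defect_apply (hq : q.Prime) (hA : A.LiesOverPrime q) {e : ℕ} (he : 0 < e)
    (heq : ¬ q ∣ e) (hπ : π ^ e = (q : Qb)) {σ : GQ} (hσ : σ ∈ A.inertiaSubgroupIn ℚ) :
    (σ ^ e) π = π := by
  have hq0 : (q : Qb) ≠ 0 := Nat.cast_ne_zero.mpr hq.ne_zero
  have hπ0 : π ≠ 0 := fun h => hq0 (by rw [← hπ, h, zero_pow he.ne'])
  have hroot : (σ π / π) ^ e = 1 := by
    rw [div_pow, ← map_pow, hπ, map_natCast, div_self hq0]
  have hpow : ∀ i : ℕ, (σ ^ i) π = (σ π / π) ^ i * π := fun i => by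
    induction i with
    | zero => simp
    | succ i ih =>
      rw [pow_succ', AlgEquiv.mul_apply, ih, map_mul, map_pow,
        inertia_fix_root hq hA heq hσ hroot, pow_succ, mul_assoc, div_mul_cancel₀ _ hπ0]
  rw [hpow, hroot, one_mul]

end FA.GoodReduction

end
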