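import Fermat.Agent.Root.SummaryPotentialGoodReduction
import Fermat.Agent.LocalDef.Unr
import Mathlib.FieldTheory.Finite.Basic

/-!
# Descent of elements and equations to `ℚ` at a place of `ℚ̄`

An element fixed by inertia which is congruent to its Frobenius conjugate modulo `q ^ n` is
congruent to an integer modulo `q ^ n`. A change of variables with integral entries and unit
scaling keeps an equation integral with unit discriminant.
-/

set_option autoImplicit false
set_option linter.unusedSectionVars false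

noncomputable section

open WeierstrassCurve FA.Local FA.LocalDef

local notation "Qb" => AlgebraicClosure ℚ
local notation "GQ" => AlgebraicClosure ℚ ≃ₐ[ℚ] AlgebraicClosure ℚ

namespace FA.GoodReduction

variable {q : ℕ} {A : ValuationSubring Qb}

/-- An integral element congruent to its `q`-th power is congruent to a natural number. -/
theorem exists_natCast_sub_lt [hq : Fact q.Prime] (hA : A.LiesOverPrime q) {y : Qb}
    (hy : A.valuation y ≤ 1) (h : res A y ^ q = res A y) :
    ∃ m : ℕ, A.valuation (y - (m : Qb)) < 1 := by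
  have := res_charP hq.out hA
  obtain ⟨m, hm⟩ : ∃ m : ℕ, (m : Res A) = res A y := by
    have hbot := (Subfield.mem_bot_iff_pow_eq_self (Res A) q (x := res A y)).mpr h
    rw [← ZMod.fieldRange_castHom_eq_bot q] at hbot
    obtain ⟨z, hz⟩ := hbot
    exact ⟨z.val, by rw [← hz, ← map_natCast (ZMod.castHom dvd_rfl (Res A)), ZMod.natCast_zmod_val]⟩
  refine ⟨m, ?_⟩
  rw [← res_eq_zero_iff (A.valuation.map_sub_le hy (natCast_le_one m))]
  have h1 : res A (y - (m : Qb)) + res A (m : Qb) = res A y := by
    rw [← res_add (A.valuation.map_sub_le hy (natCast_le_one m)) (natCast_le_one m), sub_add_cancel]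
  rwa [res_natCast, hm, add_eq_right] at h1

/-- **Descent to the integers**: an element fixed by inertia and congruent to its conjugates under
the decomposition group modulo `q ^ n` is congruent to an integer modulo `q ^ n`. -/
theorem exists_intCast_sub_le [hq : Fact q.Prime] (hA : A.LiesOverPrime q) {x : Qb}
    (hx : ∀ σ ∈ A.inertiaSubgroupIn ℚ, σ x = x) (hint : A.valuation x ≤ 1) :
    ∀ n : ℕ, (∀ σ ∈ A.decompositionSubgroup ℚ,
        A.valuation (σ x - x) ≤ A.valuation (q : Qb) ^ n) →
      ∃ m : ℤ, A.valuation (x - (m : Qb)) ≤ A.valuation (q : Qb) ^ n := by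
  intro n
  have hq0 : (q : Qb) ≠ 0 := Nat.cast_ne_zero.mpr hq.out.ne_zero
  have hvq : A.valuation (q : Qb) ≠ 0 := A.valuation.ne_zero_iff.mpr hq0
  induction n with
  | zero => exact fun _ => ⟨0, by simpa using hint⟩
  | succ n ih =>
    intro h
    obtain ⟨m, hm⟩ := ih fun σ hσ => (h σ hσ).trans
      (pow_le_pow_right_of_le_one' (valuation_p_lt_one hA).le n.le_succ)
    set y := (x - (m : Qb)) / (q : Qb) ^ n with hy
    have hy1 : A.valuation y ≤ 1 := by
      rw [hy, map_div₀, map_pow, div_le_one₀ (pow_pos (zero_lt_iff.mpr hvq) n)]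
      exact hm
    obtain ⟨F, hF, hFres⟩ := exists_frobenius hq.out hA
    have hFy : A.valuation (F y - y) < 1 := by
      have e : F y - y = (F x - x) / (q : Qb) ^ n := by
        rw [hy, map_div₀, map_sub, map_intCast, map_pow, map_natCast, ← sub_div]; ring
      rw [e, map_div₀, map_pow, div_lt_one₀ (pow_pos (zero_lt_iff.mpr hvq) n)]
      exact (h F hF).trans_lt (pow_lt_pow_right_of_lt_one₀ (zero_lt_iff.mpr hvq)
        (valuation_p_lt_one hA) n.lt_succ_self)
    obtain ⟨j, hj⟩ := exists_natCast_sub_lt hA hy1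
      ((hFres y hy1).symm.trans (res_congr hy1 hFy))
    refine ⟨m + (q : ℤ) ^ n * j, ?_⟩
    have hkur : y - (j : Qb) ∈ kur A := mem_kur.mpr fun σ hσ => by
      rw [hy, map_sub, map_div₀, map_sub, hx σ hσ, map_intCast, map_pow, map_natCast, map_natCast]
    have e : x - ((m + (q : ℤ) ^ n * j : ℤ) : Qb) = (q : Qb) ^ n * (y - (j : Qb)) := by
      rw [hy, mul_sub, mul_div_cancel₀ _ (pow_ne_zero n hq0)]
      push_cast
      ring
    rw [e, map_mul, map_pow, pow_succ]
    exact mul_le_mul_right (le_of_mem_kur hq.out hA hkur hj) _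

/-- A change of variables with integral entries and unit scaling keeps an integral equation with
unit discriminant integral with unit discriminant. -/
theorem intCoeff_smul (D : VariableChange Qb) {V : WeierstrassCurve Qb}
    (hI : IntCoeff A.valuation V.toAffine) (hΔ : A.valuation V.Δ = 1)
    (hu : A.valuation (D.u : Qb) = 1) (hr : A.valuation D.r ≤ 1) (hs : A.valuation D.s ≤ 1)
    (ht : A.valuation D.t ≤ 1) :
    IntCoeff A.valuation (D • V).toAffine ∧ A.valuation (D • V).Δ = 1 := by
  have hu' : A.valuation ((D.u⁻¹ : Qbˣ) : Qb) = 1 := by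
    rw [Units.val_inv_eq_inv_val, map_inv₀, hu, inv_one]
  let R : Subring Qb := A.valuation.integer
  let D' : VariableChange R := ⟨⟨⟨D.u, hu.le⟩, ⟨((D.u⁻¹ : Qbˣ) : Qb), hu'.le⟩,
    Subtype.ext D.u.mul_inv, Subtype.ext D.u.inv_mul⟩, ⟨_, hr⟩, ⟨_, hs⟩, ⟨_, ht⟩⟩
  let V' : WeierstrassCurve R := ⟨⟨_, hI.h₁⟩, ⟨_, hI.h₂⟩, ⟨_, hI.h₃⟩, ⟨_, hI.h₄⟩, ⟨_, hI.h₆⟩⟩
  have e : D • V = (D' • V').map R.subtype := by
    rw [← map_variableChange]
    rfl
  refine ⟨?_, ?_⟩
  · rw [e]
    exact ⟨(D' • V').a₁.2, (D' • V').a₂.2, (D' • V').a₃.2, (D' • V').a₄.2, (D' • V').a₆.2⟩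
  · rw [variableChange_Δ, map_mul, map_pow, hu', one_pow, one_mul, hΔ]

end FA.GoodReduction

end
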