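import Fermat.Agent.GoodReduction.FrobeniusEverywhere
import Fermat.Agent.ReducedGroups.Katz
import Mathlib.Data.Nat.Factorization.Basic

/-!
# Fixed torsion, counted by determinants

A matrix over `ℤ_p` with determinant a unit times `p ^ v` has image of index `p ^ v`. So a Galois
element `σ` fixes exactly `p ^ v` points of `p`-power order, `p ^ v` the part of `p` in
`det (σ - 1)`, and infinitely many if that determinant is `0`.
-/

set_option autoImplicit false
set_option linter.style.haveILetI false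
set_option linter.unusedSectionVars false

noncomputable section

open Matrix WeierstrassCurve FA.EC FA.Frob FA.RT.Tate
open scoped WeierstrassCurve.Affine

local notation "Qb" => AlgebraicClosure ℚ
local notation "GQ" => AlgebraicClosure ℚ ≃ₐ[ℚ] AlgebraicClosure ℚ
local notation "M2" => Matrix (Fin 2) (Fin 2)

namespace FA.Katz

variable {p : ℕ} [hp : Fact p.Prime]

/-- The index of the image is the part of `p` in the determinant. -/
theorem index_rng_of_det : ∀ (v : ℕ) (N : M2 ℤ_[p]) (u : ℤ_[p]ˣ),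
    N.det = u * (p : ℤ_[p]) ^ v → (rng N).index = p ^ v := by
  intro v
  induction v with
  | zero =>
    intro N u h
    rw [pow_zero, mul_one] at h
    rw [index_rng_of_isUnit (h ▸ u.isUnit), pow_zero]
  | succ v ih =>
    intro N u h
    have hsing : (N.map PadicInt.toZMod).det = 0 := by
      rw [← RingHom.mapMatrix_apply, ← RingHom.map_det, h, map_mul, map_pow, map_natCast,
        ZMod.natCast_self, zero_pow v.succ_ne_zero, mul_zero]
    obtain ⟨w, hw, hwN⟩ := exists_vecMul_eq_zero_iff.mpr hsing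
    obtain ⟨Ub, hUb, hUw⟩ := exists_row_one hw
    obtain ⟨U, hUm, hU⟩ := exists_lift Ub
    specialize hU hUb
    obtain ⟨Y, hY⟩ := exists_eq_scale_mul (Z := U * N) (i := 1) fun j => by
      have := congrFun hwN j
      rw [← hUw] at this
      rw [← Matrix.map_apply (f := PadicInt.toZMod), Matrix.map_mul, hUm]
      exact this
    have hp0 : (p : ℤ_[p]) ≠ 0 := Nat.cast_ne_zero.mpr hp.out.ne_zero
    have hdY : Y.det = (hU.unit * u : ℤ_[p]ˣ) * (p : ℤ_[p]) ^ v := by
      refine mul_left_cancel₀ hp0 ?_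
      have := congrArg Matrix.det hY
      rw [det_mul, det_mul, det_scale, h] at this
      rw [← this, Units.val_mul, IsUnit.unit_spec, pow_succ]
      ring
    have h1 := index_rng_mul U N hU.ne_zero
    rw [index_rng_of_isUnit hU, mul_one] at h1
    rw [← h1, hY, index_rng_mul (scale 1) Y (by rw [det_scale]; exact hp0), index_scale,
      ih Y _ hdY, pow_succ]

end FA.Katz

namespace FA.GoodReduction

variable {W : WeierstrassCurve ℤ} [(ratCurve W).IsElliptic]

/-- The points killed by `m` and fixed by `σ`. -/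
def fixedTorsion (W : WeierstrassCurve ℤ) [(ratCurve W).IsElliptic] (σ : GQ) (m : ℕ) :
    AddSubgroup (Pts W) :=
  (DistribSMul.toAddMonoidHom (Pts W) σ - AddMonoidHom.id _).ker ⊓ (nsmulAddMonoidHom m).ker

theorem mem_fixedTorsion {σ : GQ} {m : ℕ} {x : Pts W} :
    x ∈ fixedTorsion W σ m ↔ σ • x = x ∧ m • x = 0 := by
  show DistribSMul.toAddMonoidHom (Pts W) σ x - x = 0 ∧ m • x = 0 ↔ _
  rw [sub_eq_zero]
  rfl

variable {p : ℕ} [hp : Fact p.Prime]

/-- `φ` at level `n` kills exactly the multiples of `p ^ n`. -/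
theorem phi_eq_zero_iff_dvd (B : TateBasis p W) {n : ℕ} {v : Fin 2 → ℤ_[p]} :
    B.φ n v = 0 ↔ ∃ w, v = (p : ℤ_[p]) ^ n • w := by
  have : ∀ x : ℤ_[p], PadicInt.toZModPow n x = 0 ↔ ∃ c, x = (p : ℤ_[p]) ^ n * c := fun x => by
    rw [← RingHom.mem_ker, PadicInt.ker_toZModPow, Ideal.mem_span_singleton]
    rfl
  rw [B.ker]
  simp only [this]
  exact ⟨fun h => ⟨fun i => (h i).choose, funext fun i => (h i).choose_spec⟩,
    fun ⟨w, hw⟩ i => ⟨w i, by rw [hw]; rfl⟩⟩

/-- **The fixed points of `p`-power order**, for `det (σ - 1) = u p ^ v`: they are killed by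
`p ^ v` and there are `p ^ v` of them. -/
theorem card_fixedTorsion_pow (B : TateBasis p W) {σ : GQ} {v : ℕ} {u : ℤ_[p]ˣ}
    (h : (B.rep σ - 1).det = u * (p : ℤ_[p]) ^ v) :
    (∀ (n : ℕ) (x : Pts W), p ^ n • x = 0 → σ • x = x → p ^ v • x = 0) ∧
      Nat.card (fixedTorsion W σ (p ^ v)) = p ^ v := by
  set N := B.rep σ - 1
  have hN : ∀ (n : ℕ) w, B.φ n (N *ᵥ w) = σ • B.φ n w - B.φ n w := fun n w => by
    rw [sub_mulVec, one_mulVec, map_sub, B.rep_spec]
  let f : (Fin 2 → ℤ_[p]) →+ Pts W := (B.φ v).comp (Matrix.toLin' N.adjugate).toAddMonoidHom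
  have hf : ∀ w, f w = B.φ v (N.adjugate *ᵥ w) := fun w => rfl
  have hsurj : ∀ (n : ℕ) (x : Pts W), p ^ n • x = 0 → σ • x = x → x ∈ f.range := by
    intro n x hx hfix
    obtain ⟨y, hy⟩ := B.surj (n + v) x (by rw [pow_add, mul_comm, mul_nsmul', hx, nsmul_zero])
    obtain ⟨w, hw⟩ := (phi_eq_zero_iff_dvd B).mp
      (show B.φ (n + v) (N *ᵥ y) = 0 by rw [hN, hy, hfix, sub_self])
    set z := N.adjugate *ᵥ ((↑u⁻¹ : ℤ_[p]) • w)
    have hyz : y = (p : ℤ_[p]) ^ n • z := by
      have h1 := congrArg (N.adjugate *ᵥ ·) hw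
      simp only [mulVec_mulVec, adjugate_mul, smul_mulVec, one_mulVec, mulVec_smul, h] at h1
      refine smul_right_injective _ (pow_ne_zero v (Nat.cast_ne_zero.mpr hp.out.ne_zero) :
        (p : ℤ_[p]) ^ v ≠ 0) ?_
      simp only [z, mulVec_smul, smul_smul]
      have h2 := congrArg ((↑u⁻¹ : ℤ_[p]) • ·) h1
      simp only [smul_smul] at h2
      rw [← mul_assoc, Units.inv_mul, one_mul, pow_add] at h2
      rw [h2]
      congr 1
      ring
    refine ⟨(↑u⁻¹ : ℤ_[p]) • w, ?_⟩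
    rw [hf, ← hy, hyz, ← B.pow_compat v n, add_comm v n, ← map_nsmul]
    congr 1
    rw [← Nat.cast_smul_eq_nsmul ℤ_[p], Nat.cast_pow]
  have hrange : f.range = fixedTorsion W σ (p ^ v) := by
    refine le_antisymm ?_ fun x hx =>
      hsurj v x (mem_fixedTorsion.mp hx).2 (mem_fixedTorsion.mp hx).1
    rintro _ ⟨w, rfl⟩
    refine mem_fixedTorsion.mpr ⟨sub_eq_zero.mp ?_, B.nsmul_phi v _⟩
    rw [hf, ← hN, mulVec_mulVec, mul_adjugate, h]
    exact (phi_eq_zero_iff_dvd B).mpr ⟨(u : ℤ_[p]) • w, by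
      rw [smul_mulVec, one_mulVec, smul_smul, mul_comm]⟩
  refine ⟨fun n x hx hfix => ?_, ?_⟩
  · have := hsurj n x hx hfix
    rw [hrange] at this
    exact (mem_fixedTorsion.mp this).2
  have hker : f.ker = FA.Katz.rng N := by
    ext w
    rw [AddMonoidHom.mem_ker, hf, phi_eq_zero_iff_dvd, FA.Katz.mem_rng]
    constructor
    · rintro ⟨z, hz⟩
      have h1 := congrArg (N *ᵥ ·) hz
      simp only [mulVec_mulVec, mul_adjugate, smul_mulVec, one_mulVec, mulVec_smul, h] at h1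
      refine ⟨(↑u⁻¹ : ℤ_[p]) • z, ?_⟩
      rw [mulVec_smul]
      refine smul_right_injective _ (pow_ne_zero v (Nat.cast_ne_zero.mpr hp.out.ne_zero) :
        (p : ℤ_[p]) ^ v ≠ 0) ?_
      simp only
      rw [smul_comm, ← h1, smul_smul, ← mul_assoc, Units.inv_mul, one_mul]
    · rintro ⟨z, rfl⟩
      refine ⟨(u : ℤ_[p]) • z, ?_⟩
      rw [mulVec_mulVec, adjugate_mul, h, smul_mulVec, one_mulVec, smul_smul, mul_comm]
  rw [← hrange, ← AddSubgroup.index_ker, hker, FA.Katz.index_rng_of_det v N u h]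

/-- If `det (σ - 1) = 0` then `σ` fixes points of arbitrarily high `p`-power order. -/
theorem infinite_fixed_of_det (B : TateBasis p W) {σ : GQ} (h : (B.rep σ - 1).det = 0) :
    {x : Pts W | σ • x = x ∧ ∃ n, p ^ n • x = 0}.Infinite := by
  obtain ⟨z, hz, hNz⟩ := exists_mulVec_eq_zero_iff.mpr h
  have hfix : ∀ n, σ • B.φ n z = B.φ n z := fun n => by
    rw [← sub_eq_zero, B.rep_spec, ← map_sub]
    rw [sub_mulVec, one_mulVec] at hNz
    rw [hNz, map_zero]
  have hex : ∃ n, B.φ n z ≠ 0 := by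
    by_contra hn
    push Not at hn
    refine hz (funext fun i => PadicInt.ext_of_toZModPow.mp fun n => ?_)
    rw [(B.ker n z).mp (hn n) i, Pi.zero_apply, map_zero]
  obtain ⟨n, hn⟩ := hex
  intro hfin
  refine hn ?_
  have hmem : ∀ k, B.φ k z ∈ {x : Pts W | σ • x = x ∧ ∃ n, p ^ n • x = 0} := fun k =>
    ⟨hfix k, k, B.nsmul_phi k z⟩
  haveI := hfin.to_subtype
  obtain ⟨a, b, hne, hab⟩ := Finite.exists_ne_map_eq_of_infinite
    fun k : ℕ => (⟨B.φ (n + k) z, hmem _⟩ : ↥({x : Pts W | σ • x = x ∧ ∃ n, p ^ n • x = 0}))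
  wlog hlt : a < b generalizing a b
  · exact this b a hne.symm hab.symm (by omega)
  have h1 := congrArg (fun x => p ^ a • (x : _).1) hab
  simp only [B.pow_compat] at h1
  obtain ⟨d, rfl⟩ := Nat.exists_eq_add_of_le hlt.le
  rw [show n + (a + d) = n + d + a by ring, B.pow_compat] at h1
  have h2 : B.φ n z = p ^ d • B.φ n z := by
    conv_rhs => rw [h1, B.pow_compat]
  have hd : 0 < d := by omega
  have h3 : ∀ j, B.φ n z = (p ^ d) ^ j • B.φ n z := fun j => by
    induction j with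
    | zero => simp
    | succ j ih => rw [pow_succ, mul_nsmul', ← h2, ← ih]
  obtain ⟨k, hk⟩ : ∃ k, d * n = n + k := ⟨d * n - n, by
    have := Nat.le_mul_of_pos_left n hd; omega⟩
  rw [h3 n, ← pow_mul, hk, pow_add, mul_comm, mul_nsmul', B.nsmul_phi, nsmul_zero]

/-- Coprime parts multiply. -/
theorem card_fixedTorsion_mul (σ : GQ) {a b : ℕ} (hab : Nat.Coprime a b) :
    Nat.card (fixedTorsion W σ (a * b)) =
      Nat.card (fixedTorsion W σ a) * Nat.card (fixedTorsion W σ b) := by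
  rw [← Nat.card_prod]
  symm
  let g : fixedTorsion W σ a × fixedTorsion W σ b → fixedTorsion W σ (a * b) := fun x =>
    ⟨x.1.1 + x.2.1, by
      obtain ⟨h1, h1'⟩ := mem_fixedTorsion.mp x.1.2
      obtain ⟨h2, h2'⟩ := mem_fixedTorsion.mp x.2.2
      exact mem_fixedTorsion.mpr ⟨by rw [FA.Local.gal_smul_add, h1, h2],
        by rw [nsmul_add, mul_comm, mul_nsmul', h1', nsmul_zero, mul_comm, mul_nsmul', h2',
          nsmul_zero, add_zero]⟩⟩
  refine Nat.card_congr (Equiv.ofBijective g ⟨fun x y hxy => ?_, fun z => ?_⟩)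
  · have hd : x.1.1 - y.1.1 = y.2.1 - x.2.1 := by
      rw [sub_eq_sub_iff_add_eq_add, add_comm y.2.1]
      exact congrArg Subtype.val hxy
    have ha : a • (x.1.1 - y.1.1) = 0 := by
      rw [nsmul_sub, (mem_fixedTorsion.mp x.1.2).2, (mem_fixedTorsion.mp y.1.2).2, sub_zero]
    have hb : b • (x.1.1 - y.1.1) = 0 := by
      rw [hd, nsmul_sub, (mem_fixedTorsion.mp x.2.2).2, (mem_fixedTorsion.mp y.2.2).2, sub_zero]
    have h0 : x.1.1 - y.1.1 = 0 := AddMonoid.addOrderOf_eq_one_iff.mp <| Nat.dvd_one.mp <| by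
      rw [← hab.gcd_eq_one]
      exact Nat.dvd_gcd (addOrderOf_dvd_of_nsmul_eq_zero ha) (addOrderOf_dvd_of_nsmul_eq_zero hb)
    exact Prod.ext (Subtype.ext (sub_eq_zero.mp h0))
      (Subtype.ext (sub_eq_zero.mp (hd.symm.trans h0)).symm)
  · obtain ⟨s, t, hst⟩ : IsCoprime (a : ℤ) b := Nat.Coprime.isCoprime hab
    obtain ⟨hz, hz'⟩ := mem_fixedTorsion.mp z.2
    have hk : ∀ c : ℤ, σ • (c • z.1) = c • z.1 := fun c => by rw [gal_smul_zsmul, hz]
    have hz'' : ((a : ℤ) * b) • z.1 = 0 := by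
      rw [← Nat.cast_mul, natCast_zsmul, hz']
    refine ⟨(⟨(t * b) • z.1, mem_fixedTorsion.mpr ⟨hk _, ?_⟩⟩,
      ⟨(s * a) • z.1, mem_fixedTorsion.mpr ⟨hk _, ?_⟩⟩), Subtype.ext ?_⟩
    · rw [← natCast_zsmul, smul_smul, show (a : ℤ) * (t * b) = t * (a * b) by ring, mul_smul,
        hz'', zsmul_zero]
    · rw [← natCast_zsmul, smul_smul, show (b : ℤ) * (s * a) = s * (a * b) by ring, mul_smul,
        hz'', zsmul_zero]
    · show (t * b) • z.1 + (s * a) • z.1 = z.1
      rw [← add_zsmul, add_comm, hst, one_zsmul]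

/-- An integer is a unit times its part at `p`. -/
theorem exists_unit_mul_pow {k : ℤ} (hk : k ≠ 0) :
    ∃ u : ℤ_[p]ˣ, (k : ℤ_[p]) = u * (p : ℤ_[p]) ^ k.natAbs.factorization p := by
  obtain ⟨m, hm, hkm⟩ : ∃ m : ℤ, ¬ (p : ℤ) ∣ m ∧
      k = m * (p : ℤ) ^ k.natAbs.factorization p := by
    refine ⟨k.sign * ((k.natAbs / p ^ k.natAbs.factorization p : ℕ) : ℤ), fun h => ?_, ?_⟩
    · have h' := Int.natCast_dvd.mp h
      rw [Int.natAbs_mul, Int.natAbs_sign_of_ne_zero hk, one_mul, Int.natAbs_natCast] at h'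
      exact Nat.not_dvd_ordCompl hp.out (Int.natAbs_ne_zero.mpr hk) h'
    · conv_lhs => rw [← Int.sign_mul_natAbs k,
        ← Nat.ordProj_mul_ordCompl_eq_self k.natAbs p]
      push_cast
      ring
  have hu : IsUnit (m : ℤ_[p]) := PadicInt.isUnit_iff.mpr <| le_antisymm (PadicInt.norm_le_one _) <|
    not_lt.mp fun h => hm ((PadicInt.norm_int_lt_one_iff_dvd m).mp h)
  refine ⟨hu.unit, ?_⟩
  rw [IsUnit.unit_spec]
  exact_mod_cast congrArg (fun x : ℤ => (x : ℤ_[p])) hkm

end FA.GoodReduction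

end
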