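import Fermat.Agent.GoodReduction.Coinvariants
import Fermat.Agent.GoodReduction.Criterion
import Fermat.Agent.Root.LFunctionFormLocal
import Fermat.Agent.Root.SummaryPotentialGoodReduction

/-!
# Frobenius at a prime of potentially good reduction

Where `j` is integral at `q` the curve has a good equation over `ℚ̄` at every place over `q`. For
a Frobenius element `σ` at the place it can be chosen with the change of variables to its
conjugate congruent to one (Lang's theorem, elementary for changes of variables over the closed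
residue field). Reduction then carries `σ` to the Frobenius endomorphism of the reduced curve, so
`σ² - a σ + q = 0` on all torsion prime to `q` for one integer `a` with `a² ≤ 4 q`.
-/

set_option autoImplicit false
set_option linter.style.haveILetI false
set_option linter.unusedSectionVars false

noncomputable section

open Polynomial WeierstrassCurve FA.EC FA.Frob FA.Local
open scoped WeierstrassCurve.Affine Pointwise

namespace FA.GoodReduction

section Lang

variable {k : Type*} [Field k] [IsAlgClosed k]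

/-- A root of `a X ^ q + b X + c`. -/
theorem exists_root_trinomial {q : ℕ} (hq : 2 ≤ q) {a : k} (ha : a ≠ 0) (b c : k) :
    ∃ x, a * x ^ q + b * x + c = 0 := by
  have hd : (C a * X ^ q + (C b * X + C c) : k[X]).degree = q := by
    rw [degree_add_eq_left_of_degree_lt] <;> rw [degree_C_mul_X_pow q ha]
    refine degree_linear_le.trans_lt ?_
    exact_mod_cast hq
  obtain ⟨x, hx⟩ := IsAlgClosed.exists_root _
    (show (C a * X ^ q + (C b * X + C c) : k[X]).degree ≠ 0 by
      rw [hd]; exact_mod_cast (show q ≠ 0 by omega))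
  refine ⟨x, ?_⟩
  simp only [IsRoot.def, eval_add, eval_mul, eval_C, eval_pow, eval_X] at hx
  linear_combination hx

/-- **Lang's theorem for changes of variables**: each is `(C^(q))⁻¹ C` for some `C`. -/
theorem exists_variableChange_lang {q : ℕ} (hq : 2 ≤ q) (f : k →+* k) (hf : ∀ x, f x = x ^ q)
    (D : VariableChange k) : ∃ C : VariableChange k, C.map f * D = C := by
  have hd : (D.u : k) ≠ 0 := D.u.ne_zero
  obtain ⟨u, hu⟩ := IsAlgClosed.exists_pow_nat_eq ((D.u : k)⁻¹) (show 0 < q - 1 by omega)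
  have hu0 : u ≠ 0 := by
    rintro rfl
    rw [zero_pow (by omega)] at hu
    exact inv_ne_zero hd hu.symm
  obtain ⟨r, hr⟩ := exists_root_trinomial hq (pow_ne_zero 2 hd) (-1) D.r
  obtain ⟨s, hs⟩ := exists_root_trinomial hq hd (-1) D.s
  obtain ⟨t, ht⟩ := exists_root_trinomial hq (pow_ne_zero 3 hd) (-1)
    (r ^ q * D.s * (D.u : k) ^ 2 + D.t)
  refine ⟨⟨Units.mk0 u hu0, r, s, t⟩, ?_⟩
  rw [VariableChange.mul_def]
  ext
  · simp only [Units.val_mul, VariableChange.map, MonoidHom.coe_coe, Units.coe_map,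
      Units.val_mk0, hf]
    rw [show q = q - 1 + 1 by omega, pow_succ, hu, mul_right_comm, inv_mul_cancel₀ hd, one_mul]
  · simp only [VariableChange.map, hf]
    linear_combination hr
  · simp only [VariableChange.map, hf]
    linear_combination hs
  · simp only [VariableChange.map, hf]
    linear_combination ht

end Lang

/-- A change of variables between equations with unit discriminant is, entry by entry,
integral. -/
theorem exists_integral_entries {R K : Type*} [CommRing R] [IsDomain R] [Field K] [Algebra R K]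
    [IsFractionRing R K] [IsIntegrallyClosed R] (V J : WeierstrassCurve R) (D : VariableChange K)
    (hD : D • V.map (algebraMap R K) = J.map (algebraMap R K)) (hV : IsUnit V.Δ)
    (hJ : IsUnit J.Δ) : ∃ D₀ : VariableChange R, D₀.map (algebraMap R K) = D ∧ D₀ • V = J := by
  have hinj := IsFractionRing.injective R K
  have mem : ∀ (x : K) (P : R[X]), P.Monic → P.eval₂ (algebraMap R K) x = 0 →
      ∃ a : R, algebraMap R K a = x :=
    fun x P hP h => IsIntegrallyClosed.isIntegral_iff.mp ⟨P, hP, h⟩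
  have hΔ := congrArg WeierstrassCurve.Δ hD
  rw [variableChange_Δ, map_Δ, map_Δ] at hΔ
  set f := algebraMap R K with hf
  set u := (D.u : K) with hu
  set y := ((D.u⁻¹ : Kˣ) : K) with hy
  have huy : u * y = 1 := D.u.mul_inv
  obtain ⟨v, hv⟩ := hV
  obtain ⟨j, hj⟩ := hJ
  rw [← hv, ← hj] at hΔ
  have hyu : ∀ n : ℕ, u ^ n * y ^ n = 1 := fun n => by rw [← mul_pow, huy, one_pow]
  obtain ⟨a, ha⟩ := mem u (X ^ 12 - C ((v : R) * ((j⁻¹ : Rˣ) : R)))
    (monic_X_pow_sub_C _ (by norm_num)) (by
      have h1 : f j * f ((j⁻¹ : Rˣ) : R) = 1 := by rw [← map_mul, Units.mul_inv, map_one]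
      simp only [eval₂_sub, eval₂_pow, eval₂_X, eval₂_C, eval₂_mul, map_mul]
      linear_combination (-(u ^ 12)) * h1 - (u ^ 12 * f ((j⁻¹ : Rˣ) : R)) * hΔ +
        (f v * f ((j⁻¹ : Rˣ) : R)) * hyu 12)
  obtain ⟨b, hb⟩ := mem y (X ^ 12 - C ((j : R) * ((v⁻¹ : Rˣ) : R)))
    (monic_X_pow_sub_C _ (by norm_num)) (by
      have h1 : f v * f ((v⁻¹ : Rˣ) : R) = 1 := by rw [← map_mul, Units.mul_inv, map_one]
      simp only [eval₂_sub, eval₂_pow, eval₂_X, eval₂_C, eval₂_mul, map_mul]
      linear_combination (-(y ^ 12)) * h1 + f ((v⁻¹ : Rˣ) : R) * hΔ)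
  have hab : a * b = 1 := hinj (by rw [map_mul, ha, hb, map_one, huy])
  obtain ⟨r, hr⟩ := mem D.r (X ^ 4 + (C (-V.b₄) * X ^ 2 + C (-2 * V.b₆ - a ^ 6 * J.b₆) * X +
      C (a ^ 8 * J.b₈ - V.b₈))) (by
    apply monic_X_pow_add
    exact lt_of_le_of_lt degree_quadratic_le (by norm_num)) (by
    have e8 := congrArg WeierstrassCurve.b₈ hD
    have e6 := congrArg WeierstrassCurve.b₆ hD
    simp only [variableChange_b₈, variableChange_b₆, map_b₂, map_b₄, map_b₆, map_b₈, ← hy] at e8 e6
    simp only [eval₂_add, eval₂_mul, eval₂_pow, eval₂_X, eval₂_C]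
    simp only [map_sub, map_mul, map_neg, map_pow, map_ofNat, ha]
    linear_combination (u ^ 6 * D.r) * e6 - u ^ 8 * e8 -
      (D.r * (f V.b₆ + 2 * D.r * f V.b₄ + D.r ^ 2 * f V.b₂ + 4 * D.r ^ 3)) * hyu 6 +
      (f V.b₈ + 3 * D.r * f V.b₆ + 3 * D.r ^ 2 * f V.b₄ + D.r ^ 3 * f V.b₂ + 3 * D.r ^ 4) * hyu 8)
  obtain ⟨s, hs⟩ := mem D.s (X ^ 2 + (C V.a₁ * X + C (a ^ 2 * J.a₂ - V.a₂ - 3 * r))) (by
    apply monic_X_pow_add
    exact lt_of_le_of_lt degree_linear_le (by norm_num)) (by
    have e2 := congrArg WeierstrassCurve.a₂ hD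
    simp only [variableChange_a₂, map_a₁, map_a₂, ← hy] at e2
    simp only [eval₂_add, eval₂_mul, eval₂_pow, eval₂_X, eval₂_C]
    simp only [map_sub, map_mul, map_pow, map_ofNat, ha, hr]
    linear_combination (-(u ^ 2)) * e2 +
      (f V.a₂ - D.s * f V.a₁ + 3 * D.r - D.s ^ 2) * hyu 2)
  obtain ⟨t, ht⟩ := mem D.t (X ^ 2 + (C (V.a₃ + r * V.a₁) * X +
      C (a ^ 6 * J.a₆ - V.a₆ - r * V.a₄ - r ^ 2 * V.a₂ - r ^ 3))) (by
    apply monic_X_pow_add
    exact lt_of_le_of_lt degree_linear_le (by norm_num)) (by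
    have e6 := congrArg WeierstrassCurve.a₆ hD
    simp only [variableChange_a₆, map_a₁, map_a₂, map_a₃, map_a₄, map_a₆, ← hy] at e6
    simp only [eval₂_add, eval₂_mul, eval₂_pow, eval₂_X, eval₂_C]
    simp only [map_sub, map_add, map_mul, map_pow, ha, hr]
    linear_combination (-(u ^ 6)) * e6 + (f V.a₆ + D.r * f V.a₄ + D.r ^ 2 * f V.a₂ + D.r ^ 3
      - D.t * f V.a₃ - D.t ^ 2 - D.r * D.t * f V.a₁) * hyu 6)
  let D₀ : VariableChange R := ⟨⟨a, b, hab, by rw [mul_comm, hab]⟩, r, s, t⟩
  have e : D₀.map f = D := VariableChange.ext (Units.ext ha) hr hs ht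
  refine ⟨D₀, e, WeierstrassCurve.map_injective hinj ?_⟩
  show (D₀ • V).map f = J.map f
  rw [← WeierstrassCurve.map_variableChange, e, hD]

section Compose

variable {L : Type*} [Field L]

/-- The coordinates under a product of changes of variables. -/
theorem vc_mul (D C : VariableChange L) (x y : L) :
    vcX C (vcX D x) = vcX (D * C) x ∧ vcY C (vcX D x) (vcY D x y) = vcY (D * C) x y := by
  simp only [vcX, vcY, VariableChange.mul_def, Units.val_mul]
  constructor <;> ring

/-- `vcX` and `vcY` over a ring. -/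
def vcX' {R : Type*} [CommRing R] (D : VariableChange R) (x : R) : R := (D.u : R) ^ 2 * x + D.r

/-- See `vcX'`. -/
def vcY' {R : Type*} [CommRing R] (D : VariableChange R) (x y : R) : R :=
  (D.u : R) ^ 3 * y + D.s * (D.u : R) ^ 2 * x + D.t

end Compose

section Bound

variable {k : Type*} [Field k] [IsAlgClosed k] [DecidableEq k] {l : ℕ} [Fact l.Prime] [CharP k l]
  (W : WeierstrassCurve k) [W.IsElliptic] [DecidableEq (FF W)] (hW : W.map (frobenius k l) = W)

/-- The trace of the Frobenius endomorphism is at most `2 √l`. -/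
theorem sq_trEnd_le : trEnd W hW ^ 2 ≤ 4 * l := by
  have h := Int.natCast_nonneg (hgt W ((-(trEnd W hW)) • g0 W + (2 : ℤ) • g1 W hW).1)
  change 0 ≤ hM W _ at h
  rw [(isPara_hM W).map_combo, hM_g0, hM_g1] at h
  simp only [trEnd] at h ⊢
  linarith

end Bound

local notation "Qb" => AlgebraicClosure ℚ
local notation "GQ" => AlgebraicClosure ℚ ≃ₐ[ℚ] AlgebraicClosure ℚ

open FA.RT FA.RT.Tate

variable {W : WeierstrassCurve ℤ} [(ratCurve W).IsElliptic] {q : ℕ} [hqf : Fact q.Prime]
  {A : ValuationSubring Qb}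

/-- **A good equation adapted to a Frobenius element**: the change of variables to its conjugate is
integral and congruent to one. -/
theorem exists_adapted_model (hA : A.LiesOverPrime q)
    (hj : 0 ≤ padicValRat q (ratCurve W).j) {σ : GQ} (hσ : A.IsFrobeniusAt σ q) :
    ∃ (C : VariableChange Qb) (M : WeierstrassCurve A) (D : VariableChange A),
      C • ((ratCurve W)⁄Qb) = M.map A.subtype ∧ IsUnit M.Δ ∧
        D.map A.subtype * C = C.map (σ : Qb →+* Qb) ∧
        D.map (IsLocalRing.residue A) = 1 ∧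
        ∀ [CharP (Res A) q], (M.map (IsLocalRing.residue A)).map (frobenius (Res A) q) =
          M.map (IsLocalRing.residue A) := by
  have hq : q.Prime := hqf.out
  haveI := residueField_charP A hq hA
  haveI := residueField_isAlgClosed A
  have hstab : σ • A = A := hσ.mem_decompositionSubgroup
  have hmem : ∀ x, σ x ∈ A ↔ x ∈ A := fun x => by
    conv_lhs => rw [← hstab]
    exact ValuationSubring.smul_mem_pointwise_smul_iff (g := σ) (S := A) (x := x)
  obtain ⟨C₀, V₀, hV₀, hI, hΔ⟩ := FA.PotentialGood.exists_goodModel (ratCurve W) hq hA hj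
  set M₀ := intModel A V₀.toAffine hI
  have hM₀ : M₀.map A.subtype = V₀ := rfl
  have hu₀ : IsUnit M₀.Δ := by
    rw [← valuation_eq_one_iff]
    show A.valuation (A.subtype M₀.Δ) = 1
    rw [← WeierstrassCurve.map_Δ, hM₀]
    exact hΔ
  let σA : A →+* A := ((σ : Qb →+* Qb).comp A.subtype).codRestrict A.toSubring
    fun x => (hmem _).mpr x.2
  have hσA : A.subtype.comp σA = (σ : Qb →+* Qb).comp A.subtype := rfl
  have hres : (IsLocalRing.residue A).comp σA =
      (frobenius (Res A) q).comp (IsLocalRing.residue A) := RingHom.ext fun x => by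
    have h := hσ.smul_residue_eq (IsLocalRing.residue A x)
    rw [← IsLocalRing.ResidueField.residue_smul] at h
    exact h
  have hE : ((ratCurve W)⁄Qb).map (σ : Qb →+* Qb) = (ratCurve W)⁄Qb := by
    show ((ratCurve W).map (algebraMap ℚ Qb)).map _ = _
    rw [WeierstrassCurve.map_map]
    exact congrArg (ratCurve W).map (Subsingleton.elim _ _)
  obtain ⟨D₀, hD₀, hDV⟩ := exists_integral_entries M₀ (M₀.map σA)
    (C₀.map (σ : Qb →+* Qb) * C₀⁻¹) (by
      show (C₀.map (σ : Qb →+* Qb) * C₀⁻¹) • M₀.map A.subtype = (M₀.map σA).map A.subtype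
      rw [hM₀, mul_smul]
      conv_lhs => rw [hV₀, inv_smul_smul]
      rw [WeierstrassCurve.map_map, hσA, ← WeierstrassCurve.map_map, hM₀, hV₀,
        ← WeierstrassCurve.map_variableChange]
      exact congrArg _ hE.symm)
    hu₀ (by rw [WeierstrassCurve.map_Δ]; exact hu₀.map _)
  change D₀.map A.subtype = _ at hD₀
  obtain ⟨Cb, hCb⟩ := exists_variableChange_lang hq.two_le (frobenius (Res A) q)
    (fun x => frobenius_def q x) (D₀.map (IsLocalRing.residue A))
  obtain ⟨u, hu⟩ := IsLocalRing.residue_surjective (Cb.u : Res A)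
  obtain ⟨r, hr⟩ := IsLocalRing.residue_surjective Cb.r
  obtain ⟨s, hs⟩ := IsLocalRing.residue_surjective Cb.s
  obtain ⟨t, ht⟩ := IsLocalRing.residue_surjective Cb.t
  have huu : IsUnit u := IsLocalRing.notMem_maximalIdeal.mp fun h => Cb.u.ne_zero
    (hu ▸ (IsLocalRing.residue_eq_zero_iff _).mpr h)
  let C₁ : VariableChange A := ⟨huu.unit, r, s, t⟩
  have hC₁ : C₁.map (IsLocalRing.residue A) = Cb :=
    VariableChange.ext (Units.ext hu) hr hs ht
  have hmul : ∀ {R S : Type} [CommRing R] [CommRing S] (φ : R →+* S) (X Y : VariableChange R),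
      (X * Y).map φ = X.map φ * Y.map φ := fun φ X Y => map_mul (VariableChange.mapHom φ) X Y
  have hinv : ∀ {R S : Type} [CommRing R] [CommRing S] (φ : R →+* S) (X : VariableChange R),
      (X⁻¹).map φ = (X.map φ)⁻¹ := fun φ X => map_inv (VariableChange.mapHom φ) X
  have hC₁σ : (C₁.map σA).map A.subtype = (C₁.map A.subtype).map (σ : Qb →+* Qb) := by
    rw [VariableChange.map_map, hσA, ← VariableChange.map_map]
  have hC₁r : (C₁.map σA).map (IsLocalRing.residue A) =
      Cb.map (frobenius (Res A) q) := by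
    rw [VariableChange.map_map, hres, ← VariableChange.map_map, hC₁]
  refine ⟨C₁.map A.subtype * C₀, C₁ • M₀, C₁.map σA * D₀ * C₁⁻¹, ?_, ?_, ?_, ?_, ?_⟩
  · rw [mul_smul, ← hV₀, ← hM₀, WeierstrassCurve.map_variableChange]
  · rw [variableChange_Δ]
    exact ((C₁.u⁻¹).isUnit.pow 12).mul hu₀
  · rw [hmul, hmul, hmul, hinv, hC₁σ, hD₀]
    group
  · rw [hmul, hmul, hinv, hC₁r, hC₁, hCb, mul_inv_cancel]
  · intro _
    have h1 : (M₀.map (IsLocalRing.residue A)).map (frobenius (Res A) q) =
        D₀.map (IsLocalRing.residue A) • M₀.map (IsLocalRing.residue A) := by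
      rw [WeierstrassCurve.map_map, ← hres, ← WeierstrassCurve.map_map,
        WeierstrassCurve.map_variableChange, hDV]
    rw [← WeierstrassCurve.map_variableChange, hC₁, ← WeierstrassCurve.map_variableChange, h1,
      ← mul_smul, hCb]

/-- **Frobenius at a prime of potentially good reduction**: one integer `a` with `a² ≤ 4 q` gives
`σ² - a σ + q = 0` on the `p`-power torsion for every prime `p ≠ q`. -/
theorem exists_frobenius_equation (hA : A.LiesOverPrime q)
    (hj : 0 ≤ padicValRat q (ratCurve W).j) {σ : GQ} (hσ : A.IsFrobeniusAt σ q) :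
    ∃ a : ℤ, a ^ 2 ≤ 4 * q ∧ ∀ p : ℕ, p.Prime → p ≠ q → ∀ (n : ℕ) (x : Pts W),
      p ^ n • x = 0 → σ • σ • x - a • σ • x + (q : ℤ) • x = 0 := by
  classical
  have hq : q.Prime := hqf.out
  haveI := residueField_charP A hq hA
  haveI := residueField_isAlgClosed A
  haveI : ((ratCurve W)⁄Qb).IsElliptic :=
    inferInstanceAs ((ratCurve W).map (algebraMap ℚ Qb)).IsElliptic
  obtain ⟨C, M, D, hM, hu, hDC, hDr, hfix⟩ := exists_adapted_model hA hj hσ
  set V : WeierstrassCurve Qb := M.map A.subtype with hV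
  have hint : ∀ a : A, A.valuation (a : Qb) ≤ 1 := fun a => (A.valuation_le_one_iff _).mpr a.2
  have hI : IntCoeff A.valuation V.toAffine :=
    ⟨hint M.a₁, hint M.a₂, hint M.a₃, hint M.a₄, hint M.a₆⟩
  have hΔ : A.valuation V.Δ = 1 := by
    rw [hV, WeierstrassCurve.map_Δ]
    exact (valuation_eq_one_iff A _).mpr hu
  haveI : V.IsElliptic := ⟨isUnit_iff_ne_zero.mpr fun h0 => by simp [h0] at hΔ⟩
  haveI := redCurve_isElliptic hI hΔ
  set Wk := redCurve A V.toAffine hI with hWk
  have hW : Wk.map (frobenius (Res A) q) = Wk := hfix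
  have hstab : σ • A = A := hσ.mem_decompositionSubgroup
  have hmem : ∀ x, σ x ∈ A ↔ x ∈ A := fun x => by
    conv_lhs => rw [← hstab]
    exact ValuationSubring.smul_mem_pointwise_smul_iff (g := σ) (S := A) (x := x)
  have hres : ∀ x, x ∈ A → resOf A (σ x) = resOf A x ^ q := by
    intro x hx
    have h := hσ.smul_residue_eq (IsLocalRing.residue A ⟨x, hx⟩)
    rw [← IsLocalRing.ResidueField.residue_smul] at h
    rw [resOf, resOf, dif_pos hx, dif_pos ((hmem x).mpr hx), ← h]
    rfl
  let e : V.toAffine.Point ≃+ Pts W := vcEquiv C hM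
  let ρ := redHom hI hΔ
  have hD : (IsLocalRing.residue A (D.u : A) = 1) ∧ IsLocalRing.residue A D.r = 0 ∧
      IsLocalRing.residue A D.s = 0 ∧ IsLocalRing.residue A D.t = 0 :=
    ⟨congrArg (fun C : VariableChange (Res A) => (C.u : Res A)) hDr,
      congrArg VariableChange.r hDr, congrArg VariableChange.s hDr,
      congrArg VariableChange.t hDr⟩
  have key : ∀ Q : V.toAffine.Point, ρ (e.symm (σ • e Q)) = frobEnd Wk hW (ρ Q) := by
    intro Q
    rcases Q with _ | ⟨x, y, h⟩
    · rw [← Affine.Point.zero_def, map_zero, gal_smul_zero, map_zero, map_zero, map_zero]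
    obtain ⟨Q', hQ'⟩ := e.surjective (σ • e (.some x y h))
    rw [← hQ', e.symm_apply_apply]
    change vcFun C hM Q' = Affine.Point.map σ.toAlgHom (vcFun C hM (.some x y h)) at hQ'
    rcases Q' with _ | ⟨x', y', h'⟩
    · simp [vcFun, Affine.Point.map_some] at hQ'
    simp only [vcFun, Affine.Point.map_some, Affine.Point.some.injEq] at hQ'
    obtain ⟨hx', hy'⟩ := hQ'
    set D' : VariableChange Qb := D.map A.subtype with hD'
    change vcX C x' = σ (vcX C x) at hx'
    change vcY C x' y' = σ (vcY C x y) at hy'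
    have ex : σ (vcX C x) = vcX (C.map (σ : Qb →+* Qb)) (σ x) := by
      simp [vcX, VariableChange.map]
    have ey : σ (vcY C x y) = vcY (C.map (σ : Qb →+* Qb)) (σ x) (σ y) := by
      simp [vcY, VariableChange.map]
    rw [ex, ← hDC, ← (vc_mul D' C (σ x) (σ y)).1] at hx'
    rw [ey, ← hDC, ← (vc_mul D' C (σ x) (σ y)).2] at hy'
    have hu0 : (C.u : Qb) ≠ 0 := C.u.ne_zero
    obtain rfl : x' = vcX D' (σ x) := by simpa [vcX, hu0] using hx'
    obtain rfl : y' = vcY D' (σ x) (σ y) := by simpa [vcY, hu0] using hy'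
    by_cases hx : x ∈ A
    · have hy := y_mem hI h.1 hx
      let xa : A := ⟨σ x, (hmem x).mpr hx⟩
      let ya : A := ⟨σ y, (hmem y).mpr hy⟩
      have eX : vcX D' (σ x) = ((vcX' D xa : A) : Qb) := rfl
      have eY : vcY D' (σ x) (σ y) = ((vcY' D xa ya : A) : Qb) := rfl
      have hmemX : vcX D' (σ x) ∈ A := eX ▸ SetLike.coe_mem _
      obtain ⟨k₁, e₁⟩ := redFun_of_mem hI h hx
      obtain ⟨k₂, e₂⟩ := redFun_of_mem hI h' hmemX
      rw [redHom_apply, redHom_apply, e₁, e₂, frobEnd, mapHom_some]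
      simp only [Affine.Point.some.injEq, frobenius_def]
      rw [← hres x hx, ← hres y hy, eX, eY, resOf_coe, resOf_coe]
      simp only [vcX', vcY', map_add, map_mul, map_pow, hD.1, hD.2.1, hD.2.2.1, hD.2.2.2, one_pow,
        one_mul, zero_mul, add_zero]
      exact ⟨(resOf_coe (A := A) xa).symm, (resOf_coe (A := A) ya).symm⟩
    · have hx2 : vcX D' (σ x) ∉ A := fun hc => hx ((hmem x).mp (by
        have e : σ x = ((↑(D.u⁻¹) : A) : Qb) ^ 2 * (vcX D' (σ x) - (D.r : Qb)) := by
          have hone : ((↑(D.u⁻¹) : A) : Qb) * ((D.u : A) : Qb) = 1 :=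
            congrArg Subtype.val D.u.inv_mul
          simp only [vcX, hD', VariableChange.map, Units.coe_map, MonoidHom.coe_coe,
            ValuationSubring.subtype_apply]
          linear_combination -(σ x) * ((((↑(D.u⁻¹) : A) : Qb) * ((D.u : A) : Qb)) + 1) * hone
        rw [e]
        exact mul_mem (pow_mem (SetLike.coe_mem _) 2) (sub_mem hc (SetLike.coe_mem _))))
      rw [redHom_apply, redHom_apply, redFun, redFun, dif_neg hx, dif_neg hx2, map_zero]
  refine ⟨trEnd Wk hW, sq_trEnd_le Wk hW, fun p hp hpq n x hx => ?_⟩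
  haveI := Fact.mk hp
  obtain ⟨Q, rfl⟩ := e.surjective x
  have hQ : p ^ n • Q = 0 := e.injective (by rw [map_nsmul, hx, map_zero])
  have hpre : ∀ Q : V.toAffine.Point, σ • e Q = e (e.symm (σ • e Q)) :=
    fun Q => (e.apply_symm_apply _).symm
  refine (AddEquiv.map_eq_zero_iff (h := e.symm)).mp ?_
  refine FA.PotentialGood.eq_zero_of_e1_prime_pow hI hp
    (valuation_p_eq_one (p := p) hq hA hpq.symm) ((redFun_eq_zero_iff hI).mp ?_) (n := n) ?_
  · show ρ _ = 0
    rw [map_add, map_sub, map_zsmul, map_zsmul, e.symm_apply_apply, map_add, map_sub, map_zsmul,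
      map_zsmul, key, hpre Q, key, key]
    exact frobEnd_quadratic Wk hW (ρ Q)
  · rw [← map_nsmul, nsmul_add, nsmul_sub, smul_comm (p ^ n) (trEnd Wk hW),
      smul_comm (p ^ n) (q : ℤ), ← gal_smul_nsmul, ← gal_smul_nsmul, ← map_nsmul, hQ, map_zero,
      gal_smul_zero, gal_smul_zero, zsmul_zero, zsmul_zero, sub_zero, add_zero, map_zero]

end FA.GoodReduction

end
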