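import Fermat.Agent.GoodReduction.Congruence
import Fermat.Agent.HasseBound.Extensions
import Fermat.Agent.Root.SummaryPotentialFrobenius

/-!
# The Frobenius elements at every prime

At a pole of `j` a quadratic twist has multiplicative reduction, where the trace of Frobenius is
known; with the case of integral `j` every Frobenius element at every prime `q` has one integral
trace on all Tate modules at the primes `p ≠ q`.
-/

set_option autoImplicit false
set_option linter.style.haveILetI false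
set_option linter.unusedSectionVars false

noncomputable section

open Matrix WeierstrassCurve FA.EC FA.Frob FA.RT FA.RT.Tate
open scoped WeierstrassCurve.Affine

local notation "Qb" => AlgebraicClosure ℚ
local notation "GQ" => AlgebraicClosure ℚ ≃ₐ[ℚ] AlgebraicClosure ℚ

namespace FA.GoodReduction

variable {W : WeierstrassCurve ℤ} [(ratCurve W).IsElliptic]

/-- The trace and the determinant give the equation on the points. -/
theorem equation_of_trace_det {p : ℕ} [Fact p.Prime] (B : TateBasis p W) {σ : GQ} {a : ℤ} {q : ℕ}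
    (ht : (B.rep σ).trace = (a : ℤ_[p])) (hd : (B.rep σ).det = (q : ℤ_[p])) {n : ℕ} {x : Pts W}
    (hx : p ^ n • x = 0) : σ • σ • x + (q : ℤ) • x = a • σ • x := by
  obtain ⟨v, rfl⟩ := B.surj n x hx
  have hM : B.rep σ * B.rep σ + (q : ℤ_[p]) • 1 = (a : ℤ_[p]) • B.rep σ := by
    rw [LocalDef.mul_self_two (B.rep σ), ht, hd]
    module
  have h := congrArg (fun M : Matrix (Fin 2) (Fin 2) ℤ_[p] => B.φ n (M *ᵥ v)) hM
  simp only [add_mulVec, smul_mulVec, one_mulVec, ← mulVec_mulVec, Int.cast_smul_eq_zsmul,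
    Nat.cast_smul_eq_nsmul, map_add, map_zsmul, map_nsmul, ← B.rep_spec] at h
  rw [natCast_zsmul]
  exact h

/-- The determinant and the equation on the points give the trace. -/
theorem trace_of_equation_det {p : ℕ} [Fact p.Prime] (B : TateBasis p W) {σ : GQ} {a : ℤ} {q : ℕ}
    (hq : q ≠ 0) (hd : (B.rep σ).det = (q : ℤ_[p]))
    (h : ∀ (n : ℕ) (x : Pts W), p ^ n • x = 0 → σ • σ • x + (q : ℤ) • x = a • σ • x) :
    (B.rep σ).trace = (a : ℤ_[p]) := by
  set M := B.rep σ
  have h0 : M * M + (q : ℤ_[p]) • 1 = (a : ℤ_[p]) • M := by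
    refine B.ext_phi fun n v => ?_
    rw [add_mulVec, smul_mulVec, smul_mulVec, one_mulVec, ← mulVec_mulVec,
      Int.cast_smul_eq_zsmul, Nat.cast_smul_eq_nsmul, map_add, map_zsmul, map_nsmul,
      ← B.rep_spec, ← B.rep_spec, ← natCast_zsmul]
    exact h n _ (B.nsmul_phi n v)
  rw [LocalDef.mul_self_two M, hd] at h0
  have h1 : (M.trace - (a : ℤ_[p])) • M = 0 := by
    rw [sub_smul, ← h0]
    module
  refine sub_eq_zero.mp ((smul_eq_zero.mp h1).resolve_right fun hM => ?_)
  rw [hM, det_zero, eq_comm, Nat.cast_eq_zero] at hd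
  exact hq hd

/-- The traces of the powers of a matrix of size two. -/
theorem trace_pow_eq_pointTrace {R : Type*} [CommRing R] (M : Matrix (Fin 2) (Fin 2) R) {a q : ℤ}
    (ht : M.trace = (a : R)) (hd : M.det = (q : R)) :
    ∀ n, (M ^ n).trace = (FA.HasseBound.pointTrace a q n : R)
  | 0 => by simp [FA.HasseBound.pointTrace, Matrix.trace_one]
  | 1 => by simp [FA.HasseBound.pointTrace, ht]
  | n + 2 => by
    have hCH : M ^ (n + 2) = (a : R) • M ^ (n + 1) - (q : R) • M ^ n := by
      rw [pow_add, sq, LocalDef.mul_self_two M, ht, hd, pow_succ, mul_sub, mul_smul_comm,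
        mul_smul_comm, mul_one]
    rw [hCH, trace_sub, trace_smul, trace_smul, trace_pow_eq_pointTrace M ht hd (n + 1),
      trace_pow_eq_pointTrace M ht hd n, FA.HasseBound.pointTrace, smul_eq_mul, smul_eq_mul,
      Int.cast_sub, Int.cast_mul, Int.cast_mul]

variable {q : ℕ} [hqf : Fact q.Prime] {A : ValuationSubring Qb}

/-- **Every Frobenius element at every prime** has one integral trace on all Tate modules away
from `q`. -/
theorem exists_frobenius_data (hA : A.LiesOverPrime q) {σ : GQ} (hσ : A.IsFrobeniusAt σ q) :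
    ∃ a : ℤ, (0 ≤ padicValRat q (ratCurve W).j → a ^ 2 ≤ 4 * q) ∧
      (padicValRat q (ratCurve W).j < 0 → a = (q : ℤ) + 1 ∨ a = -((q : ℤ) + 1)) ∧
      (∀ p : ℕ, p.Prime → p ≠ q → ∀ (n : ℕ) (x : Pts W), p ^ n • x = 0 →
        σ • σ • x + (q : ℤ) • x = a • σ • x) ∧
      ∀ (p : ℕ) [Fact p.Prime], q ≠ p → ∀ B : TateBasis p W,
        (B.rep σ).trace = (a : ℤ_[p]) ∧ (B.rep σ).det = (q : ℤ_[p]) := by
  have hq : q.Prime := hqf.out
  by_cases hj : 0 ≤ padicValRat q (ratCurve W).j
  · obtain ⟨a, ha, hquad, htr⟩ := exists_trace_frobenius_of_integral hA hj hσ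
    refine ⟨a, fun _ => ha, fun h => absurd h (not_lt.mpr hj), fun p hp hpq n x hx => ?_, htr⟩
    have := Fact.mk hp
    obtain ⟨B⟩ := exists_tateBasis (p := p) W
    obtain ⟨t, d⟩ := htr p (Ne.symm hpq) B
    exact equation_of_trace_det B t d hx
  obtain ⟨c, hc, W₂, hW₂, hbad, hgc⟩ :=
    FA.OggShafarevich.exists_multiplicative_twist (ratCurve W) (not_le.mp hj)
  haveI := FA.Root.quadTwist_isElliptic (ratCurve W) hc
  have hΔ := FA.Frob.Δ_ne_zero_of_model hW₂
  haveI := FA.Frob.ratCurve_isElliptic_of_Δ hΔ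
  obtain ⟨e, he⟩ := FA.Root.exists_equiv_of_model hW₂
  obtain ⟨s, r, hs, hr⟩ := FA.Root.exists_twist_equiv_sqrt (ratCurve W) hc
  set ε := FA.Root.splitSign W₂ q
  have hε : ε = 1 ∨ ε = -1 := by
    simp only [ε, FA.Root.splitSign]
    split_ifs <;> simp
  obtain ⟨η, hη, hμ⟩ : ∃ η : ℤ, (η = 1 ∨ η = -1) ∧ ∀ y : Pts W₂,
      σ • (r (e y) : Pts W) = η • (r (e (σ • y)) : Pts W) := by
    rcases sq_eq_sq_iff_eq_or_eq_neg.mp
      (show σ s ^ 2 = s ^ 2 by rw [← map_pow, hs, σ.commutes]) with h | h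
    · refine ⟨1, Or.inl rfl, fun y => ?_⟩
      rw [one_zsmul]
      show Affine.Point.map σ.toAlgHom (r (e y)) = _
      rw [(hr σ (e y)).1 h, Affine.Point.algEquiv_smul_def, ← he]
    · refine ⟨-1, Or.inr rfl, fun y => ?_⟩
      rw [neg_one_zsmul]
      show Affine.Point.map σ.toAlgHom (r (e y)) = _
      rw [(hr σ (e y)).2 h, Affine.Point.algEquiv_smul_def, ← he]
  have hη2 : η * η = 1 := by rcases hη with rfl | rfl <;> norm_num
  have hquad : ∀ p : ℕ, p.Prime → p ≠ q → ∀ (n : ℕ) (x : Pts W), p ^ n • x = 0 →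
      σ • σ • x + (q : ℤ) • x = (η * ε * ((q : ℤ) + 1)) • σ • x := fun p hp hpq n x hx => by
    have := Fact.mk hp
    obtain ⟨B⟩ := exists_tateBasis (p := p) W₂
    have ht := trace_frobenius_mult_all B (⟨hΔ, hq, hbad, hgc, hA⟩ : MultAt W₂ q A) hpq.symm hσ
    obtain ⟨z, hz⟩ := r.surjective x
    obtain ⟨y, rfl⟩ := e.surjective z
    subst hz
    have hy : p ^ n • y = 0 := e.injective (r.injective (by
      rw [map_nsmul, map_nsmul, map_zero, map_zero]; exact hx))
    have h := equation_of_trace_det B (a := ε * ((q : ℤ) + 1)) (by rw [ht]; push_cast; rfl)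
      (det_rep_frobenius B hq hA hpq.symm hσ) hy
    have h' := congrArg (fun y => (r (e y) : Pts W)) h
    simp only [map_add, map_zsmul] at h'
    rw [hμ, gal_smul_zsmul, hμ, smul_smul η η, hη2, one_zsmul,
      smul_smul (η * ε * ((q : ℤ) + 1)) η, show η * ε * ((q : ℤ) + 1) * η = ε * ((q : ℤ) + 1) by
        linear_combination (ε * ((q : ℤ) + 1)) * hη2]
    exact h'
  refine ⟨η * ε * ((q : ℤ) + 1), fun h => absurd h hj, fun _ => ?_, hquad, fun p _ hqp B => ?_⟩
  · rcases hη with rfl | rfl <;> rcases hε with h | h <;> simp [h]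
  · have hd := det_rep_frobenius B hq hA hqp hσ
    exact ⟨trace_of_equation_det B hq.ne_zero hd
      (fun n x hx => hquad p Fact.out (Ne.symm hqp) n x hx), hd⟩

end FA.GoodReduction

end
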