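import Fermat.Agent.HasseBound.Extensions
import Mathlib.Analysis.Complex.Polynomial.Basic
import Mathlib.LinearAlgebra.Semisimple
import Mathlib.LinearAlgebra.Matrix.Charpoly.Coeff

/-!
# Matrices of size two with trace and determinant of Frobenius type

For a prime `q` and `a² ≤ 4 q` the roots of `X² - a X + q` have absolute value `√q`; the integer
`a² - 4 q` is never `0`, so a matrix with trace `a` and determinant `q` acts semisimply in
characteristic `0`.
-/

set_option autoImplicit false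

noncomputable section

open Polynomial Matrix

namespace FA.GoodReduction

/-- `a²` is not `4 q`. -/
theorem sq_ne_four_mul_prime {q : ℕ} (hq : q.Prime) (a : ℤ) : a ^ 2 ≠ 4 * q := by
  intro h
  have h4 : (2 : ℤ) ∣ a := Int.prime_two.dvd_of_dvd_pow ⟨2 * q, by rw [h]; ring⟩
  obtain ⟨b, rfl⟩ := h4
  exact (Nat.prime_iff_prime_int.mp hq).not_isSquare ⟨b, by linarith⟩

/-- A matrix of size two with distinct eigenvalues acts semisimply. -/
theorem isSemisimple_of_trace_det {K : Type*} [Field K] {M : Matrix (Fin 2) (Fin 2) K} {t d : K}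
    (ht : M.trace = t) (hd : M.det = d) (hne : t ^ 2 ≠ 4 * d) :
    Module.End.IsSemisimple (Matrix.toLinAlgEquiv' M) := by
  refine Module.End.isSemisimple_of_squarefree_aeval_eq_zero (p := M.charpoly) ?_ ?_
  · refine Separable.squarefree ?_
    rw [charpoly_fin_two, ht, hd, separable_def']
    have h0 : 4 * d - t ^ 2 ≠ 0 := sub_ne_zero.mpr (Ne.symm hne)
    obtain ⟨c, hc⟩ : ∃ c, c * (4 * d - t ^ 2) = 1 := ⟨_, inv_mul_cancel₀ h0⟩
    refine ⟨4 * C c, -(C c * (2 * X - C t)), ?_⟩
    have hC : C c * (4 * C d - C t ^ 2) = (1 : K[X]) := by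
      rw [← C_ofNat, ← C_mul, ← C_pow, ← C_sub, ← C_mul, hc, C_1]
    simp only [derivative_add, derivative_sub, derivative_X_pow, derivative_mul, derivative_C,
      derivative_X, zero_mul, zero_add, mul_one, add_zero]
    norm_num [C_ofNat]
    linear_combination hC
  · rw [show Matrix.toLinAlgEquiv' M = (Matrix.toLinAlgEquiv' (R := K) (n := Fin 2)).toAlgHom M
      from rfl, aeval_algHom_apply, aeval_self_charpoly, map_zero]

/-- The roots of the polynomial of Frobenius have absolute value `√q`. -/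
theorem norm_eq_sqrt_of_sq_le {q : ℕ} (hq : q.Prime) {a : ℤ} (ha : a ^ 2 ≤ 4 * q) {z : ℂ}
    (hz : z ^ 2 - (a : ℂ) * z + (q : ℂ) = 0) : ‖z‖ = Real.sqrt q := by
  have hlt : (a : ℝ) ^ 2 < 4 * q := by
    exact_mod_cast lt_of_le_of_ne ha (sq_ne_four_mul_prime hq a)
  have hre := congrArg Complex.re hz
  have him := congrArg Complex.im hz
  simp only [sq, Complex.sub_re, Complex.add_re, Complex.mul_re, Complex.intCast_re,
    Complex.intCast_im, Complex.natCast_re, Complex.natCast_im, Complex.sub_im, Complex.add_im,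
    Complex.mul_im, Complex.zero_re, Complex.zero_im, zero_mul, sub_zero, add_zero] at hre him
  have hi : z.im ≠ 0 := fun h => by
    rw [h] at hre
    nlinarith [sq_nonneg (2 * z.re - a)]
  have hhalf : 2 * z.re = a := mul_right_cancel₀ hi (by linarith)
  rw [← Real.sqrt_sq (norm_nonneg z), ← Complex.normSq_eq_norm_sq, Complex.normSq_apply]
  congr 1
  rw [← hhalf] at hre
  linarith

/-- `|α ^ n + β ^ n| ≤ 2 (√q) ^ n`. -/
theorem abs_pointTrace_le {q : ℕ} (hq : q.Prime) {a : ℤ} (ha : a ^ 2 ≤ 4 * q) (n : ℕ) :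
    |(FA.HasseBound.pointTrace a q n : ℝ)| ≤ 2 * Real.sqrt q ^ n := by
  obtain ⟨s, hs⟩ := IsAlgClosed.exists_pow_nat_eq ((a : ℂ) ^ 2 - 4 * q) two_pos
  have hα : (((a : ℂ) + s) / 2) ^ 2 - (a : ℂ) * (((a : ℂ) + s) / 2) + q = 0 := by
    linear_combination (1 / 4 : ℂ) * hs
  have hβ : (((a : ℂ) - s) / 2) ^ 2 - (a : ℂ) * (((a : ℂ) - s) / 2) + q = 0 := by
    linear_combination (1 / 4 : ℂ) * hs
  have h := FA.HasseBound.pointTrace_eq (t := a) (q := q) (α := ((a : ℂ) + s) / 2)
    (β := ((a : ℂ) - s) / 2) (by ring) (by push_cast; linear_combination (-1 / 4 : ℂ) * hs) n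
  calc |(FA.HasseBound.pointTrace a q n : ℝ)| = ‖(FA.HasseBound.pointTrace a q n : ℂ)‖ := by
        rw [← Complex.ofReal_intCast, Complex.norm_real, Real.norm_eq_abs]
    _ ≤ ‖(((a : ℂ) + s) / 2) ^ n‖ + ‖(((a : ℂ) - s) / 2) ^ n‖ := h ▸ norm_add_le _ _
    _ = 2 * Real.sqrt q ^ n := by
        rw [norm_pow, norm_pow, norm_eq_sqrt_of_sq_le hq ha hα, norm_eq_sqrt_of_sq_le hq ha hβ]
        ring

end FA.GoodReduction

end
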