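import Fermat.Agent.GoodReduction.Level

/-!
# The trace of an inertia element is an integer independent of the prime

Let `j` be integral at `q`. Modulo `3`, or `4` if `q = 3`, an inertia element `σ` has order dividing
`4` or `6`, so it does on all torsion prime to `q`. A matrix of determinant `1` over a domain of
characteristic `0` of such order has trace `2, -2, -1, 0` or `1` according to the least `k` such
that its `k`-th power is `1`, and this `k` does not depend on the prime of the Tate module.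
-/

set_option autoImplicit false
set_option linter.style.haveILetI false
set_option linter.unusedSectionVars false

noncomputable section

open WeierstrassCurve WeierstrassCurve.Affine Matrix FA.Frob FA.RT FA.RT.Tate FA.Local
open scoped WeierstrassCurve.Affine

local notation "Qb" => AlgebraicClosure ℚ
local notation "GQ" => AlgebraicClosure ℚ ≃ₐ[ℚ] AlgebraicClosure ℚ

namespace FA.GoodReduction

/-- A homomorphism killing the `p`-power torsion for every prime `p ≠ q` kills all torsion prime to
`q`. -/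
theorem hom_eq_zero_of_prime_pow {G H : Type*} [AddCommGroup G] [AddCommGroup H] (f : G →+ H)
    {q : ℕ} (h : ∀ p : ℕ, p.Prime → p ≠ q → ∀ (n : ℕ) (x : G), p ^ n • x = 0 → f x = 0) :
    ∀ N : ℕ, ¬ q ∣ N → ∀ x : G, N • x = 0 → f x = 0 := by
  intro N
  induction N using Nat.recOnPosPrimePosCoprime with
  | zero => exact fun h0 => absurd (dvd_zero q) h0
  | one => exact fun _ x hx => by rw [one_nsmul] at hx; rw [hx, map_zero]
  | prime_pow p k hp hk =>
    intro hq x hx
    exact h p hp (fun e => hq (e ▸ dvd_pow_self p hk.ne')) k x hx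
  | coprime a b ha hb hab iha ihb =>
    intro hq x hx
    have h1 : b • f x = 0 := by
      rw [← map_nsmul]
      exact iha (fun h => hq (dvd_mul_of_dvd_left h b)) _ (by rw [← mul_nsmul', hx])
    have h2 : a • f x = 0 := by
      rw [← map_nsmul]
      exact ihb (fun h => hq (dvd_mul_of_dvd_right h a)) _
        (by rw [← mul_nsmul', mul_comm, hx])
    refine AddMonoid.addOrderOf_eq_one_iff.mp (Nat.dvd_one.mp ?_)
    rw [← hab.gcd_eq_one]
    exact Nat.dvd_gcd (addOrderOf_dvd_of_nsmul_eq_zero h2) (addOrderOf_dvd_of_nsmul_eq_zero h1)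

section Matrices

variable {R : Type*} [CommRing R] [IsDomain R] [CharZero R] {M : Matrix (Fin 2) (Fin 2) R}

/-- The Cayley and Hamilton equation at determinant `1`. -/
theorem sq_add_one_of_det (hd : M.det = 1) : M * M + 1 = M.trace • M := by
  rw [Matrix.det_fin_two] at hd
  ext i j
  fin_cases i <;> fin_cases j <;>
    simp [Matrix.mul_apply, Fin.sum_univ_two, Matrix.trace_fin_two]
  · linear_combination -hd
  · ring
  · ring
  · linear_combination -hd

/-- The only involutions of determinant `1` are the scalars. -/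
theorem eq_of_sq_eq_one (hd : M.det = 1) (h : M * M = 1) : M = 1 ∨ M = -1 := by
  have e := sq_add_one_of_det hd
  rw [h] at e
  have e' : ∀ i j, M.trace * M i j = if i = j then 2 else 0 := fun i j => by
    have := congrFun (congrFun e i) j
    rw [Matrix.smul_apply, smul_eq_mul, Matrix.add_apply, Matrix.one_apply] at this
    rw [← this]
    split <;> norm_num
  have ht : M.trace ≠ 0 := fun h0 => by
    have := e' 0 0
    rw [h0, zero_mul, if_pos rfl] at this
    exact two_ne_zero this.symm
  have h01 : M 0 1 = 0 :=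
    (mul_eq_zero.mp ((e' 0 1).trans (if_neg (by decide)))).resolve_left ht
  have h10 : M 1 0 = 0 :=
    (mul_eq_zero.mp ((e' 1 0).trans (if_neg (by decide)))).resolve_left ht
  have h11 : M 1 1 = M 0 0 := mul_left_cancel₀ ht ((e' 1 1).trans (e' 0 0).symm)
  rw [Matrix.det_fin_two, h01, h10, h11, mul_zero, sub_zero] at hd
  rcases mul_self_eq_one_iff.mp hd with h00 | h00
  · left
    ext i j
    fin_cases i <;> fin_cases j <;> simp [h00, h01, h10, h11]
  · right
    ext i j
    fin_cases i <;> fin_cases j <;> simp [h00, h01, h10, h11]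

/-- Square `-1` is trace `0`. -/
theorem trace_eq_zero_of_sq (hd : M.det = 1) (h : M * M = -1) : M.trace = 0 := by
  have e := sq_add_one_of_det hd
  rw [h, neg_add_cancel] at e
  refine (smul_eq_zero.mp e.symm).resolve_right fun h0 => ?_
  rw [h0, det_zero] at hd
  exact zero_ne_one hd

/-- Cube `1` is trace `-1`, apart from `1`. -/
theorem trace_eq_neg_one_of_cube (hd : M.det = 1) (h : M * M * M = 1) (h1 : M ≠ 1) :
    M.trace = -1 := by
  have e := sq_add_one_of_det hd
  have e1 : M * M = M.trace • M - 1 := eq_sub_of_add_eq e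
  have h3 : (M.trace + 1) • ((M.trace - 1) • M - (1 : Matrix (Fin 2) (Fin 2) R)) = 0 := by
    rw [e1, sub_mul, smul_mul_assoc, e1, one_mul] at h
    calc (M.trace + 1) • ((M.trace - 1) • M - (1 : Matrix (Fin 2) (Fin 2) R))
        = M.trace • (M.trace • M - 1) - M - 1 := by module
      _ = 0 := by rw [h, sub_self]
  rcases smul_eq_zero.mp h3 with h0 | h0
  · exact eq_neg_of_add_eq_zero_left h0
  · exfalso
    apply h1
    rw [sub_eq_zero, sub_smul, one_smul] at h0
    have hs : M * M = M := by
      rw [e1, ← h0, sub_sub_cancel]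
    rw [hs, hs] at h
    exact h

end Matrices

section Points

variable {q : ℕ} {A : ValuationSubring Qb} {W : WeierstrassCurve ℤ} [(ratCurve W).IsElliptic]

/-- In `SL₂(ℤ/3)` and `SL₂(ℤ/4)` every element has order dividing `4` or `6`. -/
theorem pow_four_or_six {n : ℕ} (hn : n = 3 ∨ n = 4)
    (g : SpecialLinearGroup (Fin 2) (ZMod n)) : g ^ 4 = 1 ∨ g ^ 6 = 1 := by
  rw [← (slTwoQuad n).symm_apply_apply g]
  generalize slTwoQuad n g = x
  rcases hn with rfl | rfl <;> revert x <;> decide +kernel

/-- An inertia element to the fourth or sixth power fixes all torsion prime to `q`. -/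
theorem pow_mem_torsionFixer [hqf : Fact q.Prime] (hA : A.LiesOverPrime q)
    (hj : 0 ≤ padicValRat q (ratCurve W).j) {σ : GQ} (hσ : σ ∈ A.inertiaSubgroupIn ℚ) :
    σ ^ 4 ∈ torsionFixer q W ∨ σ ^ 6 ∈ torsionFixer q W := by
  suffices key : ∀ (p n : ℕ) [Fact p.Prime], q ≠ p → (p ^ n = 3 ∨ p ^ n = 4) →
      σ ^ 4 ∈ torsionFixer q W ∨ σ ^ 6 ∈ torsionFixer q W by
    rcases eq_or_ne q 3 with rfl | hq3
    · exact key 2 2 (by norm_num) (Or.inr (by norm_num))
    · exact key 3 1 hq3 (Or.inl (by norm_num))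
  intro p n hp hqp hn
  obtain ⟨B⟩ := exists_tateBasis (p := p) W
  have hmem : ∀ k : ℕ, (inertiaRep B hqf.out hqp hA n) ⟨σ, hσ⟩ ^ k = 1 →
      σ ^ k ∈ torsionFixer q W := fun k hk N hN x hx => by
    refine smul_eq_of_level hA hj (m := p ^ n) (by rcases hn with h | h <;> omega) (fun h => hqp
      ((Nat.prime_dvd_prime_iff_eq hqf.out hp.out).mp (hqf.out.dvd_of_dvd_pow h)))
      (pow_mem hσ k) (fun y hy => ?_) hN hx
    obtain ⟨v, rfl⟩ := B.surj n y hy
    rw [← map_pow] at hk
    have h1 : (PadicInt.toZModPow n).mapMatrix (B.rep (σ ^ k)) = 1 := congrArg Subtype.val hk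
    rw [B.rep_spec, B.phi_eq_iff]
    intro i
    rw [RingHom.map_mulVec, ← RingHom.mapMatrix_apply, h1, one_mulVec, Function.comp_apply]
  exact (pow_four_or_six hn _).imp (hmem 4) (hmem 6)

/-- A power of the matrix is `1` exactly when the power of the inertia element fixes the torsion
prime to `q`. -/
theorem rep_pow_eq_one_iff {p : ℕ} [hp : Fact p.Prime] (B : TateBasis p W) [hqf : Fact q.Prime]
    (hA : A.LiesOverPrime q) (hqp : q ≠ p) (hj : 0 ≤ padicValRat q (ratCurve W).j) {σ : GQ}
    (hσ : σ ∈ A.inertiaSubgroupIn ℚ) (k : ℕ) :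
    B.rep σ ^ k = 1 ↔ σ ^ k ∈ torsionFixer q W := by
  rw [← map_pow]
  constructor
  · intro h N hN x hx
    refine smul_eq_of_prime_pow (p := p) hA hqp hj (n := 2)
      (le_trans (by norm_num) (Nat.pow_le_pow_left hp.out.two_le 2)) (pow_mem hσ k)
      (fun y hy => ?_) hN hx
    obtain ⟨v, rfl⟩ := B.surj 2 y hy
    rw [B.rep_spec, h, one_mulVec]
  · exact fun h => B.rep_eq_one fun n x hx => h (p ^ n) (fun hd => hqp
      ((Nat.prime_dvd_prime_iff_eq hqf.out hp.out).mp (hqf.out.dvd_of_dvd_pow hd))) x hx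

/-- **The trace of inertia is an integer independent of `p`**, if `j` is integral at `q`. -/
theorem exists_trace_of_integral [hqf : Fact q.Prime] (hA : A.LiesOverPrime q)
    (hj : 0 ≤ padicValRat q (ratCurve W).j) {σ : GQ} (hσ : σ ∈ A.inertiaSubgroupIn ℚ) :
    ∃ t : ℤ, |t| ≤ 2 ∧ ∀ (p : ℕ) [Fact p.Prime] (B : TateBasis p W), q ≠ p →
      (B.rep σ).trace = (t : ℤ_[p]) := by
  classical
  let F := fun k : ℕ => σ ^ k ∈ torsionFixer q W
  refine ⟨if F 1 then 2 else if F 2 then -2 else if F 3 then -1 else if F 4 then 0 else 1,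
    by split_ifs <;> norm_num, fun p _ B hqp => ?_⟩
  have hd := det_rep_inertia B hqf.out hqp hA hσ
  have hF : ∀ k, B.rep σ ^ k = 1 ↔ F k := fun k => rep_pow_eq_one_iff B hA hqp hj hσ k
  set M := B.rep σ
  have p2 : M ^ 2 = M * M := pow_two M
  have p3 : M ^ 3 = M * M * M := by rw [pow_succ, pow_two]
  split_ifs with h1 h2 h3 h4
  · rw [← hF, pow_one] at h1
    rw [h1, Matrix.trace_one, Fintype.card_fin]
    norm_num
  · rw [← hF, p2] at h2
    rw [← hF, pow_one] at h1
    rw [(eq_of_sq_eq_one hd h2).resolve_left h1, Matrix.trace_neg, Matrix.trace_one,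
      Fintype.card_fin]
    norm_num
  · rw [← hF, p3] at h3
    rw [← hF, pow_one] at h1
    rw [trace_eq_neg_one_of_cube hd h3 h1]
    norm_num
  · rw [← hF, p2] at h2
    rw [← hF, show (4 : ℕ) = 2 * 2 from rfl, pow_mul, pow_two, p2] at h4
    rw [trace_eq_zero_of_sq hd ((eq_of_sq_eq_one (by rw [det_mul, hd, mul_one]) h4).resolve_left
      h2), Int.cast_zero]
  · have h6 : F 6 := (pow_mem_torsionFixer hA hj hσ).resolve_left h4
    rw [← hF, show (6 : ℕ) = 3 * 2 from rfl, pow_mul, pow_two] at h6
    rw [← hF] at h3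
    have h7 := (eq_of_sq_eq_one (by rw [det_pow, hd, one_pow]) h6).resolve_left h3
    have hN1 : -M ≠ 1 := fun h => h2 ((hF 2).mp (by rw [← neg_sq, h, one_pow]))
    have hneg := trace_eq_neg_one_of_cube (M := -M)
      (by rw [det_neg, hd, Fintype.card_fin]; norm_num)
      (by rw [neg_mul_neg, mul_neg, ← p3, h7, neg_neg]) hN1
    rw [Matrix.trace_neg, neg_inj] at hneg
    rw [hneg, Int.cast_one]

/-- The trace gives the equation on the torsion. -/
theorem smul_smul_add_eq {p : ℕ} [Fact p.Prime] (B : TateBasis p W) {σ : GQ} {t : ℤ}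
    (hd : (B.rep σ).det = 1) (ht : (B.rep σ).trace = (t : ℤ_[p])) {n : ℕ} {x : Pts W}
    (hx : p ^ n • x = 0) : σ • (σ • x) + x = t • (σ • x) := by
  obtain ⟨v, rfl⟩ := B.surj n x hx
  rw [B.rep_spec, B.rep_spec, ← map_add, mulVec_mulVec, ← map_zsmul]
  congr 1
  conv_lhs => arg 2; rw [← one_mulVec v]
  rw [← add_mulVec, sq_add_one_of_det hd, ht, smul_mulVec, Int.cast_smul_eq_zsmul]

end Points

end FA.GoodReduction

end
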