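import Fermat.Agent.GoodReduction.Semistable
import Mathlib.Data.Nat.Factors
import Mathlib.LinearAlgebra.Matrix.SpecialLinearGroup

/-!
# Torsion fixed by inertia at one level

Let `j` be integral at `q`. An inertia element fixing a point of `p`-power order at least `4`,
`p ≠ q`, fixes a change of variables to a good equation, hence all torsion prime to `q`. It acts
with finite order and the matrices congruent to `1` modulo `3` have none but `1`, so fixing the
torsion of any level `m ≥ 3` prime to `q` is fixing all of it: the image of inertia embeds into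
`SL₂(ℤ/mℤ)`. If `j` has a pole, minus a unipotent element is not `1` at such a level.
-/

set_option autoImplicit false
set_option linter.style.haveILetI false
set_option linter.unusedSectionVars false

noncomputable section

open WeierstrassCurve WeierstrassCurve.Affine Matrix FA.Frob FA.RT FA.RT.Tate FA.Local
open scoped WeierstrassCurve.Affine

local notation "Qb" => AlgebraicClosure ℚ
local notation "GQ" => AlgebraicClosure ℚ ≃ₐ[ℚ] AlgebraicClosure ℚ

namespace FA.GoodReduction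

variable {q : ℕ} {A : ValuationSubring Qb}

/-- The kernel of reduction has no torsion prime to `q`. -/
theorem eq_zero_of_e1_of_not_dvd (hq : q.Prime) (hA : A.LiesOverPrime q)
    {V : WeierstrassCurve Qb} [V.IsElliptic] (hI : IntCoeff A.valuation V.toAffine) :
    ∀ (N : ℕ), ¬ q ∣ N → ∀ R : V.toAffine.Point, E1 A.valuation V.toAffine R → N • R = 0 →
      R = 0 := by
  intro N
  induction N using induction_on_primes with
  | zero => exact fun h => absurd (dvd_zero q) h
  | one => exact fun _ R _ hR => by rwa [one_nsmul] at hR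
  | prime_mul p a hp ih =>
    intro hN R hR hpR
    have hk : ∀ k : ℕ, E1 A.valuation V.toAffine (k • R) := fun k => by
      induction k with
      | zero => rw [zero_nsmul]; exact e1_zero
      | succ k ihk => rw [succ_nsmul]; exact e1_add hI ihk hR
    have := Fact.mk hp
    refine ih (fun h => hN (dvd_mul_of_dvd_right h p)) R hR
      (FA.PotentialGood.eq_zero_of_e1_prime_pow hI hp
        (valuation_p_eq_one (p := p) hq hA fun h => hN (h ▸ dvd_mul_right p a)) (hk a) (n := 1) ?_)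
    rw [pow_one, ← mul_nsmul', hpR]

section Points

variable {W : WeierstrassCurve ℤ} [(ratCurve W).IsElliptic]

/-- Galois commutes with multiples of points. -/
theorem smul_nsmul_point (σ : GQ) (k : ℕ) (x : Pts W) : σ • (k • x) = k • (σ • x) :=
  map_nsmul (DistribSMul.toAddMonoidHom (Pts W) σ) k x

/-- An inertia element fixing the change of variables to a good equation fixes the torsion prime
to `q`. -/
theorem smul_eq_of_fixed_entries (hq : q.Prime) (hA : A.LiesOverPrime q)
    {C : VariableChange Qb} {V : WeierstrassCurve Qb} (hV : V = C • ((ratCurve W)⁄Qb))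
    (hI : IntCoeff A.valuation V.toAffine) (hΔ : A.valuation V.Δ = 1) {σ : GQ}
    (hσ : σ ∈ A.inertiaSubgroupIn ℚ)
    (hC : σ (C.u : Qb) = C.u ∧ σ C.r = C.r ∧ σ C.s = C.s ∧ σ C.t = C.t) {N : ℕ} (hN : ¬ q ∣ N)
    {x : Pts W} (hx : N • x = 0) : σ • x = x := by
  haveI : V.IsElliptic := ⟨isUnit_iff_ne_zero.mpr fun h0 => by simp [h0] at hΔ⟩
  haveI : ((ratCurve W)⁄Qb).IsElliptic :=
    inferInstanceAs ((ratCurve W).map (algebraMap ℚ Qb)).IsElliptic
  let e : V.toAffine.Point ≃+ ((ratCurve W)⁄Qb).toAffine.Point := vcEquiv C hV.symm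
  obtain ⟨hu, hr, hs, ht⟩ := hC
  obtain ⟨Q, rfl⟩ := e.surjective x
  obtain ⟨Q', hQ', hE⟩ :=
    FA.PotentialGood.exists_map_eq_e1_sub (ratCurve W) hV hI hΔ hσ hu hr hs ht Q
  have hQ'' : e Q' = σ • e Q := hQ'
  have hz : Q' - Q = 0 := eq_zero_of_e1_of_not_dvd hq hA hI N hN _ hE (e.injective (by
    rw [map_nsmul, map_sub, hQ'', nsmul_sub, ← smul_nsmul_point, hx, gal_smul_zero, sub_zero,
      map_zero]))
  rw [← hQ'', sub_eq_zero.mp hz]

variable {p : ℕ} [hp : Fact p.Prime]

/-- **An inertia element fixing one point of `p`-power order at least `4`** fixes all torsion prime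
to `q`, if `j` is integral at `q`. -/
theorem smul_eq_of_point [hqf : Fact q.Prime] (hA : A.LiesOverPrime q) (hqp : q ≠ p)
    (hj : 0 ≤ padicValRat q (ratCurve W).j) {a : ℕ} {P : Pts W} (hP : p ^ a • P = 0)
    (hPk : ∀ k : ℕ, 0 < k → k < 4 → k • P ≠ 0) {σ : GQ} (hσ : σ ∈ A.inertiaSubgroupIn ℚ)
    (hfix : σ • P = P) {N : ℕ} (hN : ¬ q ∣ N) {x : Pts W} (hx : N • x = 0) : σ • x = x := by
  obtain ⟨C, V, hV, hI, hΔ, hC, -⟩ := exists_goodModel_of_point hA hqp hj hP hPk
  exact smul_eq_of_fixed_entries hqf.out hA hV hI hΔ hσ (hC σ hσ hfix) hN hx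

/-- The first vector of a basis has order `p ^ n` at level `n`. -/
theorem nsmul_phi_single_eq_zero (B : TateBasis p W) {n k : ℕ} :
    k • B.φ n (Pi.single 0 1) = 0 ↔ p ^ n ∣ k := by
  rw [← map_nsmul, B.ker, ← ZMod.natCast_eq_zero_iff]
  constructor
  · intro h
    simpa using h 0
  · intro h i
    rw [Pi.smul_apply, nsmul_eq_mul, map_mul, map_natCast, h, zero_mul]

/-- An inertia element fixing the torsion of one level `p ^ n ≥ 4` fixes all torsion prime to
`q`. -/
theorem smul_eq_of_prime_pow [hqf : Fact q.Prime] (hA : A.LiesOverPrime q) (hqp : q ≠ p)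
    (hj : 0 ≤ padicValRat q (ratCurve W).j) {n : ℕ} (hn : 4 ≤ p ^ n) {σ : GQ}
    (hσ : σ ∈ A.inertiaSubgroupIn ℚ) (hfix : ∀ x : Pts W, p ^ n • x = 0 → σ • x = x)
    {N : ℕ} (hN : ¬ q ∣ N) {x : Pts W} (hx : N • x = 0) : σ • x = x := by
  obtain ⟨B⟩ := exists_tateBasis (p := p) W
  refine smul_eq_of_point hA hqp hj (B.nsmul_phi n (Pi.single 0 1)) (fun k hk0 hk4 h => ?_) hσ
    (hfix _ (B.nsmul_phi n _)) hN hx
  have := Nat.le_of_dvd hk0 ((nsmul_phi_single_eq_zero B).mp h)
  omega

/-- A matrix over `ℤ₃` congruent to `1` modulo `3` and of finite order is `1`. -/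
theorem eq_one_of_pow_eq_one_three (k : ℕ) : k ≠ 0 → ∀ R : Matrix (Fin 2) (Fin 2) ℤ_[3],
    (1 + (3 : ℤ_[3]) • R) ^ k = 1 → R = 0 := by
  induction k using Nat.strong_induction_on with
  | h k ih =>
  intro hk R hR
  have hcancel : ∀ {S : Matrix (Fin 2) (Fin 2) ℤ_[3]}, R * S = 0 →
      (PadicInt.toZMod.mapMatrix S).det ≠ 0 → R = 0 := fun {S} h hS => by
    have hd : S.det ≠ 0 := fun h0 => hS (by rw [← RingHom.map_det, h0, map_zero])
    have h1 := congrArg (· * S.adjugate) h
    simp only [zero_mul, mul_assoc, mul_adjugate, mul_smul_comm, mul_one] at h1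
    exact (smul_eq_zero.mp h1).resolve_left hd
  have h3 : PadicInt.toZMod (3 : ℤ_[3]) = 0 := by
    rw [map_ofNat]; rfl
  have hmod : ∀ X : Matrix (Fin 2) (Fin 2) ℤ_[3],
      PadicInt.toZMod.mapMatrix ((3 : ℤ_[3]) • X) = 0 := fun X => by
    ext i j
    simp [h3]
  by_cases h : 3 ∣ k
  · obtain ⟨l, rfl⟩ := h
    set R' := R + (3 : ℤ_[3]) • (R * R) + (3 : ℤ_[3]) • (R * R * R) with hR'
    have hcube : (1 + (3 : ℤ_[3]) • R) ^ 3 = 1 + (3 : ℤ_[3]) • ((3 : ℤ_[3]) • R') := by
      simp only [hR', pow_succ, pow_zero, one_mul, add_mul, mul_add, smul_mul_assoc,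
        mul_smul_comm, mul_one, mul_assoc]
      module
    rw [pow_mul, hcube] at hR
    have h0 := (smul_eq_zero.mp (ih l (by omega) (by omega) _ hR)).resolve_left
      (by norm_num : (3 : ℤ_[3]) ≠ 0)
    refine hcancel (S := 1 + ((3 : ℤ_[3]) • R + (3 : ℤ_[3]) • (R * R))) ?_ ?_
    · rw [← h0, hR']
      simp only [mul_add, mul_smul_comm, mul_one, mul_assoc, add_assoc]
    · rw [map_add, map_one, map_add, hmod, hmod, add_zero, add_zero, det_one]
      exact one_ne_zero
  · obtain ⟨T, hT⟩ : ∃ T, (1 + (3 : ℤ_[3]) • R) ^ k =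
        1 + (3 : ℤ_[3]) • (R * ((k : Matrix (Fin 2) (Fin 2) ℤ_[3]) + (3 : ℤ_[3]) • T)) := by
      clear hR hk h ih
      induction k with
      | zero => exact ⟨0, by simp⟩
      | succ k hk =>
        obtain ⟨T, hT⟩ := hk
        refine ⟨T + (k : Matrix (Fin 2) (Fin 2) ℤ_[3]) * R + (3 : ℤ_[3]) • (T * R), ?_⟩
        rw [pow_succ, hT, Nat.cast_succ]
        simp only [add_mul, mul_add, smul_mul_assoc, mul_smul_comm, mul_one, one_mul, mul_assoc]
        module
    rw [hT, add_eq_left] at hR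
    refine hcancel ((smul_eq_zero.mp hR).resolve_left (by norm_num)) ?_
    have hk3 : (k : ZMod 3) ≠ 0 := fun h0 => h ((ZMod.natCast_eq_zero_iff k 3).mp h0)
    rw [map_add, map_natCast, hmod, add_zero,
      show (k : Matrix (Fin 2) (Fin 2) (ZMod 3)) = (k : ZMod 3) • 1 by
        rw [← algebraMap_smul (Matrix (Fin 2) (Fin 2) (ZMod 3)) (k : ZMod 3), map_natCast,
          smul_eq_mul, mul_one],
      det_smul, det_one, mul_one]
    exact pow_ne_zero _ hk3

/-- An inertia element fixing the `3`-torsion fixes all torsion prime to `q`, if `q ≠ 3` and `j` is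
integral at `q`. -/
theorem smul_eq_of_three [hqf : Fact q.Prime] (hA : A.LiesOverPrime q) (hq3 : q ≠ 3)
    (hj : 0 ≤ padicValRat q (ratCurve W).j) {σ : GQ} (hσ : σ ∈ A.inertiaSubgroupIn ℚ)
    (hfix : ∀ x : Pts W, 3 • x = 0 → σ • x = x) {N : ℕ} (hN : ¬ q ∣ N) {x : Pts W}
    (hx : N • x = 0) : σ • x = x := by
  obtain ⟨B⟩ := exists_tateBasis (p := 3) W
  obtain ⟨K, hK, hfixK⟩ := FA.Summary.exists_field_inertia_fixes_torsion (ratCurve W) hj hA
  haveI : Finite (GQ ⧸ K.fixingSubgroup) :=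
    Subgroup.quotient_finite_of_isOpen _ (IntermediateField.fixingSubgroup_isOpen K)
  haveI : K.fixingSubgroup.FiniteIndex := Subgroup.finiteIndex_of_finite_quotient
  obtain ⟨k, hk, -, hmem⟩ := Subgroup.exists_pow_mem_of_index_ne_zero (H := K.fixingSubgroup)
    Subgroup.FiniteIndex.index_ne_zero σ
  have hk1 : B.rep σ ^ k = 1 := by
    rw [← map_pow]
    exact B.rep_eq_one fun n y hy => hfixK (σ ^ k) (pow_mem hσ k)
      ((IntermediateField.mem_fixingSubgroup_iff K _).mp hmem) 3 Nat.prime_three (Ne.symm hq3) n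
      y hy
  have hcong := B.rep_congr_one (σ := σ) (n := 1) fun y hy => hfix y hy
  have hdvd : ∀ i j, ∃ r : ℤ_[3], B.rep σ i j - (1 : Matrix (Fin 2) (Fin 2) ℤ_[3]) i j = 3 * r :=
    fun i j => by
      have h := congrFun (congrFun hcong i) j
      rw [Matrix.map_apply] at h
      have h' : B.rep σ i j - (1 : Matrix (Fin 2) (Fin 2) ℤ_[3]) i j ∈
          RingHom.ker (PadicInt.toZModPow 1) := by
        rw [RingHom.mem_ker, map_sub, h, Matrix.one_apply, Matrix.one_apply,
          apply_ite (PadicInt.toZModPow 1), map_one, map_zero, sub_self]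
      rw [PadicInt.ker_toZModPow, pow_one, Ideal.mem_span_singleton] at h'
      exact h'
  choose r hr using hdvd
  have hM : B.rep σ = 1 + (3 : ℤ_[3]) • Matrix.of r := by
    ext i j
    rw [Matrix.add_apply, Matrix.smul_apply, Matrix.of_apply, smul_eq_mul, ← hr]
    ring
  rw [hM] at hk1
  have h1 : B.rep σ = 1 := by
    rw [hM, eq_one_of_pow_eq_one_three k hk.ne' _ hk1, smul_zero, add_zero]
  refine smul_eq_of_prime_pow (p := 3) hA hq3 hj (n := 2) (by norm_num) hσ (fun y hy => ?_) hN hx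
  obtain ⟨v, rfl⟩ := B.surj 2 y hy
  rw [B.rep_spec, h1, one_mulVec]

/-- **An inertia element fixing the torsion of a level `m ≥ 3` prime to `q`** fixes all torsion
prime to `q`, if `j` is integral at `q`. -/
theorem smul_eq_of_level [hqf : Fact q.Prime] (hA : A.LiesOverPrime q)
    (hj : 0 ≤ padicValRat q (ratCurve W).j) {m : ℕ} (hm : 3 ≤ m) (hqm : ¬ q ∣ m) {σ : GQ}
    (hσ : σ ∈ A.inertiaSubgroupIn ℚ) (hfix : ∀ x : Pts W, m • x = 0 → σ • x = x)
    {N : ℕ} (hN : ¬ q ∣ N) {x : Pts W} (hx : N • x = 0) : σ • x = x := by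
  have hsub : ∀ {d : ℕ}, d ∣ m → ∀ y : Pts W, d • y = 0 → σ • y = y := fun {d} hd y hy => by
    obtain ⟨c, rfl⟩ := hd
    exact hfix y (by rw [mul_comm, mul_nsmul', hy, nsmul_zero])
  rcases Nat.four_dvd_or_exists_odd_prime_and_dvd_of_two_lt (show 2 < m by omega) with
    h4 | ⟨l, hl, hlm, hlo⟩
  · exact smul_eq_of_prime_pow (p := 2) hA
      (fun h => hqm (h ▸ dvd_trans (by norm_num) h4)) hj (n := 2) le_rfl hσ (hsub h4) hN hx
  · have := Fact.mk hl
    have hql : q ≠ l := fun h => hqm (h ▸ hlm)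
    rcases eq_or_ne l 3 with rfl | hl3
    · exact smul_eq_of_three hA hql hj hσ (hsub hlm) hN hx
    · refine smul_eq_of_prime_pow (p := l) hA hql hj (n := 1) ?_ hσ
        (hsub (by rwa [pow_one])) hN hx
      obtain ⟨c, hc⟩ := hlo
      have := hl.two_le
      rw [pow_one]
      omega

/-- The action modulo `p ^ n` of inertia at `q ≠ p`, with values in `SL₂`. -/
def inertiaRep (B : TateBasis p W) (hq : q.Prime) (hqp : q ≠ p) (hA : A.LiesOverPrime q) (n : ℕ) :
    A.inertiaSubgroupIn ℚ →* SpecialLinearGroup (Fin 2) (ZMod (p ^ n)) where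
  toFun σ := ⟨(PadicInt.toZModPow n).mapMatrix (B.rep σ.1), by
    rw [← RingHom.map_det, det_rep_inertia B hq hqp hA σ.2, map_one]⟩
  map_one' := Subtype.ext (by
    show (PadicInt.toZModPow n).mapMatrix (B.rep 1) = 1
    rw [map_one, map_one])
  map_mul' σ τ := Subtype.ext (by
    show (PadicInt.toZModPow n).mapMatrix (B.rep (σ.1 * τ.1)) =
      (PadicInt.toZModPow n).mapMatrix (B.rep σ.1) * (PadicInt.toZModPow n).mapMatrix (B.rep τ.1)
    rw [map_mul, map_mul])

/-- `SL₂(ℤ/nℤ)` as a set of quadruples. -/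
def slTwoQuad (n : ℕ) : SpecialLinearGroup (Fin 2) (ZMod n) ≃
    {x : ZMod n × ZMod n × ZMod n × ZMod n // x.1 * x.2.2.2 - x.2.1 * x.2.2.1 = 1} where
  toFun M := ⟨(M 0 0, M 0 1, M 1 0, M 1 1), by have := M.2; rwa [det_fin_two] at this⟩
  invFun x := ⟨!![x.1.1, x.1.2.1; x.1.2.2.1, x.1.2.2.2], by rw [det_fin_two_of]; exact x.2⟩
  left_inv M := by ext i j; fin_cases i <;> fin_cases j <;> rfl
  right_inv _ := rfl

/-- The subgroup of Galois fixing all torsion prime to `q`. -/
def torsionFixer (q : ℕ) (W : WeierstrassCurve ℤ) [(ratCurve W).IsElliptic] : Subgroup GQ where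
  carrier := {σ | ∀ N : ℕ, ¬ q ∣ N → ∀ x : Pts W, N • x = 0 → σ • x = x}
  one_mem' := fun _ _ x _ => one_smul GQ x
  mul_mem' := fun {σ τ} hσ hτ N hN x hx => by rw [mul_smul, hτ N hN x hx, hσ N hN x hx]
  inv_mem' := fun {σ} hσ N hN x hx => inv_smul_eq_iff.mpr (hσ N hN x hx).symm

/-- A level `p ^ n ≥ 3` bounds the image of inertia by `SL₂(ℤ/p ^ n)`. -/
theorem relIndex_torsionFixer_dvd (hA : A.LiesOverPrime q) [hqf : Fact q.Prime] (hqp : q ≠ p)
    (hj : 0 ≤ padicValRat q (ratCurve W).j) {n : ℕ} (hn : 3 ≤ p ^ n) :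
    (torsionFixer q W).relIndex (A.inertiaSubgroupIn ℚ) ∣
      Nat.card (SpecialLinearGroup (Fin 2) (ZMod (p ^ n))) := by
  obtain ⟨B⟩ := exists_tateBasis (p := p) W
  let f := inertiaRep B hqf.out hqp hA n
  have hle : f.ker ≤ (torsionFixer q W).subgroupOf (A.inertiaSubgroupIn ℚ) :=
    fun σ hσ N hN x hx => by
    refine smul_eq_of_level hA hj hn (fun h => hqp ((Nat.prime_dvd_prime_iff_eq hqf.out hp.out).mp
      (hqf.out.dvd_of_dvd_pow h))) σ.2 (fun y hy => ?_) hN hx
    obtain ⟨v, rfl⟩ := B.surj n y hy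
    have h0 : f σ = 1 := MonoidHom.mem_ker.mp hσ
    have h1 : (PadicInt.toZModPow n).mapMatrix (B.rep σ.1) = 1 := congrArg Subtype.val h0
    rw [B.rep_spec, B.phi_eq_iff]
    intro i
    rw [RingHom.map_mulVec, ← RingHom.mapMatrix_apply, h1, one_mulVec, Function.comp_apply]
  refine (Subgroup.index_dvd_of_le hle).trans ?_
  rw [Subgroup.index_ker]
  exact Subgroup.card_subgroup_dvd_card _

/-- **The image of inertia has order dividing `24`.** -/
theorem relIndex_torsionFixer_dvd_twentyfour (hA : A.LiesOverPrime q) [hqf : Fact q.Prime]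
    (hj : 0 ≤ padicValRat q (ratCurve W).j) :
    (torsionFixer q W).relIndex (A.inertiaSubgroupIn ℚ) ∣ 24 := by
  rcases eq_or_ne q 3 with rfl | hq3
  · have := Fact.mk Nat.prime_five
    have h4 := relIndex_torsionFixer_dvd (p := 2) (W := W) hA (by norm_num) hj
      (n := 2) (by norm_num)
    have h5 := relIndex_torsionFixer_dvd (p := 5) (W := W) hA (by norm_num) hj
      (n := 1) (by norm_num)
    have c4 : Nat.card (SpecialLinearGroup (Fin 2) (ZMod (2 ^ 2))) = 48 := by
      rw [show (2 : ℕ) ^ 2 = 4 by norm_num, Nat.card_congr (slTwoQuad 4), Nat.card_eq_fintype_card]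
      decide +kernel
    have c5 : Nat.card (SpecialLinearGroup (Fin 2) (ZMod (5 ^ 1))) = 120 := by
      rw [pow_one, Nat.card_congr (slTwoQuad 5), Nat.card_eq_fintype_card]
      decide +kernel
    rw [c4] at h4
    rw [c5] at h5
    exact (Nat.dvd_gcd h4 h5).trans (by norm_num)
  · have h3 := relIndex_torsionFixer_dvd (p := 3) (W := W) hA hq3 hj (n := 1) (by norm_num)
    have c3 : Nat.card (SpecialLinearGroup (Fin 2) (ZMod (3 ^ 1))) = 24 := by
      rw [pow_one, Nat.card_congr (slTwoQuad 3), Nat.card_eq_fintype_card]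
      decide +kernel
    rwa [c3] at h3

/-- A point `y` with `σ • (σ • y - y) = σ • y - y` whose image under `σ + 1` is negated by `σ` has
`4 • y = 4 • (σ • y + y)`. -/
theorem four_nsmul_eq_of_unipotent {σ : GQ} {y : Pts W}
    (h : σ • (σ • y - y) = σ • y - y) (hz : σ • (σ • y + y) = -(σ • y + y)) :
    4 • y = 4 • (σ • y + y) := by
  rw [smul_sub] at h
  rw [gal_smul_add] at hz
  have key : 4 • y - 4 • (σ • y + y) =
      (σ • σ • y - σ • y - (σ • y - y)) - (σ • σ • y + σ • y + (σ • y + y)) := by abel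
  rw [← sub_eq_zero, key, h, hz]
  abel

/-- **Minus a unipotent element is not `1` at a level `p ^ n ≥ 3`.** -/
theorem not_smul_eq_neg {σ : GQ}
    (hu : ∀ (n : ℕ) (x : Pts W), p ^ n • x = 0 → σ • (σ • x - x) = σ • x - x)
    {n : ℕ} (hn : 3 ≤ p ^ n) : ¬ ∀ x : Pts W, p ^ n • x = 0 → σ • x = -x := by
  intro hneg
  obtain ⟨B⟩ := exists_tateBasis (p := p) W
  set y := B.φ (n + n) (Pi.single 0 1) with hy
  set z := σ • y + y with hzdef
  have hz : p ^ n • z = 0 := by
    have h1 : p ^ n • (p ^ n • y) = 0 := by rw [← mul_nsmul', ← pow_add, B.nsmul_phi]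
    rw [hzdef, nsmul_add, ← smul_nsmul_point, hneg _ h1, neg_add_cancel]
  have h4 : 4 • y = 4 • z := four_nsmul_eq_of_unipotent (hu _ y (B.nsmul_phi _ _)) (hneg z hz)
  have hd : p ^ (n + n) ∣ p ^ n * 4 := (nsmul_phi_single_eq_zero B).mp (by
    rw [mul_nsmul', ← hy, h4, nsmul_left_comm, hz, nsmul_zero])
  rw [pow_add] at hd
  have h4' := Nat.dvd_of_mul_dvd_mul_left (pow_pos hp.out.pos n) hd
  have hpn : p ^ n = 4 := by
    have := Nat.le_of_dvd (by norm_num) h4'
    interval_cases hk : p ^ n <;> omega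
  rw [hpn] at hz
  have := Nat.le_of_dvd (by norm_num) ((nsmul_phi_single_eq_zero B (n := n + n) (k := 4)).mp
    (by rw [← hy, h4, hz]))
  rw [pow_add, hpn] at this
  omega

end Points

end FA.GoodReduction

end
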