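import Fermat.Agent.Root.SummaryGoodReductionTraces
import Fermat.Agent.Root.SummaryTwists
import Fermat.Agent.Twists.KroneckerChar
import Fermat.Agent.Two.CurvePoint

/-!
# Unipotent inertia forces semistable reduction

A twist by `d` of a curve semistable at `q` is semistable at `q` if inertia at `q` fixes `√d`: then
the squarefree part of `d` is a unit at `q` and `1` modulo `4` if `q = 2`, so an equation twists
integrally. If inertia acts unipotently on the `p`-power torsion and `j` is integral at `q`, the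
action is trivial, so the reduction is good. If `j` has a pole, the twist to a multiplicative curve
changes the action by a character, which unipotence forces to be trivial.
-/

set_option autoImplicit false
set_option linter.style.haveILetI false
set_option linter.unusedSectionVars false

noncomputable section

open WeierstrassCurve WeierstrassCurve.Affine Matrix FA.Frob FA.RT FA.RT.Tate FA.Local
open scoped WeierstrassCurve.Affine

local notation "Qb" => AlgebraicClosure ℚ
local notation "GQ" => AlgebraicClosure ℚ ≃ₐ[ℚ] AlgebraicClosure ℚ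

namespace FA.GoodReduction

/-- A squarefree integer whose square root is fixed by inertia is not divisible by `q`, and is `1`
modulo `4` if `q = 2`. -/
theorem not_dvd_of_sqrt_fixed {q : ℕ} (hq : q.Prime) {A : ValuationSubring Qb}
    (hA : A.LiesOverPrime q) {D : ℤ} (hD : Squarefree D) {r : Qb} (hr : r ^ 2 = (D : Qb))
    (hfix : ∀ σ ∈ A.inertiaSubgroupIn ℚ, σ r = r) :
    ¬ (q : ℤ) ∣ D ∧ (q = 2 → D % 4 = 1) := by
  have hlt : A.valuation (q : Qb) < 1 := LocalDef.valuation_p_lt_one hA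
  have hpos : 0 < A.valuation (q : Qb) := LocalDef.valuation_p_pos hq
  have hkur : r ∈ LocalDef.kur A := LocalDef.mem_kur.mpr hfix
  have hnd : ¬ (q : ℤ) ∣ D := by
    rintro ⟨m, rfl⟩
    have hm : ¬ (q : ℤ) ∣ m := fun ⟨c, hc⟩ =>
      (Nat.prime_iff_prime_int.mp hq).not_isUnit (hD _ ⟨c, by rw [hc]; ring⟩)
    have h1 : A.valuation r ^ 2 = A.valuation (q : Qb) := by
      rw [← map_pow, hr, Int.cast_mul, Int.cast_natCast, map_mul,
        natCast_eq_one_of_not_dvd hq hlt hm, mul_one]
    obtain ⟨i, hi⟩ := LocalDef.exists_zpow_of_mem_kur hq hA hkur (fun h => hpos.ne (by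
      rw [← h1, h, map_zero, zero_pow two_ne_zero]))
    rw [hi, ← zpow_natCast, ← _root_.zpow_mul] at h1
    nth_rw 2 [← zpow_one (A.valuation (q : Qb))] at h1
    have := zpow_right_injective₀ hpos hlt.ne h1
    omega
  refine ⟨hnd, ?_⟩
  rintro rfl
  by_contra h4
  have hD3 : D % 4 = 3 := by push_cast at hnd; omega
  obtain ⟨m, hm⟩ : ∃ m : ℤ, D - 1 = 2 * m ∧ ¬ (2 : ℤ) ∣ m := ⟨(D - 1) / 2, by omega, by omega⟩
  have hr1 : A.valuation r ≤ 1 := by
    by_contra hc
    have := one_lt_pow₀ (not_le.mp hc) two_ne_zero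
    rw [← map_pow, hr] at this
    exact absurd (intCast_le_one D) (not_le.mpr this)
  have ha : A.valuation (r - 1) ≤ 1 := A.valuation.map_sub_le hr1 A.valuation.map_one.le
  have hb : A.valuation (r + 1) ≤ 1 := A.valuation.map_add_le hr1 A.valuation.map_one.le
  have h2 : A.valuation (2 : Qb) < 1 := by simpa using hlt
  have hprod : A.valuation (r - 1) * A.valuation (r + 1) = A.valuation (2 : Qb) := by
    rw [← map_mul, show (r - 1) * (r + 1) = ((D - 1 : ℤ) : Qb) by push_cast; linear_combination hr,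
      hm.1, Int.cast_mul, map_mul, natCast_eq_one_of_not_dvd hq hlt (n := m) (by simpa using hm.2),
      mul_one]
    norm_num
  rcases lt_or_eq_of_le ha with ha1 | ha1
  · -- both factors are then at most `|2|`, so their product is smaller
    have hle := LocalDef.le_of_mem_kur hq hA
      (sub_mem hkur (one_mem _)) ha1
    have hb1 : A.valuation (r + 1) < 1 := by
      rw [show r + 1 = (r - 1) + 2 by ring]; exact A.valuation.map_add_lt ha1 h2
    have hle' := LocalDef.le_of_mem_kur hq hA (add_mem hkur (one_mem _)) hb1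
    push_cast at hle hle'
    have h0 : (0 : _) < A.valuation (2 : Qb) := by simpa using hpos
    have hle2 := mul_le_mul' hle hle'
    rw [hprod] at hle2
    exact absurd hle2 (not_le.mpr (mul_lt_of_lt_one_right h0 h2))
  · rw [ha1, one_mul] at hprod
    have : A.valuation (r - 1) < 1 := by
      rw [show r - 1 = (r + 1) - 2 by ring]
      exact A.valuation.map_sub_lt (hprod ▸ h2) h2
    exact this.ne ha1

/-- **Twisting by a square root fixed by inertia preserves semistability**: if the twist by `d` has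
a semistable equation at `q` and inertia at `q` fixes `√d`, then so has the curve. -/
theorem isSemistableAt_of_twist_fixed {E : WeierstrassCurve ℚ} {q : ℕ} [hqf : Fact q.Prime]
    {A : ValuationSubring Qb} (hA : A.LiesOverPrime q) {d : ℚ} (hd : d ≠ 0)
    {W : WeierstrassCurve ℤ} (hW : W.IsIntegralModelOf (FA.Twists.quadTwist E d))
    (hs : ¬ ((q : ℤ) ∣ W.Δ ∧ (q : ℤ) ∣ W.c₄)) {s : Qb} (hs2 : s ^ 2 = algebraMap ℚ Qb d)
    (hfix : ∀ σ ∈ A.inertiaSubgroupIn ℚ, σ s = s) :
    FA.Root.IsSemistableAt E q := by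
  have hq : q.Prime := hqf.out
  obtain ⟨D, t, hD, ht, rfl⟩ := FA.Twists.exists_squarefree_mul_sq hd
  have ht' : (algebraMap ℚ Qb t) ≠ 0 := (map_ne_zero _).mpr ht
  obtain ⟨hnd, hD4⟩ := not_dvd_of_sqrt_fixed hq hA hD (r := s / algebraMap ℚ Qb t) (by
    rw [div_pow, hs2, map_mul, map_pow, mul_div_cancel_left₀ _ (pow_ne_zero 2 ht'), map_intCast])
    fun σ hσ => by rw [map_div₀, hfix σ hσ, σ.commutes]
  obtain ⟨k, hk⟩ : ∃ k : ℤ_[q], 4 * k + 1 = (D : ℤ_[q]) := by
    rcases eq_or_ne q 2 with rfl | h2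
    · exact ⟨(((D - 1) / 4 : ℤ) : ℤ_[2]), by
        have := hD4 rfl
        have e : (4 : ℤ) * ((D - 1) / 4) + 1 = D := by omega
        exact_mod_cast congrArg (fun n : ℤ => (n : ℤ_[2])) e⟩
    · have hu : IsUnit (4 : ℤ_[q]) := by
        rw [PadicInt.isUnit_iff]
        refine le_antisymm (PadicInt.norm_le_one _) (not_lt.mp fun hlt => ?_)
        rw [show (4 : ℤ_[q]) = ((4 : ℤ) : ℤ_[q]) by norm_num,
          PadicInt.norm_intCast_lt_one_iff] at hlt
        have h4 : q ∣ 2 ^ 2 := by exact_mod_cast hlt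
        exact h2 ((Nat.prime_dvd_prime_iff_eq hq Nat.prime_two).mp (hq.dvd_of_dvd_pow h4))
      obtain ⟨c, hc⟩ : (4 : ℤ_[q]) ∣ (D : ℤ_[q]) - 1 := hu.dvd
      exact ⟨c, by rw [← hc, sub_add_cancel]⟩
  obtain ⟨C, hC⟩ := hW
  have hDp : ¬ (q : ℤ_[q]) ∣ (D : ℤ_[q]) := fun h => hnd (by
    rwa [← PadicInt.norm_lt_one_iff_dvd, PadicInt.norm_intCast_lt_one_iff] at h)
  set V := W.map (Int.castRingHom ℤ_[q])
  obtain ⟨e4, e6, eΔ⟩ := FA.Twists.twistEquation_invariants V k
  rw [hk] at e4 e6 eΔ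
  have c4 := congrArg WeierstrassCurve.c₄ hC
  have c6 := congrArg WeierstrassCurve.c₆ hC
  rw [variableChange_c₄, FA.Root.quadTwist_c₄, map_c₄, eq_intCast] at c4
  rw [variableChange_c₆, FA.Root.quadTwist_c₆, map_c₆, eq_intCast] at c6
  have hu0 : ((C.u⁻¹ : ℚˣ) : ℚ) ≠ 0 := Units.ne_zero _
  have hD0 : (D : ℚ) ≠ 0 := Int.cast_ne_zero.mpr hD.ne_zero
  refine FA.Root.isSemistableAt_of_invariants E (FA.Root.twistEquation V k)
    (w := ((6 * D * t * ((C.u⁻¹ : ℚˣ) : ℚ) : ℚ) : ℚ_[q]))
    (Rat.cast_ne_zero.mpr (by positivity)) ?_ ?_ fun h => hs ?_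
  · rw [e4]
    simp only [V, map_c₄, eq_intCast, PadicInt.coe_mul, PadicInt.coe_pow, PadicInt.coe_intCast]
    have := congrArg (fun x : ℚ => (x : ℚ_[q])) c4
    push_cast at this ⊢
    linear_combination -(D : ℚ_[q]) ^ 2 * this
  · rw [e6]
    simp only [V, map_c₆, eq_intCast, PadicInt.coe_mul, PadicInt.coe_pow, PadicInt.coe_intCast]
    have := congrArg (fun x : ℚ => (x : ℚ_[q])) c6
    push_cast at this ⊢
    linear_combination -(D : ℚ_[q]) ^ 3 * this
  · have key : ∀ {n : ℕ} {z : ℤ}, (q : ℤ_[q]) ∣ (D : ℤ_[q]) ^ n * (z : ℤ_[q]) → (q : ℤ) ∣ z :=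
      fun {n z} h => by
        rcases PadicInt.prime_p.dvd_or_dvd h with h | h
        · exact absurd (PadicInt.prime_p.dvd_of_dvd_pow h) hDp
        · rwa [← PadicInt.norm_lt_one_iff_dvd, PadicInt.norm_intCast_lt_one_iff] at h
    rw [eΔ, e4, map_Δ, map_c₄, eq_intCast, eq_intCast] at h
    exact ⟨key h.1, key h.2⟩

variable {p : ℕ} [hp : Fact p.Prime] {W : WeierstrassCurve ℤ} [(ratCurve W).IsElliptic]

/-- Unipotence on the points is unipotence of the matrix. -/
theorem rep_sub_one_sq_iff (B : TateBasis p W) (σ : GQ) :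
    (B.rep σ - 1) * (B.rep σ - 1) = 0 ↔
      ∀ (n : ℕ) (x : Pts W), p ^ n • x = 0 → σ • (σ • x - x) = σ • x - x := by
  have hlin : ∀ a b : Pts W, σ • (a - b) = σ • a - σ • b :=
    fun a b => map_sub (DistribSMul.toAddMonoidHom (Pts W) σ) a b
  have key : ∀ (n : ℕ) (v : Fin 2 → ℤ_[p]),
      B.φ n (((B.rep σ - 1) * (B.rep σ - 1)) *ᵥ v) =
        σ • (σ • B.φ n v - B.φ n v) - (σ • B.φ n v - B.φ n v) := fun n v => by
    rw [← mulVec_mulVec, sub_mulVec, one_mulVec, map_sub, ← B.rep_spec, sub_mulVec, one_mulVec,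
      map_sub, ← B.rep_spec]
  constructor
  · intro h n x hx
    obtain ⟨v, rfl⟩ := B.surj n x hx
    rw [← sub_eq_zero, ← key, h, zero_mulVec, map_zero]
  · intro h
    refine B.ext_phi fun n v => ?_
    rw [key, zero_mulVec, map_zero, sub_eq_zero]
    exact h n _ (B.nsmul_phi n v)

theorem det_rep_inertia (B : TateBasis p W) {q : ℕ} (hq : q.Prime) (hqp : q ≠ p)
    {A : ValuationSubring Qb} (hA : A.LiesOverPrime q) {σ : GQ}
    (hσ : σ ∈ A.inertiaSubgroupIn ℚ) : (B.rep σ).det = 1 := by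
  rw [B.det_rep, FA.JTorsion.cycP_inertia p hq hqp hA hσ, Units.val_one]

/-- A `2 × 2` matrix of trace `2` and determinant `1` is unipotent. -/
theorem sub_one_sq_of_trace {R : Type*} [CommRing R] {M : Matrix (Fin 2) (Fin 2) R}
    (ht : M.trace = 2) (hd : M.det = 1) : (M - 1) * (M - 1) = 0 := by
  rw [Matrix.trace_fin_two] at ht
  rw [Matrix.det_fin_two] at hd
  ext i j
  fin_cases i <;> fin_cases j <;>
    simp [Matrix.mul_apply, Fin.sum_univ_two]
  · linear_combination (M 0 0) * ht - hd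
  · linear_combination (M 0 1) * ht
  · linear_combination (M 1 0) * ht
  · linear_combination (M 1 1) * ht - hd

/-- A unipotent `2 × 2` matrix over a domain has trace `2`. -/
theorem trace_eq_two {R : Type*} [CommRing R] [IsDomain R] {M : Matrix (Fin 2) (Fin 2) R}
    (h : (M - 1) * (M - 1) = 0) : M.trace = 2 := by
  have hn : IsNilpotent (M - 1) := ⟨2, by rw [pow_two, h]⟩
  have h1 := (Matrix.isNilpotent_trace_of_isNilpotent hn).eq_zero
  rw [Matrix.trace_sub, Matrix.trace_one, sub_eq_zero] at h1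
  simpa using h1

end FA.GoodReduction

end
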