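import Fermat.Agent.GoodReduction.FrobeniusEverywhere
import Fermat.Agent.GoodReduction.FrobeniusSemisimple
import Fermat.Agent.Deform.Frobenius
import Fermat.Agent.Root.SummaryInertiaTraces

/-!
# The trace of every element of the Weil group

An element of the decomposition group at a place over `q` acting on the residue field as
`x ↦ x ^ (q ^ n)` is `σ ^ n τ` with `σ` a Frobenius and `τ` an inertia element. Its trace obeys
the recurrence of `σ`, so it is one integer for all `p ≠ q`: at most `2 √(q ^ n)` where `j` is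
integral, as the image of inertia is finite, and `± (q ^ n + 1)` at a pole.
-/

set_option autoImplicit false
set_option linter.style.haveILetI false
set_option linter.unusedSectionVars false

noncomputable section

open Matrix WeierstrassCurve FA.EC FA.Frob FA.RT FA.RT.Tate
open scoped WeierstrassCurve.Affine

local notation "Qb" => AlgebraicClosure ℚ
local notation "GQ" => AlgebraicClosure ℚ ≃ₐ[ℚ] AlgebraicClosure ℚ

namespace FA.GoodReduction

section Residue

variable {A : ValuationSubring Qb} {q : ℕ}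

/-- An element of the decomposition group acting on the residue field as `x ↦ x ^ (q ^ n)`. -/
def IsWeilAt (A : ValuationSubring Qb) (g : GQ) (q n : ℕ) : Prop :=
  ∃ hg : g ∈ A.decompositionSubgroup ℚ,
    ∀ x : IsLocalRing.ResidueField A, (⟨g, hg⟩ : A.decompositionSubgroup ℚ) • x = x ^ q ^ n

theorem IsWeilAt.pow {g : GQ} {n : ℕ} (hg : IsWeilAt A g q n) :
    ∀ k, IsWeilAt A (g ^ k) q (n * k)
  | 0 => ⟨by rw [pow_zero]; exact one_mem _, fun x => by
      simp only [pow_zero, mul_zero, pow_one]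
      exact one_smul _ x⟩
  | k + 1 => by
    obtain ⟨hk, hkx⟩ := IsWeilAt.pow hg k
    obtain ⟨hm, hx⟩ := hg
    refine ⟨pow_mem hm _, fun x => ?_⟩
    rw [show (⟨g ^ (k + 1), pow_mem hm (k + 1)⟩ : A.decompositionSubgroup ℚ) =
      ⟨g ^ k, hk⟩ * ⟨g, hm⟩ from Subtype.ext (pow_succ g k), mul_smul, hx, hkx, ← pow_mul,
      ← pow_add, mul_add_one, add_comm]

theorem IsWeilAt.inv_mul_mem_inertia {g g' : GQ} {n : ℕ} (hg : IsWeilAt A g q n)
    (hg' : IsWeilAt A g' q n) : g⁻¹ * g' ∈ A.inertiaSubgroupIn ℚ := by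
  obtain ⟨hm, hx⟩ := hg
  obtain ⟨hm', hx'⟩ := hg'
  refine Subgroup.mem_map.mpr ⟨⟨g, hm⟩⁻¹ * ⟨g', hm'⟩, MonoidHom.mem_ker.mpr
    (RingEquiv.ext fun x => ?_), rfl⟩
  show ((⟨g, hm⟩⁻¹ * ⟨g', hm'⟩ : A.decompositionSubgroup ℚ) • x) = x
  rw [mul_smul, hx', ← hx, inv_smul_smul]

theorem isWeilAt_of_frobenius {σ : GQ} (hσ : A.IsFrobeniusAt σ q) : IsWeilAt A σ q 1 :=
  ⟨hσ.mem_decompositionSubgroup, fun x => by rw [pow_one]; exact hσ.smul_residue_eq x⟩

theorem isFrobeniusAt_mul {σ τ : GQ} (hσ : A.IsFrobeniusAt σ q)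
    (hτ : τ ∈ A.inertiaSubgroupIn ℚ) : A.IsFrobeniusAt (σ * τ) q :=
  ⟨mul_mem hσ.mem_decompositionSubgroup (FA.LocalDef.inertia_le_decomposition hτ), fun x => by
    rw [show (⟨σ * τ, mul_mem hσ.mem_decompositionSubgroup
        (FA.LocalDef.inertia_le_decomposition hτ)⟩ : A.decompositionSubgroup ℚ) =
      ⟨σ, hσ.mem_decompositionSubgroup⟩ * ⟨τ, FA.LocalDef.inertia_le_decomposition hτ⟩ from rfl,
      mul_smul, FA.LocalDef.smul_inertia_res hτ]
    exact hσ.smul_residue_eq x⟩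

end Residue

/-- The recurrence for the traces of `M ^ n * N`. -/
theorem trace_pow_mul_recurrence {R : Type*} [CommRing R] (M N : Matrix (Fin 2) (Fin 2) R) (n : ℕ) :
    (M ^ (n + 2) * N).trace =
      M.trace * (M ^ (n + 1) * N).trace - M.det * (M ^ n * N).trace := by
  rw [pow_add, sq, LocalDef.mul_self_two M, mul_sub, mul_smul_comm, mul_smul_comm, mul_one,
    ← pow_succ, sub_mul, smul_mul_assoc, smul_mul_assoc, trace_sub, trace_smul, trace_smul,
    smul_eq_mul, smul_eq_mul]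

/-- A trace whose recurrence is bounded by `2 √Q ^ m` at one `m > 0` is at most `2 √Q`. -/
theorem sq_le_of_pointTrace {c : ℤ} {Q m : ℕ} (hm : m ≠ 0)
    (h : FA.HasseBound.pointTrace c Q m ^ 2 ≤ 4 * (Q : ℤ) ^ m) : c ^ 2 ≤ 4 * Q := by
  by_contra hc
  rw [not_le] at hc
  have hc' : (4 * Q : ℝ) < (c : ℝ) ^ 2 := by exact_mod_cast hc
  have hd := Real.sq_sqrt (sub_nonneg.mpr hc'.le)
  have hd0 : 0 < Real.sqrt ((c : ℝ) ^ 2 - 4 * Q) := Real.sqrt_pos.mpr (sub_pos.mpr hc')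
  set d := Real.sqrt ((c : ℝ) ^ 2 - 4 * Q)
  set α := ((c : ℝ) + d) / 2
  set β := ((c : ℝ) - d) / 2
  have hp : α * β = Q := by
    simp only [α, β]
    linear_combination (-1 / 4 : ℝ) * hd
  have he : (FA.HasseBound.pointTrace c Q m : ℝ) = α ^ m + β ^ m := by
    have := FA.HasseBound.pointTrace_eq (t := c) (q := (Q : ℤ)) (α := (α : ℂ)) (β := (β : ℂ))
      (by simp only [α, β]; push_cast; ring)
      (by rw [← Complex.ofReal_mul, hp]; push_cast; rfl) m
    exact_mod_cast this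
  have h' : (α ^ m + β ^ m) ^ 2 ≤ 4 * (α * β) ^ m := by
    rw [← he, hp]
    exact_mod_cast h
  have h0 : α ^ m = β ^ m := by
    refine sub_eq_zero.mp (pow_eq_zero_iff two_ne_zero |>.mp
      (le_antisymm ?_ (sq_nonneg (α ^ m - β ^ m))))
    rw [mul_pow] at h'
    linarith [show (α ^ m - β ^ m) ^ 2 = (α ^ m + β ^ m) ^ 2 - 4 * (α ^ m * β ^ m) by ring]
  have h1 : |α| = |β| := (pow_left_inj₀ (abs_nonneg α) (abs_nonneg β) hm).mp
    (by rw [← abs_pow, ← abs_pow, h0])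
  rcases abs_eq_abs.mp h1 with h2 | h2
  · simp only [α, β] at h2
    linarith
  · simp only [α, β] at h2
    have : (c : ℝ) = 0 := by linarith
    rw [this] at hc'
    have : (0 : ℝ) ≤ Q := Nat.cast_nonneg Q
    linarith [zero_pow (M₀ := ℝ) two_ne_zero]

variable {W : WeierstrassCurve ℤ} [(ratCurve W).IsElliptic] {q : ℕ} [hqf : Fact q.Prime]
  {A : ValuationSubring Qb}

/-- The trace and the determinant of an inertia element on all Tate modules away from `q`. -/
theorem exists_inertia_data (hA : A.LiesOverPrime q) {τ : GQ} (hτ : τ ∈ A.inertiaSubgroupIn ℚ) :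
    ∃ t : ℤ, (padicValRat q (ratCurve W).j < 0 → t = 2 ∨ t = -2) ∧
      ∀ (p : ℕ) [Fact p.Prime], q ≠ p → ∀ B : TateBasis p W,
        (B.rep τ).trace = (t : ℤ_[p]) ∧ (B.rep τ).det = 1 := by
  classical
  have hq : q.Prime := hqf.out
  by_cases hj : 0 ≤ padicValRat q (ratCurve W).j
  · obtain ⟨t, -, ht⟩ := exists_trace_of_integral hA hj hτ
    exact ⟨t, fun h => absurd hj (not_le.mpr h),
      fun p _ hqp B => ⟨ht p B hqp, det_rep_inertia B hq hqp hA hτ⟩⟩
  · obtain ⟨s, hs⟩ := exists_sign_equation (E := ratCurve W) (not_le.mp hj) hA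
    obtain ⟨t, ht, -, -, heq⟩ := hs τ hτ
    refine ⟨t, fun _ => ht, fun p hp hqp B => ?_⟩
    have hd := det_rep_inertia B hq hqp hA hτ
    refine ⟨trace_of_equation_det B (q := 1) one_ne_zero (by rw [hd, Nat.cast_one])
      (fun n x hx => ?_), hd⟩
    rw [Nat.cast_one, one_zsmul]
    exact heq (p ^ n) (fun h => hqp ((Nat.prime_dvd_prime_iff_eq hq hp.out).mp
      (hq.dvd_of_dvd_pow h))) x hx

/-- **The trace of `σ ^ n τ`**, `σ` a Frobenius and `τ` an inertia element, is one integer for all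
`p ≠ q`, equal to `± (q ^ n + 1)` at a pole of `j`. -/
theorem exists_trace_pow_mul (hA : A.LiesOverPrime q) {σ τ : GQ} (hσ : A.IsFrobeniusAt σ q)
    (hτ : τ ∈ A.inertiaSubgroupIn ℚ) (n : ℕ) :
    ∃ c : ℤ,
      (padicValRat q (ratCurve W).j < 0 → c = (q : ℤ) ^ n + 1 ∨ c = -((q : ℤ) ^ n + 1)) ∧
      ∀ (p : ℕ) [Fact p.Prime], q ≠ p → ∀ B : TateBasis p W,
        (B.rep (σ ^ n * τ)).trace = (c : ℤ_[p]) ∧ (B.rep (σ ^ n * τ)).det = (q : ℤ_[p]) ^ n := by
  have hq : q.Prime := hqf.out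
  obtain ⟨a, -, hpa, -, ha⟩ := exists_frobenius_data (W := W) hA hσ
  obtain ⟨t, hpt, ht⟩ := exists_inertia_data (W := W) hA hτ
  obtain ⟨b, -, hpb, -, hb⟩ := exists_frobenius_data (W := W) hA (isFrobeniusAt_mul hσ hτ)
  have hdet : ∀ (k : ℕ) (p : ℕ) [Fact p.Prime], q ≠ p → ∀ B : TateBasis p W,
      (B.rep (σ ^ k * τ)).det = (q : ℤ_[p]) ^ k := fun k p _ hqp B => by
    rw [map_mul, map_pow, det_mul, det_pow, (ha p hqp B).2, (ht p hqp B).2, mul_one]
  by_cases hj : 0 ≤ padicValRat q (ratCurve W).j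
  · have key : ∀ k, ∃ c c' : ℤ, ∀ (p : ℕ) [Fact p.Prime], q ≠ p → ∀ B : TateBasis p W,
        (B.rep σ ^ k * B.rep τ).trace = (c : ℤ_[p]) ∧
          (B.rep σ ^ (k + 1) * B.rep τ).trace = (c' : ℤ_[p]) := by
      intro k
      induction k with
      | zero => exact ⟨t, b, fun p _ hqp B => ⟨by rw [pow_zero, one_mul, (ht p hqp B).1],
          by rw [zero_add, pow_one, ← map_mul, (hb p hqp B).1]⟩⟩
      | succ k ih =>
        obtain ⟨c, c', hc⟩ := ih
        refine ⟨c', a * c' - q * c, fun p _ hqp B => ⟨(hc p hqp B).2, ?_⟩⟩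
        rw [trace_pow_mul_recurrence, (hc p hqp B).1, (hc p hqp B).2, (ha p hqp B).1,
          (ha p hqp B).2]
        push_cast
        ring
    obtain ⟨c, _, hc⟩ := key n
    exact ⟨c, fun h => absurd hj (not_le.mpr h), fun p _ hqp B =>
      ⟨by rw [map_mul, map_pow]; exact (hc p hqp B).1, hdet n p hqp B⟩⟩
  replace hj := not_le.mp hj
  obtain ⟨s, hs, rfl⟩ : ∃ s : ℤ, (s = 1 ∨ s = -1) ∧ t = s * 2 := by
    rcases hpt hj with rfl | rfl
    exacts [⟨1, Or.inl rfl, rfl⟩, ⟨-1, Or.inr rfl, rfl⟩]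
  obtain ⟨b₂, -, hpb₂, -, hb₂⟩ :=
    exists_frobenius_data (W := W) hA (isFrobeniusAt_mul hσ (mul_mem hτ hτ))
  -- the three Frobenius traces fix the sign of `σ τ`
  have hb' : b = s * a := by
    obtain ⟨p, hp, hqp⟩ : ∃ p, p.Prime ∧ q ≠ p := by
      rcases eq_or_ne q 2 with rfl | h
      exacts [⟨3, Nat.prime_three, by norm_num⟩, ⟨2, Nat.prime_two, h⟩]
    haveI := Fact.mk hp
    obtain ⟨B⟩ := exists_tateBasis (p := p) W
    have h : ((b₂ : ℤ) : ℤ_[p]) = ((s * 2 * b - a : ℤ) : ℤ_[p]) := by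
      rw [← (hb₂ p hqp B).1, map_mul, map_mul, LocalDef.mul_self_two (B.rep τ), mul_sub,
        mul_smul_comm, mul_smul_comm, mul_one, trace_sub, trace_smul, trace_smul, (ht p hqp B).1,
        (ht p hqp B).2, (ha p hqp B).1, ← map_mul, (hb p hqp B).1, smul_eq_mul, one_smul]
      push_cast
      ring
    have h' : b₂ = s * 2 * b - a := Int.cast_injective h
    have hq0 : (0 : ℤ) < (q : ℤ) + 1 := by positivity
    rcases hs with rfl | rfl <;> rcases hpa hj with rfl | rfl <;> rcases hpb hj with rfl | rfl <;>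
      rcases hpb₂ hj with rfl | rfl <;> linarith
  have htr : ∀ (k : ℕ) (p : ℕ) [Fact p.Prime], q ≠ p → ∀ B : TateBasis p W,
      (B.rep σ ^ k * B.rep τ).trace = ((s * FA.HasseBound.pointTrace a q k : ℤ) : ℤ_[p]) := by
    intro k
    induction k using Nat.twoStepInduction with
    | zero => exact fun p _ hqp B => by rw [pow_zero, one_mul, (ht p hqp B).1]; rfl
    | one => exact fun p _ hqp B => by rw [pow_one, ← map_mul, (hb p hqp B).1, hb']; rfl
    | more k ih1 ih2 =>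
      intro p _ hqp B
      rw [trace_pow_mul_recurrence, ih1 p hqp B, ih2 p hqp B, (ha p hqp B).1, (ha p hqp B).2,
        FA.HasseBound.pointTrace]
      push_cast
      ring
  refine ⟨s * FA.HasseBound.pointTrace a q n, fun _ => ?_, fun p _ hqp B =>
    ⟨by rw [map_mul, map_pow]; exact htr n p hqp B, hdet n p hqp B⟩⟩
  obtain ⟨η, hη, rfl⟩ : ∃ η : ℤ, (η = 1 ∨ η = -1) ∧ a = η * ((q : ℤ) + 1) := by
    rcases hpa hj with rfl | rfl
    exacts [⟨1, Or.inl rfl, (one_mul _).symm⟩, ⟨-1, Or.inr rfl, (neg_one_mul _).symm⟩]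
  have hη2 : η * η = 1 := by rcases hη with rfl | rfl <;> norm_num
  have hP : ∀ k, FA.HasseBound.pointTrace (η * ((q : ℤ) + 1)) q k = η ^ k * ((q : ℤ) ^ k + 1) := by
    intro k
    induction k using Nat.twoStepInduction with
    | zero => simp [FA.HasseBound.pointTrace]
    | one => simp [FA.HasseBound.pointTrace]
    | more k ih1 ih2 =>
      rw [FA.HasseBound.pointTrace, ih1, ih2]
      ring_nf
      rw [show η ^ 2 = 1 by rw [sq]; exact hη2]
      ring
  rw [hP, ← mul_assoc]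
  rcases hη with rfl | rfl <;> rcases hs with rfl | rfl <;>
    rcases neg_one_pow_eq_or ℤ n with h | h <;> simp [h]

/-- **The trace of an element of the Weil group** is one integer for all `p ≠ q`. -/
theorem exists_weil_data (hA : A.LiesOverPrime q) {g : GQ} {n : ℕ} (hg : IsWeilAt A g q n) :
    ∃ c : ℤ, (0 ≤ padicValRat q (ratCurve W).j → c ^ 2 ≤ 4 * (q : ℤ) ^ n) ∧
      (padicValRat q (ratCurve W).j < 0 → c = (q : ℤ) ^ n + 1 ∨ c = -((q : ℤ) ^ n + 1)) ∧
      ∀ (p : ℕ) [Fact p.Prime], q ≠ p → ∀ B : TateBasis p W,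
        (B.rep g).trace = (c : ℤ_[p]) ∧ (B.rep g).det = (q : ℤ_[p]) ^ n := by
  have hq : q.Prime := hqf.out
  obtain ⟨σ, hσ⟩ := FA.Deform.exists_isFrobeniusAt hq hA
  have hσn : ∀ k, IsWeilAt A (σ ^ k) q k := fun k => by
    simpa using (isWeilAt_of_frobenius hσ).pow k
  obtain ⟨c, hpole, hc⟩ :=
    exists_trace_pow_mul (W := W) hA hσ ((hσn n).inv_mul_mem_inertia hg) n
  simp only [mul_inv_cancel_left] at hc
  refine ⟨c, fun hj => ?_, hpole, hc⟩
  obtain ⟨a, haint, -, -, ha⟩ := exists_frobenius_data (W := W) hA hσ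
  obtain ⟨p, hp, hqp⟩ : ∃ p, p.Prime ∧ q ≠ p := by
    rcases eq_or_ne q 2 with rfl | h
    exacts [⟨3, Nat.prime_three, by norm_num⟩, ⟨2, Nat.prime_two, h⟩]
  haveI := Fact.mk hp
  obtain ⟨B⟩ := exists_tateBasis (p := p) W
  -- inertia has finite image, so some power of `g` acts as the power of `σ`
  let T := (torsionFixer q W).subgroupOf (A.inertiaSubgroupIn ℚ)
  haveI : Finite (A.inertiaSubgroupIn ℚ ⧸ T) := Nat.finite_of_card_ne_zero fun h => by
    have := relIndex_torsionFixer_dvd_twentyfour (W := W) hA hj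
    rw [show (torsionFixer q W).relIndex (A.inertiaSubgroupIn ℚ) = 0 from h] at this
    simp at this
  let h : ℕ → A.inertiaSubgroupIn ℚ := fun k =>
    ⟨(σ ^ (n * k))⁻¹ * g ^ k, (hσn (n * k)).inv_mul_mem_inertia (hg.pow k)⟩
  obtain ⟨j, k, hjk, he⟩ : ∃ j k, j < k ∧ (h j : A.inertiaSubgroupIn ℚ ⧸ T) = h k := by
    obtain ⟨j, k, hne, he⟩ :=
      Finite.exists_ne_map_eq_of_infinite fun k => (h k : A.inertiaSubgroupIn ℚ ⧸ T)
    rcases lt_or_gt_of_ne hne with hlt | hlt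
    exacts [⟨j, k, hlt, he⟩, ⟨k, j, hlt, he.symm⟩]
  rw [QuotientGroup.eq, Subgroup.mem_subgroupOf, Subgroup.coe_mul, Subgroup.coe_inv] at he
  have hrep : B.rep ((σ ^ (n * j))⁻¹ * g ^ j) = B.rep ((σ ^ (n * k))⁻¹ * g ^ k) := by
    have h1 := B.rep_eq_one (fun m x hx => he (p ^ m) (fun hd => hqp
      ((Nat.prime_dvd_prime_iff_eq hq hp).mp (hq.dvd_of_dvd_pow hd))) x hx)
    conv_rhs => rw [show (σ ^ (n * k))⁻¹ * g ^ k =
      (h j : GQ) * ((h j : GQ)⁻¹ * h k) from (mul_inv_cancel_left _ _).symm]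
    rw [map_mul B.rep (h j : GQ), h1, mul_one]
  obtain ⟨m, rfl⟩ : ∃ m, k = m + 1 + j := ⟨k - j - 1, by omega⟩
  have hpow : B.rep (g ^ (m + 1)) = B.rep (σ ^ (n * (m + 1))) := by
    have h2 := congrArg (fun M => B.rep (σ ^ (n * (m + 1 + j))) * M * B.rep ((g ^ j)⁻¹)) hrep
    simp only [← map_mul] at h2
    rw [show σ ^ (n * (m + 1 + j)) * ((σ ^ (n * j))⁻¹ * g ^ j) * (g ^ j)⁻¹ =
        σ ^ (n * (m + 1)) by rw [mul_add n, pow_add]; group,
      show σ ^ (n * (m + 1 + j)) * ((σ ^ (n * (m + 1 + j)))⁻¹ * g ^ (m + 1 + j)) * (g ^ j)⁻¹ =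
        g ^ (m + 1) by rw [pow_add g]; group] at h2
    exact h2.symm
  have h3 : FA.HasseBound.pointTrace c ((q : ℤ) ^ n) (m + 1) =
      FA.HasseBound.pointTrace a q (n * (m + 1)) := by
    refine Int.cast_injective (α := ℤ_[p]) ?_
    rw [← trace_pow_eq_pointTrace (B.rep g) (hc p hqp B).1
        (by rw [(hc p hqp B).2]; push_cast; rfl),
      ← trace_pow_eq_pointTrace (B.rep σ) (ha p hqp B).1
        (by rw [(ha p hqp B).2, Int.cast_natCast]), ← map_pow, ← map_pow, hpow]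
  have h4 := abs_pointTrace_le hq (haint hj) (n * (m + 1))
  have h5 : FA.HasseBound.pointTrace c ((q ^ n : ℕ) : ℤ) (m + 1) ^ 2 ≤
      4 * ((q ^ n : ℕ) : ℤ) ^ (m + 1) := by
    push_cast
    rw [h3, ← pow_mul]
    have h6 := (sq_le_sq₀ (abs_nonneg _) (by positivity)).mpr h4
    rw [sq_abs, mul_pow, ← pow_mul, mul_comm (n * (m + 1)) 2, pow_mul,
      Real.sq_sqrt (Nat.cast_nonneg q)] at h6
    have h7 : ((FA.HasseBound.pointTrace a q (n * (m + 1)) ^ 2 : ℤ) : ℝ) ≤
        ((4 * (q : ℤ) ^ (n * (m + 1)) : ℤ) : ℝ) := by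
      push_cast
      linarith
    exact_mod_cast h7
  exact_mod_cast sq_le_of_pointTrace (Nat.succ_ne_zero m) h5

end FA.GoodReduction

end
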